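import Mathlib

/-!
# Algebras with a degree function

`DegreeFn K A`: a degree function on a `K`-algebra `A`, modelled on the pole order at the unique
point at infinity of an affine curve over an algebraically closed field `K`.
-/

open Module

namespace Fermat.Agent.S27D

/-- A degree function (pole order at the unique point at infinity) on a `K`-algebra. -/
structure DegreeFn (K A : Type*) [Field K] [CommRing A] [Algebra K A] where
  d : A → ℕ
  d_mul : ∀ a b, a ≠ 0 → b ≠ 0 → d (a * b) = d a + d b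
  d_add : ∀ a b, d (a + b) ≤ max (d a) (d b)
  d_algebraMap : ∀ c : K, d (algebraMap K A c) = 0
  lead : ∀ a b, a ≠ 0 → b ≠ 0 → d a = d b → ∃ c : K, a = c • b ∨ d (a - c • b) < d a

namespace DegreeFn

variable {K A : Type*} [Field K] [CommRing A] [IsDomain A] [Algebra K A] (D : DegreeFn K A)

omit [IsDomain A] in
lemma d_zero : D.d 0 = 0 := by
  have := D.d_algebraMap 0
  rwa [map_zero] at this

omit [IsDomain A] in
lemma d_one : D.d 1 = 0 := by
  have := D.d_algebraMap 1
  rwa [map_one] at this

lemma d_smul {c : K} (hc : c ≠ 0) (a : A) : D.d (c • a) = D.d a := by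
  by_cases ha : a = 0
  · rw [ha, smul_zero]
  · rw [Algebra.smul_def, D.d_mul _ _ ((map_ne_zero_iff _ (algebraMap K A).injective).mpr hc) ha,
      D.d_algebraMap, zero_add]

lemma d_smul_le (c : K) (a : A) : D.d (c • a) ≤ D.d a := by
  by_cases hc : c = 0
  · rw [hc, zero_smul, D.d_zero]; exact Nat.zero_le _
  · rw [D.d_smul hc]

lemma d_neg (a : A) : D.d (-a) = D.d a := by
  have := D.d_smul (c := (-1 : K)) (by simp) a
  rwa [neg_one_smul] at this

lemma d_sub_le (a b : A) : D.d (a - b) ≤ max (D.d a) (D.d b) := by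
  rw [sub_eq_add_neg, ← D.d_neg b]
  exact D.d_add _ _

lemma d_pow {a : A} (ha : a ≠ 0) (n : ℕ) : D.d (a ^ n) = n * D.d a := by
  induction n with
  | zero => rw [pow_zero, D.d_one, zero_mul]
  | succ n ih => rw [pow_succ, D.d_mul _ _ (pow_ne_zero n ha) ha, ih]; ring

omit [IsDomain A] in
lemma d_mul_le (a b : A) : D.d (a * b) ≤ D.d a + D.d b := by
  by_cases ha : a = 0
  · rw [ha, zero_mul, D.d_zero]; exact Nat.zero_le _
  by_cases hb : b = 0
  · rw [hb, mul_zero, D.d_zero]; exact Nat.zero_le _
  rw [D.d_mul a b ha hb]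

lemma d_add_eq_of_lt {a b : A} (h : D.d b < D.d a) : D.d (a + b) = D.d a := by
  apply le_antisymm
  · exact (D.d_add a b).trans (max_le le_rfl h.le)
  · by_contra! hcon
    have h1 : D.d a ≤ max (D.d (a + b)) (D.d b) := by
      have := D.d_sub_le (a + b) b
      rwa [add_sub_cancel_right] at this
    exact absurd h1 (not_le.mpr (max_lt hcon h))

/-- `L M` is the space of elements of degree `< M`. -/
def L (M : ℕ) : Submodule K A where
  carrier := {a | a = 0 ∨ D.d a < M}
  zero_mem' := Or.inl rfl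
  add_mem' := by
    rintro a b (rfl | ha) (rfl | hb)
    · left; simp
    · right; simpa using hb
    · right; simpa using ha
    · exact Or.inr ((D.d_add a b).trans_lt (max_lt ha hb))
  smul_mem' := by
    rintro c a (rfl | ha)
    · left; simp
    · exact Or.inr ((D.d_smul_le c a).trans_lt ha)

lemma mem_L {M : ℕ} {a : A} : a ∈ D.L M ↔ a = 0 ∨ D.d a < M := Iff.rfl

lemma mem_L_succ {M : ℕ} {a : A} : a ∈ D.L (M + 1) ↔ D.d a ≤ M := by
  rw [mem_L, Nat.lt_succ_iff]
  constructor
  · rintro (rfl | h)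
    · rw [D.d_zero]; exact Nat.zero_le _
    · exact h
  · exact Or.inr

lemma mem_L_of_lt {M : ℕ} {a : A} (h : D.d a < M) : a ∈ D.L M := Or.inr h

lemma L_mono {M N : ℕ} (h : M ≤ N) : D.L M ≤ D.L N := by
  rintro a (rfl | ha)
  · exact Or.inl rfl
  · exact Or.inr (ha.trans_le h)

@[simp] lemma L_zero : D.L 0 = ⊥ := by
  ext a
  rw [mem_L, Submodule.mem_bot]
  simp

lemma mul_mem_L {M N : ℕ} {a b : A} (ha : D.d a ≤ M) (hb : b ∈ D.L N) : a * b ∈ D.L (M + N) := by
  rcases hb with rfl | hb
  · left; simp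
  · right
    exact (D.d_mul_le a b).trans_lt (by omega)

/-- The set of degrees of non-zero elements of a subspace. -/
def val (W : Submodule K A) : Set ℕ := {n | ∃ a ∈ W, a ≠ 0 ∧ D.d a = n}

/-- One step of the dimension count. -/
lemma finrank_succ (W : Submodule K A) (M : ℕ) [Module.Finite K ↥(W ⊓ D.L M)] :
    Module.Finite K ↥(W ⊓ D.L (M + 1)) ∧
      finrank K ↥(W ⊓ D.L (M + 1)) = finrank K ↥(W ⊓ D.L M) + (open Classical in
        if M ∈ D.val W then 1 else 0) := by
  classical
  have hle : W ⊓ D.L M ≤ W ⊓ D.L (M + 1) := inf_le_inf_left W (D.L_mono (Nat.le_succ M))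
  by_cases hM : M ∈ D.val W
  · obtain ⟨a, haW, ha0, haM⟩ := hM
    have heq : W ⊓ D.L (M + 1) = (W ⊓ D.L M) ⊔ K ∙ a := by
      apply le_antisymm
      · rintro b ⟨hbW, hbM⟩
        replace hbM := D.mem_L_succ.mp hbM
        rw [Submodule.mem_sup]
        rcases hbM.lt_or_eq with h | h
        · exact ⟨b, ⟨hbW, Or.inr h⟩, 0, zero_mem _, by simp⟩
        · by_cases hb0 : b = 0
          · exact ⟨0, zero_mem _, 0, zero_mem _, by simp [hb0]⟩
          obtain ⟨c, hc⟩ := D.lead b a hb0 ha0 (h.trans haM.symm)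
          refine ⟨b - c • a, ⟨W.sub_mem hbW (W.smul_mem c haW), ?_⟩, c • a,
            Submodule.smul_mem _ _ (Submodule.mem_span_singleton_self a), by simp⟩
          rcases hc with hc | hc
          · left; rw [hc, sub_self]
          · right; rwa [h] at hc
      · refine sup_le hle ?_
        rw [Submodule.span_singleton_le_iff_mem]
        exact ⟨haW, D.mem_L_succ.mpr haM.le⟩
    have hdisj : Disjoint (W ⊓ D.L M) (K ∙ a) := by
      rw [Submodule.disjoint_def]
      rintro x ⟨-, hx⟩ hxa
      obtain ⟨c, rfl⟩ := Submodule.mem_span_singleton.mp hxa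
      by_cases hc : c = 0
      · rw [hc, zero_smul]
      · rcases hx with hx | hx
        · exact hx
        · rw [D.d_smul hc, haM] at hx
          exact absurd hx (lt_irrefl _)
    have hfin : Module.Finite K ↥(W ⊓ D.L (M + 1)) := by
      rw [heq]; infer_instance
    refine ⟨hfin, ?_⟩
    have h1 := Submodule.finrank_sup_add_finrank_inf_eq (W ⊓ D.L M) (K ∙ a)
    rw [hdisj.eq_bot, finrank_bot, add_zero, finrank_span_singleton ha0] at h1
    rw [if_pos ⟨a, haW, ha0, haM⟩, heq]
    exact h1
  · have heq : W ⊓ D.L (M + 1) = W ⊓ D.L M := by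
      apply le_antisymm _ hle
      rintro b ⟨hbW, hbM⟩
      replace hbM := D.mem_L_succ.mp hbM
      refine ⟨hbW, ?_⟩
      by_cases hb0 : b = 0
      · exact Or.inl hb0
      · refine Or.inr (lt_of_le_of_ne hbM fun h => hM ⟨b, hbW, hb0, h⟩)
    rw [heq, if_neg hM, add_zero]
    exact ⟨inferInstance, rfl⟩

instance finite_inf_L (W : Submodule K A) (M : ℕ) : Module.Finite K ↥(W ⊓ D.L M) := by
  induction M with
  | zero => rw [D.L_zero, inf_bot_eq]; infer_instance
  | succ M ih => exact (D.finrank_succ W M).1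

open Classical in
lemma finrank_inf_L (W : Submodule K A) (M : ℕ) :
    finrank K ↥(W ⊓ D.L M) = ((Finset.range M).filter (· ∈ D.val W)).card := by
  induction M with
  | zero => rw [D.L_zero, inf_bot_eq, finrank_bot]; simp
  | succ M ih =>
    rw [(D.finrank_succ W M).2, ih, Finset.range_add_one, Finset.filter_insert]
    split_ifs with h
    · rw [Finset.card_insert_of_notMem (by simp)]
    · rfl

instance finite_L (M : ℕ) : Module.Finite K ↥(D.L M) := by
  have := D.finite_inf_L ⊤ M
  rwa [top_inf_eq] at this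

open Classical in
lemma finrank_L (M : ℕ) :
    finrank K ↥(D.L M) = ((Finset.range M).filter (· ∈ D.val ⊤)).card := by
  have := D.finrank_inf_L ⊤ M
  rwa [top_inf_eq] at this

/-! ### Codimension -/

/-- The map `L M → A ⧸ W`. -/
def toQuot (W : Submodule K A) (M : ℕ) : ↥(D.L M) →ₗ[K] A ⧸ W := W.mkQ ∘ₗ (D.L M).subtype

lemma finrank_ker_toQuot (W : Submodule K A) (M : ℕ) :
    finrank K ↥(LinearMap.ker (D.toQuot W M)) = finrank K ↥(W ⊓ D.L M) := by
  have h : LinearMap.ker (D.toQuot W M) = (W ⊓ D.L M).comap (D.L M).subtype := by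
    ext x
    rw [LinearMap.mem_ker, Submodule.mem_comap]
    simp [toQuot]
  rw [h]
  exact (Submodule.comapSubtypeEquivOfLe inf_le_right).finrank_eq

lemma finrank_L_le (W : Submodule K A) [Module.Finite K (A ⧸ W)] (M : ℕ) :
    finrank K ↥(D.L M) ≤ finrank K ↥(W ⊓ D.L M) + finrank K (A ⧸ W) := by
  have h1 := LinearMap.finrank_range_add_finrank_ker (D.toQuot W M)
  rw [D.finrank_ker_toQuot] at h1
  have h2 := Submodule.finrank_le (LinearMap.range (D.toQuot W M))
  omega

/-- If every large enough degree is the degree of an element of `W` then `L N + W = A`. -/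
lemma L_sup_eq_top (W : Submodule K A) (N : ℕ) (h : ∀ n, N ≤ n → n ∈ D.val ⊤ → n ∈ D.val W) :
    D.L N ⊔ W = ⊤ := by
  rw [eq_top_iff]
  rintro a -
  induction hn : D.d a using Nat.strong_induction_on generalizing a with
  | _ n ih =>
    by_cases ha0 : a = 0
    · rw [ha0]; exact zero_mem _
    by_cases hN : n < N
    · exact Submodule.mem_sup_left (Or.inr (hn ▸ hN))
    · obtain ⟨w, hwW, hw0, hwn⟩ := h n (not_lt.mp hN) ⟨a, trivial, ha0, hn⟩
      obtain ⟨c, hc⟩ := D.lead a w ha0 hw0 (hn.trans hwn.symm)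
      rcases hc with hc | hc
      · rw [hc]
        exact Submodule.mem_sup_right (W.smul_mem c hwW)
      · have h1 := ih _ (hn ▸ hc) rfl
        have h2 : a = (a - c • w) + c • w := by simp
        rw [h2]
        exact Submodule.add_mem _ h1 (Submodule.mem_sup_right (W.smul_mem c hwW))

lemma codim_of_bound (W : Submodule K A) (N : ℕ)
    (h : ∀ n, N ≤ n → n ∈ D.val ⊤ → n ∈ D.val W) {M : ℕ} (hM : N ≤ M) :
    Module.Finite K (A ⧸ W) ∧
      finrank K ↥(D.L M) = finrank K ↥(W ⊓ D.L M) + finrank K (A ⧸ W) := by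
  have hsurj : Function.Surjective (D.toQuot W M) := by
    intro x
    obtain ⟨a, rfl⟩ := W.mkQ_surjective x
    have ha : a ∈ D.L M ⊔ W := by
      rw [D.L_sup_eq_top W M fun n hn => h n (hM.trans hn)]; trivial
    obtain ⟨b, hb, w, hw, rfl⟩ := Submodule.mem_sup.mp ha
    refine ⟨⟨b, hb⟩, ?_⟩
    simp only [toQuot, LinearMap.comp_apply, Submodule.subtype_apply, map_add]
    have : W.mkQ w = 0 := by simpa using hw
    rw [this, add_zero]
  refine ⟨Module.Finite.of_surjective _ hsurj, ?_⟩
  have h1 := LinearMap.finrank_range_add_finrank_ker (D.toQuot W M)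
  rw [D.finrank_ker_toQuot, LinearMap.range_eq_top.mpr hsurj, finrank_top] at h1
  omega

/-! ### Finitely many gaps -/

/-- The number of gaps below `κ`. -/
noncomputable def gap (κ : ℕ) : ℕ := (open Classical in
  ((Finset.range κ).filter (· ∉ D.val ⊤)).card)

variable {D} in
/-- All integers `≥ κ` are degrees. -/
def _root_.Fermat.Agent.S27D.DegreeFn.IsConductor (D : DegreeFn K A) (κ : ℕ) : Prop :=
  ∀ n, κ ≤ n → n ∈ D.val ⊤

variable {κ : ℕ}

lemma finrank_L_add_gap (hκ : D.IsConductor κ) {M : ℕ} (hM : κ ≤ M) :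
    finrank K ↥(D.L M) + D.gap κ = M := by
  classical
  rw [D.finrank_L, gap]
  have h1 : (Finset.range κ).filter (· ∉ D.val ⊤) = (Finset.range M).filter (· ∉ D.val ⊤) := by
    ext n
    simp only [Finset.mem_filter, Finset.mem_range]
    constructor
    · rintro ⟨h1, h2⟩; exact ⟨h1.trans_le hM, h2⟩
    · rintro ⟨h1, h2⟩
      refine ⟨?_, h2⟩
      by_contra! hcon
      exact h2 (hκ n hcon)
  have h2 := Finset.card_filter_add_card_filter_not (s := Finset.range M) (· ∈ D.val ⊤)
  rw [Finset.card_range] at h2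
  rw [← h1] at h2
  convert h2

lemma le_finrank_L_add_gap (hκ : D.IsConductor κ) (M : ℕ) :
    M ≤ finrank K ↥(D.L M) + D.gap κ := by
  classical
  rw [D.finrank_L, gap]
  have h2 := Finset.card_filter_add_card_filter_not (s := Finset.range M) (· ∈ D.val ⊤)
  rw [Finset.card_range] at h2
  have h3 : ((Finset.range M).filter (· ∉ D.val ⊤)).card ≤
      ((Finset.range κ).filter (· ∉ D.val ⊤)).card := by
    apply Finset.card_le_card
    intro n
    simp only [Finset.mem_filter, Finset.mem_range]
    rintro ⟨h1, h2⟩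
    refine ⟨?_, h2⟩
    by_contra! hcon
    exact h2 (hκ n hcon)
  have h4 := add_le_add_right h3 ((Finset.range M).filter (· ∈ D.val ⊤)).card
  convert! (h2.symm.le.trans h4) using 1

/-- Multiplication by `f` identifies `L M` with `(f) ⊓ L (M + d f)`. -/
lemma finrank_span_inf_L {f : A} (hf : f ≠ 0) (M : ℕ) :
    finrank K ↥((Ideal.span {f}).restrictScalars K ⊓ D.L (M + D.d f)) = finrank K ↥(D.L M) := by
  let φ : A →ₗ[K] A := LinearMap.mulLeft K f
  have hinj : Function.Injective φ := fun a b h => mul_left_cancel₀ hf h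
  have h1 : (Ideal.span {f}).restrictScalars K ⊓ D.L (M + D.d f) = (D.L M).map φ := by
    ext x
    constructor
    · rintro ⟨hx, hxM⟩
      have hx' : x ∈ Ideal.span {f} := hx
      rw [Ideal.mem_span_singleton'] at hx'
      obtain ⟨a, rfl⟩ := hx'
      refine ⟨a, ?_, mul_comm f a⟩
      by_cases ha : a = 0
      · exact Or.inl ha
      · rcases hxM with h | h
        · exact absurd h (mul_ne_zero ha hf)
        · rw [D.d_mul a f ha hf] at h
          exact Or.inr (by omega)
    · rintro ⟨a, ha, rfl⟩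
      refine ⟨?_, ?_⟩
      · show f * a ∈ Ideal.span {f}
        exact Ideal.mul_mem_right _ _ (Ideal.mem_span_singleton_self f)
      · show f * a ∈ D.L (M + D.d f)
        rw [add_comm]
        exact D.mul_mem_L le_rfl ha
  rw [h1]
  exact LinearEquiv.finrank_eq (Submodule.equivMapOfInjective φ hinj (D.L M)).symm

/-- The codimension (over `K`) of an ideal. -/
noncomputable def codim (_D : DegreeFn K A) (I : Ideal A) : ℕ := finrank K (A ⧸ I)

omit [IsDomain A] in
lemma codim_eq (I : Ideal A) : D.codim I = finrank K (A ⧸ I.restrictScalars K) :=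
  (Submodule.Quotient.restrictScalarsEquiv K I).finrank_eq.symm

omit [IsDomain A] in
lemma finite_quot_iff (I : Ideal A) :
    Module.Finite K (A ⧸ I.restrictScalars K) ↔ Module.Finite K (A ⧸ I) :=
  ⟨fun _ => Module.Finite.equiv (Submodule.Quotient.restrictScalarsEquiv K I),
    fun _ => Module.Finite.equiv (Submodule.Quotient.restrictScalarsEquiv K I).symm⟩

lemma val_of_mem (hκ : D.IsConductor κ) (I : Ideal A) {f : A} (hfI : f ∈ I) (hf : f ≠ 0) (n : ℕ)
    (hn : κ + D.d f ≤ n) : n ∈ D.val (I.restrictScalars K) := by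
  obtain ⟨a, -, ha0, ha⟩ := hκ (n - D.d f) (by omega)
  refine ⟨f * a, I.mul_mem_right a hfI, mul_ne_zero hf ha0, ?_⟩
  rw [D.d_mul f a hf ha0, ha]
  omega

/-- Nonzero ideals have finite codimension. -/
lemma finite_quot (hκ : D.IsConductor κ) (I : Ideal A) (hI : I ≠ ⊥) :
    Module.Finite K (A ⧸ I) := by
  obtain ⟨f, hfI, hf⟩ := Submodule.exists_mem_ne_zero_of_ne_bot hI
  rw [← finite_quot_iff]
  exact (D.codim_of_bound (I.restrictScalars K) (κ + D.d f)
    (fun n hn _ => D.val_of_mem hκ I hfI hf n hn) le_rfl).1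

/-- The codimension of a principal ideal is the degree of the generator. -/
lemma codim_span_singleton (hκ : D.IsConductor κ) {f : A} (hf : f ≠ 0) :
    D.codim (Ideal.span {f}) = D.d f := by
  have h1 := (D.codim_of_bound ((Ideal.span {f}).restrictScalars K) (κ + D.d f)
    (fun n hn _ => D.val_of_mem hκ _ (Ideal.mem_span_singleton_self f) hf n hn) le_rfl).2
  rw [D.finrank_span_inf_L hf, ← D.codim_eq] at h1
  have h2 := D.finrank_L_add_gap hκ (M := κ + D.d f) (by omega)
  have h3 := D.finrank_L_add_gap hκ (M := κ) le_rfl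
  omega

/-- Every ideal of codimension `r` contains a non-zero element of degree `≤ r + gap`. -/
lemma exists_mem_le (hκ : D.IsConductor κ) (I : Ideal A) [Module.Finite K (A ⧸ I)] :
    ∃ a ∈ I, a ≠ 0 ∧ D.d a ≤ D.codim I + D.gap κ := by
  have : Module.Finite K (A ⧸ I.restrictScalars K) := finite_quot_iff I |>.mpr inferInstance
  have h1 := D.finrank_L_le (I.restrictScalars K) (D.codim I + D.gap κ + 1)
  have h2 := D.le_finrank_L_add_gap hκ (D.codim I + D.gap κ + 1)
  rw [← D.codim_eq] at h1
  have h3 : 0 < finrank K ↥(I.restrictScalars K ⊓ D.L (D.codim I + D.gap κ + 1)) := by omega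
  have h4 : Nontrivial ↥(I.restrictScalars K ⊓ D.L (D.codim I + D.gap κ + 1)) :=
    Module.nontrivial_of_finrank_pos h3
  obtain ⟨⟨a, haI, haL⟩, ha0⟩ := exists_ne (0 : ↥(I.restrictScalars K ⊓ D.L (D.codim I + D.gap κ + 1)))
  exact ⟨a, haI, fun h => ha0 (Subtype.ext h), D.mem_L_succ.mp haL⟩

omit [IsDomain A] in
lemma codim_mono {I J : Ideal A} (h : I ≤ J) [Module.Finite K (A ⧸ I)] :
    D.codim J ≤ D.codim I :=
  LinearMap.finrank_le_finrank_of_surjective (f := (Ideal.Quotient.factorₐ K h).toLinearMap)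
    (Ideal.Quotient.factor_surjective h)

/-- An ideal containing a non-zero element of degree at most the codimension is principal. -/
lemma eq_span_of_mem_of_le (hκ : D.IsConductor κ) (I : Ideal A) {a : A} (ha : a ∈ I) (ha0 : a ≠ 0)
    (h : D.d a ≤ D.codim I) : I = Ideal.span {a} := by
  have hle : Ideal.span {a} ≤ I := (Ideal.span_singleton_le_iff_mem I).mpr ha
  have hfin : Module.Finite K (A ⧸ Ideal.span {a}) :=
    D.finite_quot hκ _ (by rwa [Ne, Ideal.span_singleton_eq_bot])
  let φ : (A ⧸ Ideal.span {a}) →ₗ[K] (A ⧸ I) := (Ideal.Quotient.factorₐ K hle).toLinearMap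
  have hsurj : Function.Surjective φ := Ideal.Quotient.factor_surjective hle
  have hfin' : Module.Finite K (A ⧸ I) := Module.Finite.of_surjective φ hsurj
  have hdim : finrank K (A ⧸ Ideal.span {a}) = finrank K (A ⧸ I) := by
    apply le_antisymm
    · have := D.codim_span_singleton hκ ha0
      rw [codim] at this h
      omega
    · exact LinearMap.finrank_le_finrank_of_surjective hsurj
  have hinj : Function.Injective φ := (LinearMap.injective_iff_surjective_of_finrank_eq_finrank
    hdim).mpr hsurj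
  apply le_antisymm _ hle
  intro x hx
  have h1 : φ (Ideal.Quotient.mk _ x) = 0 := by
    show Ideal.Quotient.factor hle (Ideal.Quotient.mk _ x) = 0
    rw [Ideal.Quotient.factor_mk, Ideal.Quotient.eq_zero_iff_mem]
    exact hx
  have h2 := hinj (h1.trans (map_zero φ).symm)
  exact Ideal.Quotient.eq_zero_iff_mem.mp h2

end DegreeFn

end Fermat.Agent.S27D
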