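import Mathlib
import Fermat.Agent.S27D.Degree

/-!
# Ideals in Dedekind domains with a degree function

Effective (bounded degree) versions of standard facts, used to describe the `n`-torsion of the
class group by first-order formulas.
-/

open Module

namespace Fermat.Agent.S27D

namespace DegreeFn

variable {K A : Type*} [Field K] [CommRing A] [IsDedekindDomain A] [Algebra K A]
  (D : DegreeFn K A) {κ : ℕ}

/-- In a Dedekind domain, if `b ∈ J ∖ P J` then `bA + P J = J`. -/
lemma exists_mul_of_mem {P J : Ideal A} [P.IsMaximal] {b : A} (hb : b ∈ J)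
    (hb' : b ∉ P * J) : Ideal.span {b} ⊔ P * J = J := by
  obtain ⟨C, hC⟩ := Ideal.dvd_span_singleton.mpr hb
  have hCP : ¬ C ≤ P := by
    intro h
    apply hb'
    rw [← Ideal.span_singleton_le_iff_mem, hC, mul_comm J C]
    exact Ideal.mul_mono h le_rfl
  have h1 : C ⊔ P = ⊤ := by
    have hmax : P.IsMaximal := inferInstance
    by_contra hcon
    exact hCP (le_sup_left.trans (hmax.eq_of_le hcon le_sup_right).symm.le)
  rw [hC, mul_comm P J, ← Ideal.mul_sup, h1, Ideal.mul_top]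

lemma mem_of_mul_mem {P J : Ideal A} [P.IsPrime] (hJ : J ≠ ⊥) {b x : A} (hb : b ∈ J)
    (hb' : b ∉ P * J) (hx : b * x ∈ P * J) : x ∈ P := by
  obtain ⟨C, hC⟩ := Ideal.dvd_span_singleton.mpr hb
  have hCP : ¬ C ≤ P := by
    intro h
    apply hb'
    rw [← Ideal.span_singleton_le_iff_mem, hC, mul_comm J C]
    exact Ideal.mul_mono h le_rfl
  have h1 : J * (C * Ideal.span {x}) ≤ J * P := by
    rw [← mul_assoc, ← hC, Ideal.span_singleton_mul_span_singleton,
      Ideal.span_singleton_le_iff_mem, mul_comm J P]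
    exact hx
  have h2 : C * Ideal.span {x} ≤ P := by
    rw [← Ideal.dvd_iff_le] at h1 ⊢
    exact (mul_dvd_mul_iff_left hJ).mp h1
  rcases (Ideal.IsPrime.mul_le inferInstance).mp h2 with h3 | h3
  · exact absurd h3 hCP
  · exact (Ideal.span_singleton_le_iff_mem P).mp h3

/-- Additivity of the codimension, prime case. -/
lemma codim_prime_mul (hκ : D.IsConductor κ) {P J : Ideal A} [hP : P.IsMaximal] (hP0 : P ≠ ⊥)
    (hJ : J ≠ ⊥) : D.codim (P * J) = D.codim P + D.codim J := by
  have hne : P * J ≠ J := by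
    intro h
    have h1 : P * J = ⊤ * J := by rw [h, Ideal.top_mul]
    exact hP.ne_top (mul_right_cancel₀ hJ h1)
  have hlt : P * J < J := lt_of_le_of_ne Ideal.mul_le_right hne
  obtain ⟨b, hb, hb'⟩ := SetLike.exists_of_lt hlt
  have hPJ : P * J ≠ ⊥ := mul_ne_zero hP0 hJ
  have hfin1 := D.finite_quot hκ _ hPJ
  have hfin2 := D.finite_quot hκ _ hP0
  have hfin3 := D.finite_quot hκ _ hJ
  let π : (A ⧸ P * J) →ₗ[K] (A ⧸ J) := (Ideal.Quotient.factorₐ K hlt.le).toLinearMap
  have hπ : Function.Surjective π := Ideal.Quotient.factor_surjective hlt.le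
  let μ : A →ₗ[K] (A ⧸ P * J) := (Ideal.Quotient.mkₐ K (P * J)).toLinearMap ∘ₗ
    LinearMap.mulLeft K b
  have hμ : ∀ x, μ x = Ideal.Quotient.mk (P * J) (b * x) := fun x => rfl
  have hrange : LinearMap.range μ = LinearMap.ker π := by
    ext y
    obtain ⟨y, rfl⟩ := Ideal.Quotient.mk_surjective y
    have hker : Ideal.Quotient.mk (P * J) y ∈ LinearMap.ker π ↔ y ∈ J := by
      rw [LinearMap.mem_ker]
      show Ideal.Quotient.factor hlt.le (Ideal.Quotient.mk _ y) = 0 ↔ _
      rw [Ideal.Quotient.factor_mk, Ideal.Quotient.eq_zero_iff_mem]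
    rw [hker]
    constructor
    · rintro ⟨x, hx⟩
      rw [hμ, Ideal.Quotient.eq] at hx
      have h1 : b * x ∈ J := J.mul_mem_right x hb
      have h2 := J.sub_mem h1 (hlt.le hx)
      rwa [sub_sub_cancel] at h2
    · intro hy
      rw [← exists_mul_of_mem hb hb', Ideal.mem_span_singleton_sup] at hy
      obtain ⟨x, z, hz, rfl⟩ := hy
      refine ⟨x, ?_⟩
      rw [hμ, Ideal.Quotient.eq]
      have : b * x - (x * b + z) = -z := by ring
      rw [this]
      exact neg_mem hz
  have hkerμ : LinearMap.ker μ = P.restrictScalars K := by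
    ext x
    rw [LinearMap.mem_ker, hμ, Ideal.Quotient.eq_zero_iff_mem]
    constructor
    · exact mem_of_mul_mem hJ hb hb'
    · intro hx
      rw [mul_comm b x]
      exact Ideal.mul_mem_mul hx hb
  have h1 := LinearMap.finrank_range_add_finrank_ker π
  rw [LinearMap.range_eq_top.mpr hπ, finrank_top, ← hrange] at h1
  have h2 : finrank K (A ⧸ P) = finrank K ↥(LinearMap.range μ) := by
    rw [← (μ.quotKerEquivRange).finrank_eq, hkerμ]
    exact D.codim_eq P
  rw [← h2] at h1
  show finrank K (A ⧸ P * J) = finrank K (A ⧸ P) + finrank K (A ⧸ J)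
  omega

omit [IsDedekindDomain A] in
lemma codim_one : D.codim 1 = 0 := by
  show finrank K (A ⧸ (1 : Ideal A)) = 0
  have : Subsingleton (A ⧸ (1 : Ideal A)) := Ideal.Quotient.subsingleton_iff.mpr Ideal.one_eq_top
  exact finrank_zero_of_subsingleton

/-- Additivity of the codimension. -/
lemma codim_mul (hκ : D.IsConductor κ) {I J : Ideal A} (hI : I ≠ ⊥) (hJ : J ≠ ⊥) :
    D.codim (I * J) = D.codim I + D.codim J := by
  induction I using UniqueFactorizationMonoid.induction_on_prime generalizing J with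
  | h₁ => exact absurd rfl hI
  | h₂ x hx =>
    rw [Ideal.isUnit_iff.mp hx, ← Ideal.one_eq_top, one_mul, D.codim_one, zero_add]
  | h₃ I P hI0 hP ih =>
    have hPprime : P.IsPrime := Ideal.isPrime_of_prime hP
    have hPmax : P.IsMaximal := hPprime.isMaximal hP.ne_zero
    rw [mul_assoc, D.codim_prime_mul hκ hP.ne_zero (mul_ne_zero hI0 hJ), ih hI0 hJ,
      D.codim_prime_mul hκ hP.ne_zero hI0, add_assoc]

lemma codim_pow (hκ : D.IsConductor κ) {I : Ideal A} (hI : I ≠ ⊥) (n : ℕ) :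
    D.codim (I ^ n) = n * D.codim I := by
  induction n with
  | zero => rw [pow_zero, D.codim_one, zero_mul]
  | succ n ih => rw [pow_succ, D.codim_mul hκ (pow_ne_zero n hI) hI, ih]; ring

/-- Maximal ideals have codimension one over an algebraically closed field. -/
lemma codim_maximal [IsAlgClosed K] (hκ : D.IsConductor κ) {P : Ideal A} [P.IsMaximal]
    (hP0 : P ≠ ⊥) : D.codim P = 1 := by
  have hfin := D.finite_quot hκ _ hP0
  let _ : Field (A ⧸ P) := Ideal.Quotient.field P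
  have : Algebra.IsIntegral K (A ⧸ P) := Algebra.IsIntegral.of_finite K _
  have hbij : Function.Bijective (algebraMap K (A ⧸ P)) :=
    IsAlgClosed.algebraMap_bijective_of_isIntegral
  show finrank K (A ⧸ P) = 1
  rw [← Module.finrank_self K]
  exact ((AlgEquiv.ofBijective (Algebra.ofId K (A ⧸ P)) hbij).toLinearEquiv.finrank_eq).symm

/-- Every ideal class contains an integral ideal of codimension at most the number of gaps. -/
lemma exists_small_rep (hκ : D.IsConductor κ) {I : Ideal A} (hI : I ≠ ⊥) :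
    ∃ (J : Ideal A) (a b : A), J ≠ ⊥ ∧ a ≠ 0 ∧ b ≠ 0 ∧
      Ideal.span {a} * I = Ideal.span {b} * J ∧ D.codim J ≤ D.gap κ := by
  obtain ⟨b, hbI, hb⟩ := Submodule.exists_mem_ne_zero_of_ne_bot hI
  obtain ⟨I', hI'⟩ := Ideal.dvd_span_singleton.mpr hbI
  have hI'0 : I' ≠ ⊥ := by
    rintro rfl
    rw [Ideal.mul_bot, Ideal.span_singleton_eq_bot] at hI'
    exact hb hI'
  have hfin := D.finite_quot hκ I' hI'0
  obtain ⟨a, haI', ha, hle⟩ := D.exists_mem_le hκ I'
  obtain ⟨J, hJ⟩ := Ideal.dvd_span_singleton.mpr haI'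
  have hJ0 : J ≠ ⊥ := by
    rintro rfl
    rw [Ideal.mul_bot, Ideal.span_singleton_eq_bot] at hJ
    exact ha hJ
  refine ⟨J, a, b, hJ0, ha, hb, ?_, ?_⟩
  · rw [hJ, hI', mul_comm I' J, mul_assoc, mul_comm I' I, mul_comm]
  · have h1 := D.codim_span_singleton hκ ha
    rw [hJ, D.codim_mul hκ hI'0 hJ0] at h1
    omega

/-- For an ideal `I ≠ 0` and a maximal ideal `P`, elements of bounded degree of `I` outside
`P I`. -/
lemma lt_inf_L [IsAlgClosed K] (hκ : D.IsConductor κ) {P I : Ideal A} [P.IsMaximal] (hP0 : P ≠ ⊥)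
    (hI : I ≠ ⊥) {M : ℕ} (hM : κ + (D.codim I + 1 + D.gap κ) ≤ M) :
    finrank K ↥((P * I).restrictScalars K ⊓ D.L M) < finrank K ↥(I.restrictScalars K ⊓ D.L M) := by
  have hPI : P * I ≠ ⊥ := mul_ne_zero hP0 hI
  have hfin1 := D.finite_quot hκ I hI
  have hfin2 := D.finite_quot hκ (P * I) hPI
  have hcod : D.codim (P * I) = D.codim I + 1 := by
    rw [D.codim_mul hκ hP0 hI, D.codim_maximal hκ hP0, add_comm]
  obtain ⟨a, haI, ha0, had⟩ := D.exists_mem_le hκ I
  obtain ⟨a', haI', ha0', had'⟩ := D.exists_mem_le hκ (P * I)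
  have h1 := (D.codim_of_bound (I.restrictScalars K) (κ + D.d a)
    (fun n hn _ => D.val_of_mem hκ I haI ha0 n hn) (M := M) (by omega)).2
  have h2 := (D.codim_of_bound ((P * I).restrictScalars K) (κ + D.d a')
    (fun n hn _ => D.val_of_mem hκ (P * I) haI' ha0' n hn) (M := M) (by omega)).2
  rw [← D.codim_eq] at h1 h2
  omega

/-- Two generators of bounded degree. -/
lemma exists_two_generators [IsAlgClosed K] (hκ : D.IsConductor κ) {I : Ideal A} (hI : I ≠ ⊥) :
    ∃ (a b : A) (J C : Ideal A), a ≠ 0 ∧ D.d a ≤ D.codim I + D.gap κ ∧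
      D.d b ≤ κ + (D.codim I + 1 + D.gap κ) ∧ Ideal.span {a} = I * J ∧ Ideal.span {b} = I * C ∧
      IsCoprime J C := by
  have hfin := D.finite_quot hκ I hI
  obtain ⟨a, haI, ha0, had⟩ := D.exists_mem_le hκ I
  obtain ⟨J, hJ⟩ := Ideal.dvd_span_singleton.mpr haI
  have hJ0 : J ≠ ⊥ := by
    rintro rfl
    rw [Ideal.mul_bot, Ideal.span_singleton_eq_bot] at hJ
    exact ha0 hJ
  set M := κ + (D.codim I + 1 + D.gap κ) with hM
  let W : Submodule K A := I.restrictScalars K ⊓ D.L M
  have hinf : Infinite K := IsAlgClosed.instInfinite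
  -- the primes dividing `J`
  classical
  let S : Finset (Ideal A) := (UniqueFactorizationMonoid.normalizedFactors J).toFinset
  have hS : ∀ P ∈ S, P.IsMaximal ∧ P ≠ ⊥ := by
    intro P hP
    have h1 := UniqueFactorizationMonoid.prime_of_normalized_factor P (Multiset.mem_toFinset.mp hP)
    exact ⟨(Ideal.isPrime_of_prime h1).isMaximal h1.ne_zero, h1.ne_zero⟩
  let s : Finset (Submodule K ↥W) :=
    S.image fun P => ((P * I).restrictScalars K ⊓ D.L M).comap W.subtype
  have htop : ⊤ ∉ s := by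
    intro h
    obtain ⟨P, hPS, hP⟩ := Finset.mem_image.mp h
    obtain ⟨hPmax, hP0⟩ := hS P hPS
    have h1 := D.lt_inf_L hκ hP0 hI hM.symm.le
    have h2 : W ≤ (P * I).restrictScalars K ⊓ D.L M := by
      intro x hx
      have : (⟨x, hx⟩ : W) ∈ ((P * I).restrictScalars K ⊓ D.L M).comap W.subtype := by
        rw [hP]; trivial
      exact this
    exact absurd (Submodule.finrank_mono h2) (not_le.mpr h1)
  obtain ⟨b, hb⟩ : ∃ b : W, b ∉ ⋃ p ∈ s, (p : Set W) := by
    by_contra! hcon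
    exact Subspace.biUnion_ne_univ_of_top_notMem htop (Set.eq_univ_of_forall hcon)
  have hbI : (b : A) ∈ I := b.2.1
  obtain ⟨C, hC⟩ := Ideal.dvd_span_singleton.mpr hbI
  refine ⟨a, b, J, C, ha0, had, ?_, hJ, hC, ?_⟩
  · rcases b.2.2 with h | h
    · rw [h, D.d_zero]; exact Nat.zero_le _
    · exact h.le
  · rw [Ideal.isCoprime_iff_sup_eq]
    by_contra hcon
    obtain ⟨P, hPmax, hP⟩ := Ideal.exists_le_maximal _ hcon
    have hJP : J ≤ P := le_sup_left.trans hP
    have hCP : C ≤ P := le_sup_right.trans hP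
    have hP0 : P ≠ ⊥ := fun h => hJ0 (le_bot_iff.mp (h ▸ hJP))
    have hPS : P ∈ S := by
      rw [Multiset.mem_toFinset, Ideal.mem_normalizedFactors_iff hJ0]
      exact ⟨hPmax.isPrime, hJP⟩
    apply hb
    simp only [Set.mem_iUnion]
    refine ⟨_, Finset.mem_image_of_mem _ hPS, ?_⟩
    show (b : A) ∈ (P * I).restrictScalars K ⊓ D.L M
    refine ⟨?_, b.2.2⟩
    show (b : A) ∈ P * I
    rw [← Ideal.span_singleton_le_iff_mem, hC, mul_comm I C]
    exact Ideal.mul_mono hCP le_rfl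

/-! ### Bezout with bounded degrees -/

omit [IsDedekindDomain A] in
/-- A bounded degree Bezout relation. -/
lemma exists_bezout [IsDomain A] (hκ : D.IsConductor κ) (hκ1 : 1 ≤ κ) {u v : A}
    (huv : IsCoprime u v) :
    ∃ s t : A, s * u + t * v = 1 ∧ D.d s ≤ D.d v + κ ∧ D.d t ≤ D.d u + κ := by
  by_cases hu : u = 0
  · obtain ⟨s, t, hst⟩ := huv
    rw [hu, mul_zero, zero_add] at hst
    refine ⟨0, t, by rw [hu, zero_mul, zero_add, hst], by rw [D.d_zero]; exact Nat.zero_le _, ?_⟩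
    have ht : t ≠ 0 := left_ne_zero_of_mul_eq_one hst
    have hv : v ≠ 0 := right_ne_zero_of_mul_eq_one hst
    have := D.d_mul t v ht hv
    rw [hst, D.d_one] at this
    omega
  by_cases hv : v = 0
  · obtain ⟨s, t, hst⟩ := huv
    rw [hv, mul_zero, add_zero] at hst
    refine ⟨s, 0, by rw [hv, zero_mul, add_zero, hst], ?_, by rw [D.d_zero]; exact Nat.zero_le _⟩
    have hs : s ≠ 0 := left_ne_zero_of_mul_eq_one hst
    have := D.d_mul s u hs hu
    rw [hst, D.d_one] at this
    omega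
  -- the map `(s, t) ↦ s u + t v`
  let T : (↥(D.L (D.d v + κ)) × ↥(D.L (D.d u + κ))) →ₗ[K] A :=
    ((LinearMap.mulRight K u) ∘ₗ (D.L (D.d v + κ)).subtype).coprod
      ((LinearMap.mulRight K v) ∘ₗ (D.L (D.d u + κ)).subtype)
  have hT : ∀ x, T x = (x.1 : A) * u + (x.2 : A) * v := fun x => rfl
  have hrange : LinearMap.range T ≤ D.L (D.d u + D.d v + κ) := by
    rintro _ ⟨x, rfl⟩
    rw [hT]
    refine Submodule.add_mem _ ?_ ?_
    · rw [mul_comm, add_assoc]
      exact D.mul_mem_L le_rfl x.1.2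
    · rw [mul_comm, add_comm (D.d u), add_assoc]
      exact D.mul_mem_L le_rfl x.2.2
  -- the kernel
  let S : ↥(D.L κ) →ₗ[K] (↥(D.L (D.d v + κ)) × ↥(D.L (D.d u + κ))) :=
    LinearMap.prod
      (((LinearMap.mulLeft K v) ∘ₗ (D.L κ).subtype).codRestrict _
        (fun c => D.mul_mem_L le_rfl c.2))
      (((LinearMap.mulLeft K (-u)) ∘ₗ (D.L κ).subtype).codRestrict _
        (fun c => D.mul_mem_L (D.d_neg u).le c.2))
  have hker : LinearMap.ker T ≤ LinearMap.range S := by
    rintro ⟨s, t⟩ hst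
    rw [LinearMap.mem_ker, hT] at hst
    dsimp only at hst
    obtain ⟨x, y, hxy⟩ := huv
    have h1 : (s : A) * u = -(t * v) := eq_neg_of_add_eq_zero_left hst
    -- `v ∣ s`
    have h2 : (s : A) = v * (s * y - x * t) := by
      calc (s : A) = s * (x * u + y * v) := by rw [hxy, mul_one]
        _ = x * (s * u) + s * y * v := by ring
        _ = x * (-(t * v)) + s * y * v := by rw [h1]
        _ = v * (s * y - x * t) := by ring
    set c := (s : A) * y - x * t with hc
    have h3 : (t : A) = -u * c := by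
      have h4 : v * (t + u * c) = 0 := by
        calc v * ((t : A) + u * c) = t * v + (v * c) * u := by ring
          _ = t * v + s * u := by rw [← h2]
          _ = 0 := by rw [h1]; ring
      have h5 := (mul_eq_zero.mp h4).resolve_left hv
      rw [neg_mul]
      exact eq_neg_of_add_eq_zero_left h5
    have hcL : c ∈ D.L κ := by
      by_cases hc0 : c = 0
      · exact Or.inl hc0
      · rcases s.2 with h | h
        · rw [h] at h2
          exact absurd (mul_eq_zero.mp h2.symm) (by simp [hv, hc0])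
        · rw [h2, D.d_mul v c hv hc0] at h
          exact Or.inr (by omega)
    exact ⟨⟨c, hcL⟩, Prod.ext (Subtype.ext h2.symm) (Subtype.ext h3.symm)⟩
  have h1 := LinearMap.finrank_range_add_finrank_ker T
  rw [Module.finrank_prod] at h1
  have h2 : finrank K ↥(LinearMap.ker T) ≤ finrank K ↥(D.L κ) :=
    (Submodule.finrank_mono hker).trans (LinearMap.finrank_range_le S)
  have h3 := D.finrank_L_add_gap hκ (M := κ) le_rfl
  have h4 := D.finrank_L_add_gap hκ (M := D.d v + κ) (by omega)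
  have h5 := D.finrank_L_add_gap hκ (M := D.d u + κ) (by omega)
  have h6 := D.finrank_L_add_gap hκ (M := D.d u + D.d v + κ) (by omega)
  have h7 : LinearMap.range T = D.L (D.d u + D.d v + κ) := by
    apply Submodule.eq_of_le_of_finrank_le hrange
    omega
  have h8 : (1 : A) ∈ LinearMap.range T := by
    rw [h7]
    exact Or.inr (by rw [D.d_one]; omega)
  obtain ⟨⟨s, t⟩, hst⟩ := h8
  rw [hT] at hst
  refine ⟨s, t, hst, ?_, ?_⟩
  · rcases s.2 with h | h
    · rw [h, D.d_zero]; exact Nat.zero_le _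
    · exact h.le
  · rcases t.2 with h | h
    · rw [h, D.d_zero]; exact Nat.zero_le _
    · exact h.le

/-! ### `n`-th powers of ideals, with bounded witnesses -/

/-- `(f)` is the `n`-th power of an ideal, witnessed by elements of degree at most `R`. -/
def PowWitness (n R : ℕ) (f : A) : Prop :=
  ∃ a b u v s t : A, D.d a ≤ R ∧ D.d b ≤ R ∧ D.d u ≤ R ∧ D.d v ≤ R ∧ D.d s ≤ R ∧ D.d t ≤ R ∧
    a ^ n = f * u ∧ b ^ n = f * v ∧ s * u + t * v = 1

lemma exists_pow_of_witness {n R : ℕ} {f : A} (hf : f ≠ 0)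
    (h : D.PowWitness n R f) : ∃ I : Ideal A, I ≠ ⊥ ∧ Ideal.span {f} = I ^ n := by
  obtain ⟨a, b, u, v, s, t, -, -, -, -, -, -, ha, hb, hst⟩ := h
  set I : Ideal A := Ideal.span {a} ⊔ Ideal.span {b} with hI
  rcases Nat.eq_zero_or_pos n with rfl | hn
  · -- `n = 0`: `f` is a unit
    rw [pow_zero] at ha
    refine ⟨⊤, top_ne_bot, ?_⟩
    rw [pow_zero, Ideal.one_eq_top, Ideal.span_singleton_eq_top]
    exact IsUnit.of_mul_eq_one u ha.symm
  have hI0 : I ≠ ⊥ := by
    intro h0
    rw [hI, sup_eq_bot_iff, Ideal.span_singleton_eq_bot, Ideal.span_singleton_eq_bot] at h0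
    obtain ⟨ha0, hb0⟩ := h0
    rw [ha0, zero_pow hn.ne'] at ha
    rw [hb0, zero_pow hn.ne'] at hb
    have hu := (mul_eq_zero.mp ha.symm).resolve_left hf
    have hv := (mul_eq_zero.mp hb.symm).resolve_left hf
    rw [hu, hv, mul_zero, mul_zero, add_zero] at hst
    exact zero_ne_one hst
  obtain ⟨C, hC⟩ : I ∣ Ideal.span {a} := Ideal.dvd_iff_le.mpr le_sup_left
  obtain ⟨C', hC'⟩ : I ∣ Ideal.span {b} := Ideal.dvd_iff_le.mpr le_sup_right
  have hcop : IsCoprime C C' := by
    rw [Ideal.isCoprime_iff_sup_eq]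
    have h1 : I * (C ⊔ C') = I * ⊤ := by
      rw [Ideal.mul_sup, ← hC, ← hC', Ideal.mul_top]
    exact mul_left_cancel₀ hI0 h1
  have hcopn : C ^ n ⊔ C' ^ n = ⊤ := Ideal.isCoprime_iff_sup_eq.mp hcop.pow
  refine ⟨I, hI0, ?_⟩
  have h1 : I ^ n = Ideal.span {a ^ n} ⊔ Ideal.span {b ^ n} := by
    rw [← Ideal.span_singleton_pow, ← Ideal.span_singleton_pow, hC, hC', mul_pow, mul_pow,
      ← Ideal.mul_sup, hcopn, Ideal.mul_top]
  rw [h1, ha, hb, ← Ideal.span_singleton_mul_span_singleton,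
    ← Ideal.span_singleton_mul_span_singleton, ← Ideal.mul_sup]
  have h2 : Ideal.span {u} ⊔ Ideal.span {v} = (⊤ : Ideal A) := by
    rw [Ideal.eq_top_iff_one, ← hst]
    refine Ideal.add_mem _ (Ideal.mul_mem_left _ _ ?_) (Ideal.mul_mem_left _ _ ?_)
    · exact Ideal.mem_sup_left (Ideal.mem_span_singleton_self u)
    · exact Ideal.mem_sup_right (Ideal.mem_span_singleton_self v)
  rw [h2, Ideal.mul_top]

/-- The explicit degree bound. -/
def bound (κ g n : ℕ) : ℕ := n * (κ + (g + 1 + g)) + κ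

lemma witness_of_pow [IsAlgClosed K] (hκ : D.IsConductor κ) (hκ1 : 1 ≤ κ) {n : ℕ} (hn : 1 ≤ n)
    {f : A} (hf : f ≠ 0) {I : Ideal A} (hI : Ideal.span {f} = I ^ n) {g : ℕ}
    (hcod : D.codim I ≤ g) (hg : D.gap κ ≤ g) : D.PowWitness n (bound κ g n) f := by
  have hI0 : I ≠ ⊥ := by
    rintro rfl
    have h0 : (⊥ : Ideal A) ^ n = ⊥ := zero_pow (by omega)
    rw [h0, Ideal.span_singleton_eq_bot] at hI
    exact hf hI
  obtain ⟨a, b, J, C, ha0, had, hbd, haJ, hbC, hcop⟩ := D.exists_two_generators hκ hI0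
  have hfa : f ∣ a ^ n := by
    rw [← Ideal.span_singleton_le_span_singleton, hI, ← Ideal.span_singleton_pow, haJ]
    exact Ideal.pow_right_mono Ideal.mul_le_left n
  have hfb : f ∣ b ^ n := by
    rw [← Ideal.span_singleton_le_span_singleton, hI, ← Ideal.span_singleton_pow, hbC]
    exact Ideal.pow_right_mono Ideal.mul_le_left n
  obtain ⟨u, hu⟩ := hfa
  obtain ⟨v, hv⟩ := hfb
  have hIn : I ^ n ≠ 0 := pow_ne_zero n hI0
  have huJ : Ideal.span {u} = J ^ n := by
    have h1 : I ^ n * Ideal.span {u} = I ^ n * J ^ n := by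
      rw [← mul_pow, ← haJ, Ideal.span_singleton_pow, hu, ← hI,
        Ideal.span_singleton_mul_span_singleton]
    exact mul_left_cancel₀ hIn h1
  have hvC : Ideal.span {v} = C ^ n := by
    have h1 : I ^ n * Ideal.span {v} = I ^ n * C ^ n := by
      rw [← mul_pow, ← hbC, Ideal.span_singleton_pow, hv, ← hI,
        Ideal.span_singleton_mul_span_singleton]
    exact mul_left_cancel₀ hIn h1
  have huv : IsCoprime u v := by
    rw [← Ideal.isCoprime_span_singleton_iff, huJ, hvC]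
    exact hcop.pow
  obtain ⟨s, t, hst, hs, ht⟩ := D.exists_bezout hκ hκ1 huv
  have hdu : D.d u ≤ n * (κ + (g + 1 + g)) := by
    by_cases hu0 : u = 0
    · rw [hu0, D.d_zero]; exact Nat.zero_le _
    · have h1 := D.d_mul f u hf hu0
      rw [← hu, D.d_pow ha0] at h1
      have h2 : n * D.d a ≤ n * (κ + (g + 1 + g)) := Nat.mul_le_mul_left n (by omega)
      omega
  have hdv : D.d v ≤ n * (κ + (g + 1 + g)) := by
    by_cases hv0 : v = 0
    · rw [hv0, D.d_zero]; exact Nat.zero_le _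
    · have hb0 : b ≠ 0 := by
        rintro rfl
        rw [zero_pow (by omega)] at hv
        exact (mul_ne_zero hf hv0) hv.symm
      have h1 := D.d_mul f v hf hv0
      rw [← hv, D.d_pow hb0] at h1
      have h2 : n * D.d b ≤ n * (κ + (g + 1 + g)) := Nat.mul_le_mul_left n (by omega)
      omega
  have hle : κ + (g + 1 + g) ≤ n * (κ + (g + 1 + g)) := Nat.le_mul_of_pos_left _ (by omega)
  unfold bound
  exact ⟨a, b, u, v, s, t, by omega, by omega, by omega, by omega, by omega, by omega, hu, hv, hst⟩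

/-! ### Equivalence modulo `n`-th powers -/

/-- `f` and `f'` differ by an `n`-th power, with witnesses of degree at most `R`. -/
def PowEquiv (n R : ℕ) (f f' : A) : Prop :=
  ∃ h h' : A, h ≠ 0 ∧ h' ≠ 0 ∧ D.d h ≤ R ∧ D.d h' ≤ R ∧ f * h ^ n = f' * h' ^ n

/-- Bounding the witnesses for the equivalence modulo `n`-th powers. -/
lemma powEquiv_of_eq (hκ : D.IsConductor κ) {n : ℕ} (hn : 1 ≤ n) {f f' : A} (hf : f ≠ 0)
    (hf' : f' ≠ 0) {I : Ideal A} (hI : Ideal.span {f} = I ^ n)
    {g : ℕ} (hg : D.gap κ ≤ g) (hfd : D.d f ≤ n * g) (hfd' : D.d f' ≤ n * g)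
    (hII : ∃ h h' : A, h ≠ 0 ∧ h' ≠ 0 ∧ f * h ^ n = f' * h' ^ n)
    (hI' : ∃ I' : Ideal A, Ideal.span {f'} = I' ^ n) : D.PowEquiv n (3 * g) f f' := by
  obtain ⟨h, h', hh, hh', heq⟩ := hII
  obtain ⟨I', hI'⟩ := hI'
  have hI0 : I ≠ ⊥ := by
    rintro rfl
    have h0 : (⊥ : Ideal A) ^ n = ⊥ := zero_pow (by omega)
    rw [h0, Ideal.span_singleton_eq_bot] at hI
    exact hf hI
  have hfin := D.finite_quot hκ I hI0
  have hcod : D.codim I ≤ g := by
    have h1 := D.codim_span_singleton hκ hf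
    rw [hI, D.codim_pow hκ hI0] at h1
    have h2 : n * D.codim I ≤ n * g := by omega
    exact Nat.le_of_mul_le_mul_left h2 (by omega)
  -- `(h) I = (h') I'`
  have h1 : (Ideal.span {h} * I) ^ n = (Ideal.span {h'} * I') ^ n := by
    rw [mul_pow, mul_pow, ← hI, ← hI', Ideal.span_singleton_pow, Ideal.span_singleton_pow,
      Ideal.span_singleton_mul_span_singleton, Ideal.span_singleton_mul_span_singleton,
      mul_comm (h ^ n), mul_comm (h' ^ n), heq]
  have h2 : Ideal.span {h} * I = Ideal.span {h'} * I' := by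
    apply dvd_antisymm
    · exact (UniqueFactorizationMonoid.pow_dvd_pow_iff_dvd (by omega)).mp h1.dvd
    · exact (UniqueFactorizationMonoid.pow_dvd_pow_iff_dvd (by omega)).mp h1.symm.dvd
  obtain ⟨c, hcI, hc0, hcd⟩ := D.exists_mem_le hκ I
  have h3 : h * c ∈ Ideal.span {h'} * I' := by
    rw [← h2]
    exact Ideal.mul_mem_mul (Ideal.mem_span_singleton_self h) hcI
  obtain ⟨c', -, hc'⟩ := Ideal.mem_span_singleton_mul.mp h3
  have hc'0 : c' ≠ 0 := by
    rintro rfl
    rw [mul_zero] at hc'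
    exact mul_ne_zero hh hc0 hc'.symm
  have hfc : f * c' ^ n = f' * c ^ n := by
    have h4 : h' ^ n * (f * c' ^ n) = h' ^ n * (f' * c ^ n) := by
      calc h' ^ n * (f * c' ^ n) = f * (h' * c') ^ n := by ring
        _ = f * (h * c) ^ n := by rw [hc']
        _ = (f * h ^ n) * c ^ n := by ring
        _ = (f' * h' ^ n) * c ^ n := by rw [heq]
        _ = h' ^ n * (f' * c ^ n) := by ring
    exact mul_left_cancel₀ (pow_ne_zero n hh') h4
  refine ⟨c', c, hc'0, hc0, ?_, by omega, hfc⟩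
  have h5 := D.d_mul f (c' ^ n) hf (pow_ne_zero n hc'0)
  have h6 := D.d_mul f' (c ^ n) hf' (pow_ne_zero n hc0)
  rw [hfc, h6, D.d_pow hc0, D.d_pow hc'0] at h5
  have h7 : n * D.d c ≤ n * (2 * g) := Nat.mul_le_mul_left n (by omega)
  have h8 : n * D.d c' ≤ n * (3 * g) := by
    have : n * (3 * g) = n * g + n * (2 * g) := by ring
    omega
  exact Nat.le_of_mul_le_mul_left h8 (by omega)

end DegreeFn

end Fermat.Agent.S27D
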