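import Mathlib
import Fermat.Agent.S27D.Degree

/-!
# Algebras given by structure constants over `K[X]`
-/

open Polynomial

namespace Fermat.Agent.S27D

section ring

variable {R : Type*} [CommRing R] {m : ℕ}

/-- Multiplication defined by structure constants. -/
def tmul (T : Fin m → Fin m → Fin m → R) (a b : Fin m → R) : Fin m → R :=
  fun k => ∑ i, ∑ j, a i * b j * T i j k

variable {T : Fin m → Fin m → Fin m → R}

lemma tmul_add (a b c : Fin m → R) : tmul T a (b + c) = tmul T a b + tmul T a c := by
  ext k
  simp only [tmul, Pi.add_apply, mul_add, add_mul, Finset.sum_add_distrib]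

lemma add_tmul (a b c : Fin m → R) : tmul T (a + b) c = tmul T a c + tmul T b c := by
  ext k
  simp only [tmul, Pi.add_apply, add_mul, Finset.sum_add_distrib]

lemma zero_tmul (a : Fin m → R) : tmul T 0 a = 0 := by
  ext k
  simp [tmul]

lemma tmul_zero (a : Fin m → R) : tmul T a 0 = 0 := by
  ext k
  simp [tmul]

lemma smul_tmul {S : Type*} [CommSemiring S] [Algebra S R] (r : S) (a b : Fin m → R) :
    tmul T (r • a) b = r • tmul T a b := by
  ext k
  simp only [tmul, Pi.smul_apply, Finset.smul_sum]
  refine Finset.sum_congr rfl fun i _ => Finset.sum_congr rfl fun j _ => ?_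
  rw [smul_mul_assoc, smul_mul_assoc]

lemma tmul_smul {S : Type*} [CommSemiring S] [Algebra S R] (r : S) (a b : Fin m → R) :
    tmul T a (r • b) = r • tmul T a b := by
  ext k
  simp only [tmul, Pi.smul_apply, Finset.smul_sum]
  refine Finset.sum_congr rfl fun i _ => Finset.sum_congr rfl fun j _ => ?_
  rw [mul_smul_comm, smul_mul_assoc]

lemma single_tmul_single (i j : Fin m) (r s : R) :
    tmul T (Pi.single i r) (Pi.single j s) = fun k => r * s * T i j k := by
  ext k
  simp only [tmul]
  rw [Finset.sum_eq_single i, Finset.sum_eq_single j]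
  · simp
  · intro b _ hb
    simp [hb]
  · simp
  · intro b _ hb
    simp [hb]
  · simp

/-- Basis vectors. -/
abbrev sg (i : Fin m) (r : R) : Fin m → R := Pi.single i r

lemma vec_induction {P : (Fin m → R) → Prop} (h0 : P 0) (hadd : ∀ a b, P a → P b → P (a + b))
    (hs : ∀ (r : R) (i : Fin m), P (r • Pi.single i 1)) (a : Fin m → R) : P a := by
  rw [← Finset.univ_sum_single a]
  refine Finset.sum_induction _ P hadd h0 fun i _ => ?_
  have h1 : (Pi.single i (a i) : Fin m → R) = a i • Pi.single i 1 := by
    rw [← Pi.single_smul, smul_eq_mul, mul_one]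
  rw [h1]
  exact hs _ _

variable [NeZero m]

/-- The unit. -/
def tone (m : ℕ) [NeZero m] (R : Type*) [CommRing R] : Fin m → R := Pi.single 0 1

/-- Powers. -/
def tpow (T : Fin m → Fin m → Fin m → R) (a : Fin m → R) : ℕ → (Fin m → R)
  | 0 => tone m R
  | n + 1 => tmul T (tpow T a n) a

/-- `T` is the multiplication table of a commutative ring with unit `e₀`. -/
structure IsTable (T : Fin m → Fin m → Fin m → R) : Prop where
  comm : ∀ i j k, T i j k = T j i k
  assoc : ∀ i j k r, ∑ l, T i j l * T l k r = ∑ l, T j k l * T i l r
  one : ∀ j k, T 0 j k = if j = k then 1 else 0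

lemma tmul_comm (h : IsTable T) (a b : Fin m → R) : tmul T a b = tmul T b a := by
  ext k
  simp only [tmul]
  rw [Finset.sum_comm]
  refine Finset.sum_congr rfl fun i _ => Finset.sum_congr rfl fun j _ => ?_
  rw [h.comm]
  ring

lemma tmul_assoc (h : IsTable T) (a b c : Fin m → R) :
    tmul T (tmul T a b) c = tmul T a (tmul T b c) := by
  -- reduce to basis vectors
  have key : ∀ i j k, tmul T (tmul T (Pi.single i 1) (Pi.single j 1)) (Pi.single k 1) =
      tmul T (Pi.single i 1) (tmul T (Pi.single j 1) (Pi.single k 1)) := by
    intro i j k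
    ext r
    rw [single_tmul_single, single_tmul_single]
    simp only [one_mul]
    have h1 : tmul T (fun k => T i j k) (Pi.single k 1) r = ∑ l, T i j l * T l k r := by
      simp only [tmul]
      refine Finset.sum_congr rfl fun l _ => ?_
      rw [Finset.sum_eq_single k]
      · simp
      · intro b _ hb
        simp [hb]
      · simp
    have h2 : tmul T (Pi.single i 1) (fun l => T j k l) r = ∑ l, T j k l * T i l r := by
      simp only [tmul]
      rw [Finset.sum_eq_single i]
      · simp
      · intro b _ hb
        simp [hb]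
      · simp
    rw [h1, h2]
    exact h.assoc i j k r
  induction a using vec_induction with
  | h0 => simp only [zero_tmul]
  | hadd a a' ha ha' => simp only [add_tmul, ha, ha']
  | hs r i =>
    induction b using vec_induction with
    | h0 => simp only [zero_tmul, tmul_zero]
    | hadd b b' hb hb' => simp only [add_tmul, tmul_add, hb, hb']
    | hs s j =>
      induction c using vec_induction with
      | h0 => simp only [tmul_zero]
      | hadd c c' hc hc' => simp only [tmul_add, hc, hc']
      | hs t k => simp only [smul_tmul, tmul_smul, key]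

lemma tone_tmul (h : IsTable T) (a : Fin m → R) : tmul T (tone m R) a = a := by
  ext k
  simp only [tmul, tone]
  rw [Finset.sum_eq_single 0]
  · simp only [Pi.single_eq_same, one_mul, h.one, mul_ite, mul_one, mul_zero, Finset.sum_ite_eq',
      Finset.mem_univ, if_true]
  · intro b _ hb
    simp [hb]
  · simp

/-- The ring with structure constants `T`. -/
@[nolint unusedArguments]
def SC (T : Fin m → Fin m → Fin m → R) (_h : IsTable T) : Type _ := Fin m → R

/-- The tautological map. -/
def SC.mk (h : IsTable T) (a : Fin m → R) : SC T h := a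

variable {h : IsTable T}

instance SC.instAddCommGroup : AddCommGroup (SC T h) := inferInstanceAs (AddCommGroup (Fin m → R))

instance SC.instCommRing : CommRing (SC T h) where
  __ := SC.instAddCommGroup
  mul := tmul T
  one := tone m R
  left_distrib := tmul_add
  right_distrib := add_tmul
  zero_mul := zero_tmul
  mul_zero := tmul_zero
  mul_assoc := tmul_assoc h
  mul_comm := tmul_comm h
  one_mul := tone_tmul h
  mul_one a := (tmul_comm h a (tone m R)).trans (tone_tmul h a)

lemma SC.mul_def (a b : SC T h) : a * b = tmul T a b := rfl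

lemma SC.one_def : (1 : SC T h) = tone m R := rfl

lemma SC.pow_def (a : SC T h) (n : ℕ) : a ^ n = tpow T a n := by
  induction n with
  | zero => rw [pow_zero]; rfl
  | succ n ih => rw [pow_succ, ih]; rfl

instance SC.instModule {S : Type*} [Semiring S] [Module S R] : Module S (SC T h) :=
  inferInstanceAs (Module S (Fin m → R))

lemma SC.smul_def {S : Type*} [Semiring S] [Module S R] (s : S) (a : SC T h) :
    s • a = (fun i => s • a i : Fin m → R) := rfl

instance SC.instAlgebra {S : Type*} [CommSemiring S] [Algebra S R] : Algebra S (SC T h) :=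
  Algebra.ofModule (fun r a b => smul_tmul (T := T) r a b) (fun r a b => tmul_smul (T := T) r a b)

instance SC.instScalarTower {S : Type*} [CommSemiring S] [Algebra S R] :
    IsScalarTower S R (SC T h) :=
  inferInstanceAs (IsScalarTower S R (Fin m → R))

instance SC.instFinite : Module.Finite R (SC T h) :=
  inferInstanceAs (Module.Finite R (Fin m → R))

lemma SC.mk_add (a b : Fin m → R) : SC.mk h (a + b) = SC.mk h a + SC.mk h b := rfl

lemma SC.mk_sub (a b : Fin m → R) : SC.mk h (a - b) = SC.mk h a - SC.mk h b := rfl

lemma SC.mk_zero : SC.mk h 0 = 0 := rfl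

lemma SC.mk_one : SC.mk h (sg 0 1) = 1 := rfl

lemma SC.mk_mul (a b : Fin m → R) : SC.mk h a * SC.mk h b = SC.mk h (tmul T a b) := rfl

lemma SC.mk_smul (r : R) (a : Fin m → R) : SC.mk h (r • a) = algebraMap R (SC T h) r * SC.mk h a :=
  Algebra.smul_def (A := SC T h) r (SC.mk h a)

lemma SC.mk_single {S : Type*} [CommSemiring S] [Algebra S R] (s : S) :
    SC.mk h (sg 0 (algebraMap S R s)) = algebraMap S (SC T h) s := by
  rw [Algebra.algebraMap_eq_smul_one]
  show _ = s • (Pi.single 0 1 : Fin m → R)
  rw [← Pi.single_smul, ← Algebra.algebraMap_eq_smul_one]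
  rfl

lemma SC.algebraMap_def {S : Type*} [CommSemiring S] [Algebra S R] (s : S) :
    algebraMap S (SC T h) s = (Pi.single 0 (algebraMap S R s) : Fin m → R) := by
  rw [Algebra.algebraMap_eq_smul_one]
  show s • (Pi.single 0 1 : Fin m → R) = _
  rw [← Pi.single_smul, Algebra.algebraMap_eq_smul_one]

end ring

end Fermat.Agent.S27D
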