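import Mathlib
import Fermat.Agent.S27D.Table

/-!
# The degree function on an algebra given by structure constants
-/

open Polynomial

namespace Fermat.Agent.S27D

variable {K : Type*} [Field K] {m : ℕ}

/-- The degree of `X ^ r e_i`. -/
def pos (q : Fin m → ℕ) (i : Fin m) (r : ℕ) : ℕ := m * (r + q i) + i

lemma pos_inj {q : Fin m → ℕ} {i j : Fin m} {r s : ℕ} (h : pos q i r = pos q j s) :
    i = j ∧ r = s := by
  unfold pos at h
  have h1 : (m * (r + q i) + i) % m = (m * (s + q j) + j) % m := by rw [h]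
  rw [Nat.mul_add_mod, Nat.mul_add_mod, Nat.mod_eq_of_lt i.2, Nat.mod_eq_of_lt j.2] at h1
  have hij : i = j := Fin.ext h1
  subst hij
  have hm : 0 < m := i.pos
  have h2 : m * (r + q i) = m * (s + q i) := by omega
  have h3 := Nat.eq_of_mul_eq_mul_left hm h2
  exact ⟨rfl, by omega⟩

lemma pos_add (q : Fin m → ℕ) (i : Fin m) (r s : ℕ) : pos q i (r + s) = pos q i r + m * s := by
  unfold pos; ring

lemma pos_mono (q : Fin m → ℕ) (i : Fin m) {r s : ℕ} (h : r ≤ s) : pos q i r ≤ pos q i s := by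
  unfold pos
  have := Nat.mul_le_mul_left m (show r + q i ≤ s + q i by omega)
  omega

open Classical in
/-- The degree. -/
noncomputable def dg (q : Fin m → ℕ) (a : Fin m → K[X]) : ℕ :=
  Finset.univ.sup fun i => if a i = 0 then 0 else pos q i (a i).natDegree

lemma dg_def (q : Fin m → ℕ) (a : Fin m → K[X]) [∀ i, Decidable (a i = 0)] :
    dg q a = Finset.univ.sup fun i => if a i = 0 then 0 else pos q i (a i).natDegree := by
  unfold dg
  congr 1
  funext i
  split_ifs <;> rfl

lemma dg_zero (q : Fin m → ℕ) : dg q (0 : Fin m → K[X]) = 0 := by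
  simp [dg]

lemma pos_le_dg {q : Fin m → ℕ} {a : Fin m → K[X]} {i : Fin m} {r : ℕ} (h : (a i).coeff r ≠ 0) :
    pos q i r ≤ dg q a := by
  classical
  have h0 : a i ≠ 0 := by rintro h0; rw [h0] at h; exact h (coeff_zero _)
  have h1 : r ≤ (a i).natDegree := le_natDegree_of_ne_zero h
  refine (pos_mono q i h1).trans ?_
  have h2 := Finset.le_sup (f := fun i => if a i = 0 then 0 else pos q i (a i).natDegree)
    (Finset.mem_univ i)
  rw [if_neg h0] at h2
  rwa [dg_def]

lemma dg_le {q : Fin m → ℕ} {a : Fin m → K[X]} {n : ℕ}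
    (h : ∀ i r, (a i).coeff r ≠ 0 → pos q i r ≤ n) : dg q a ≤ n := by
  refine Finset.sup_le fun i _ => ?_
  split_ifs with h0
  · exact Nat.zero_le _
  · exact h i _ (by rwa [coeff_natDegree, leadingCoeff_ne_zero])

lemma exists_top {q : Fin m → ℕ} {a : Fin m → K[X]} (ha : a ≠ 0) :
    ∃ i r, (a i).coeff r ≠ 0 ∧ pos q i r = dg q a := by
  classical
  obtain ⟨j, hj⟩ : ∃ j, a j ≠ 0 := by
    by_contra! hcon
    exact ha (funext hcon)
  obtain ⟨i, -, hi⟩ := Finset.exists_mem_eq_sup Finset.univ ⟨j, Finset.mem_univ j⟩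
    (fun i => if a i = 0 then 0 else pos q i (a i).natDegree)
  rw [← dg_def] at hi
  by_cases h0 : a i = 0
  · rw [if_pos h0] at hi
    have hj' : (a j).coeff (a j).natDegree ≠ 0 := by rwa [coeff_natDegree, leadingCoeff_ne_zero]
    refine ⟨j, (a j).natDegree, hj', ?_⟩
    have := pos_le_dg (q := q) hj'
    omega
  · rw [if_neg h0] at hi
    exact ⟨i, _, by rwa [coeff_natDegree, leadingCoeff_ne_zero], hi.symm⟩

lemma dg_lt {q : Fin m → ℕ} {a : Fin m → K[X]} (ha : a ≠ 0) {n : ℕ}
    (h : ∀ i r, (a i).coeff r ≠ 0 → pos q i r < n) : dg q a < n := by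
  obtain ⟨i, r, hir, hdg⟩ := exists_top (q := q) ha
  rw [← hdg]
  exact h i r hir

/-- Compatibility of the table with the degree. -/
structure IsDeg (q : Fin m → ℕ) (T : Fin m → Fin m → Fin m → K[X]) : Prop where
  le : ∀ i j k r, (T i j k).coeff r ≠ 0 → pos q k r ≤ pos q i 0 + pos q j 0
  top : ∀ i j, ∃ k r, (T i j k).coeff r ≠ 0 ∧ pos q k r = pos q i 0 + pos q j 0

variable {q : Fin m → ℕ} {T : Fin m → Fin m → Fin m → K[X]}

lemma exists_of_coeff_tmul (hT : IsDeg q T) {a b : Fin m → K[X]} {k : Fin m} {s : ℕ}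
    (h : (tmul T a b k).coeff s ≠ 0) :
    ∃ i r j t, (a i).coeff r ≠ 0 ∧ (b j).coeff t ≠ 0 ∧ pos q k s ≤ pos q i r + pos q j t := by
  rw [tmul, finsetSum_coeff] at h
  obtain ⟨i, -, hi⟩ := Finset.exists_ne_zero_of_sum_ne_zero h
  rw [finsetSum_coeff] at hi
  obtain ⟨j, -, hj⟩ := Finset.exists_ne_zero_of_sum_ne_zero hi
  rw [coeff_mul] at hj
  obtain ⟨⟨x, r3⟩, hx, hxr⟩ := Finset.exists_ne_zero_of_sum_ne_zero hj
  rw [Finset.HasAntidiagonal.mem_antidiagonal] at hx
  dsimp only at hx hxr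
  have h1 := left_ne_zero_of_mul hxr
  have h2 := right_ne_zero_of_mul hxr
  rw [coeff_mul] at h1
  obtain ⟨⟨r1, r2⟩, hr, hrr⟩ := Finset.exists_ne_zero_of_sum_ne_zero h1
  rw [Finset.HasAntidiagonal.mem_antidiagonal] at hr
  dsimp only at hr hrr
  refine ⟨i, r1, j, r2, left_ne_zero_of_mul hrr, right_ne_zero_of_mul hrr, ?_⟩
  have h3 := hT.le i j k r3 h2
  have h4 : s = r3 + (r1 + r2) := by omega
  have h5 : pos q i r1 = pos q i 0 + m * r1 := by rw [← pos_add, zero_add]
  have h6 : pos q j r2 = pos q j 0 + m * r2 := by rw [← pos_add, zero_add]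
  rw [h4, pos_add, h5, h6, mul_add]
  omega

lemma dg_tmul_le (hT : IsDeg q T) (a b : Fin m → K[X]) :
    dg q (tmul T a b) ≤ dg q a + dg q b := by
  apply dg_le
  intro k s h
  obtain ⟨i, r, j, t, h1, h2, h3⟩ := exists_of_coeff_tmul hT h
  exact h3.trans (add_le_add (pos_le_dg h1) (pos_le_dg h2))

/-- Splitting off the top term. -/
lemma exists_split {a : Fin m → K[X]} (ha : a ≠ 0) (q : Fin m → ℕ) :
    ∃ (i : Fin m) (r : ℕ) (c : K) (a' : Fin m → K[X]), c ≠ 0 ∧ pos q i r = dg q a ∧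
      (a i).coeff r = c ∧ a = Pi.single i (monomial r c) + a' ∧
      ∀ j s, (a' j).coeff s ≠ 0 → pos q j s < dg q a := by
  obtain ⟨i, r, hir, hdg⟩ := exists_top (q := q) ha
  refine ⟨i, r, (a i).coeff r, a - Pi.single i (monomial r ((a i).coeff r)), hir, hdg, rfl,
    by rw [add_sub_cancel], ?_⟩
  intro j s hjs
  rw [Pi.sub_apply, coeff_sub] at hjs
  by_cases hij : j = i
  · subst hij
    rw [Pi.single_eq_same, coeff_monomial] at hjs
    by_cases hrs : r = s
    · subst hrs
      rw [if_pos rfl, sub_self] at hjs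
      exact absurd rfl hjs
    · rw [if_neg hrs, sub_zero] at hjs
      refine lt_of_le_of_ne (pos_le_dg hjs) fun h => hrs ?_
      rw [← hdg] at h
      exact (pos_inj h).2.symm
  · rw [Pi.single_eq_of_ne hij, coeff_zero, sub_zero] at hjs
    refine lt_of_le_of_ne (pos_le_dg hjs) fun h => hij ?_
    rw [← hdg] at h
    exact (pos_inj h).1

lemma exists_coeff_tmul (hT : IsDeg q T) {a b : Fin m → K[X]} (ha : a ≠ 0) (hb : b ≠ 0) :
    ∃ k s, (tmul T a b k).coeff s ≠ 0 ∧ pos q k s = dg q a + dg q b := by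
  obtain ⟨i, r, c, a', hc, hi, -, haa, ha'⟩ := exists_split ha q
  obtain ⟨j, t, c', b', hc', hj, -, hbb, hb'⟩ := exists_split hb q
  obtain ⟨k, u, hk, hku⟩ := hT.top i j
  have hpos : pos q k (u + (r + t)) = dg q a + dg q b := by
    have h5 : pos q i r = pos q i 0 + m * r := by rw [← pos_add, zero_add]
    have h6 : pos q j t = pos q j 0 + m * t := by rw [← pos_add, zero_add]
    rw [pos_add, hku, ← hi, ← hj, h5, h6, mul_add]
    omega
  refine ⟨k, u + (r + t), ?_, hpos⟩
  have h1 : tmul T a b = tmul T (Pi.single i (monomial r c)) (Pi.single j (monomial t c')) +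
      (tmul T (Pi.single i (monomial r c)) b' + tmul T a' b) := by
    conv_lhs => rw [haa, add_tmul]
    conv_lhs => rw [hbb]
    rw [tmul_add]
    conv_rhs => rw [hbb]
    rw [tmul_add]
    abel
  have h2 : (tmul T (Pi.single i (monomial r c)) b' k).coeff (u + (r + t)) = 0 := by
    by_contra hcon
    obtain ⟨i', r', j', t', h1, h2, h3⟩ := exists_of_coeff_tmul hT hcon
    have h4 := hb' j' t' h2
    have h5 : pos q i' r' ≤ dg q a := by
      by_cases hii : i' = i
      · subst hii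
        rw [Pi.single_eq_same, coeff_monomial] at h1
        by_cases hrr : r = r'
        · rw [← hrr, hi]
        · rw [if_neg hrr] at h1; exact absurd rfl h1
      · rw [Pi.single_eq_of_ne hii, coeff_zero] at h1; exact absurd rfl h1
    omega
  have h3 : (tmul T a' b k).coeff (u + (r + t)) = 0 := by
    by_contra hcon
    obtain ⟨i', r', j', t', h1, h2, h3⟩ := exists_of_coeff_tmul hT hcon
    have h4 := ha' i' r' h1
    have h5 := pos_le_dg (q := q) h2
    omega
  rw [h1, Pi.add_apply, coeff_add, Pi.add_apply, coeff_add, h2, h3, add_zero, add_zero,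
    single_tmul_single]
  dsimp only
  rw [monomial_mul_monomial, coeff_monomial_mul]
  exact mul_ne_zero (mul_ne_zero hc hc') hk

lemma tmul_ne_zero (hT : IsDeg q T) {a b : Fin m → K[X]} (ha : a ≠ 0) (hb : b ≠ 0) :
    tmul T a b ≠ 0 := by
  obtain ⟨k, s, h, -⟩ := exists_coeff_tmul hT ha hb
  rintro h0
  rw [h0] at h
  exact h (coeff_zero _)

lemma dg_tmul (hT : IsDeg q T) {a b : Fin m → K[X]} (ha : a ≠ 0) (hb : b ≠ 0) :
    dg q (tmul T a b) = dg q a + dg q b := by
  apply le_antisymm (dg_tmul_le hT a b)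
  obtain ⟨k, s, h, h1⟩ := exists_coeff_tmul hT ha hb
  rw [← h1]
  exact pos_le_dg h

lemma dg_add_le (a b : Fin m → K[X]) : dg q (a + b) ≤ max (dg q a) (dg q b) := by
  apply dg_le
  intro i r h
  rw [Pi.add_apply, coeff_add] at h
  by_cases ha : (a i).coeff r = 0
  · rw [ha, zero_add] at h
    exact le_max_of_le_right (pos_le_dg h)
  · exact le_max_of_le_left (pos_le_dg ha)

lemma dg_lead {a b : Fin m → K[X]} (ha : a ≠ 0) (hb : b ≠ 0) (hab : dg q a = dg q b) :
    ∃ c : K, a = c • b ∨ dg q (a - c • b) < dg q a := by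
  obtain ⟨i, r, c, a', hc, hi, -, haa, ha'⟩ := exists_split ha q
  obtain ⟨j, t, c', b', hc', hj, -, hbb, hb'⟩ := exists_split hb q
  obtain ⟨rfl, rfl⟩ := pos_inj (hi.trans (hab.trans hj.symm))
  refine ⟨c / c', ?_⟩
  by_cases h0 : a = (c / c') • b
  · exact Or.inl h0
  right
  apply dg_lt (sub_ne_zero.mpr h0)
  intro j s hjs
  have h1 : a - (c / c') • b = a' - (c / c') • b' := by
    rw [haa, hbb, smul_add]
    have h2 : (c / c') • (Pi.single i (monomial r c') : Fin m → K[X]) =
        Pi.single i (monomial r c) := by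
      rw [← Pi.single_smul, smul_monomial, smul_eq_mul, div_mul_cancel₀ _ hc']
    rw [h2]
    abel
  rw [h1, Pi.sub_apply, coeff_sub, Pi.smul_apply, coeff_smul] at hjs
  by_cases h2 : (a' j).coeff s = 0
  · rw [h2, zero_sub, neg_ne_zero] at hjs
    rw [hab]
    exact hb' j s (right_ne_zero_of_mul hjs)
  · exact ha' j s h2

variable [NeZero m]

lemma dg_single_zero (hq : q 0 = 0) (c : K) : dg q (Pi.single 0 (C c) : Fin m → K[X]) = 0 := by
  rw [← Nat.le_zero]
  apply dg_le
  intro i r h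
  by_cases hi : i = 0
  · subst hi
    rw [Pi.single_eq_same, coeff_C] at h
    by_cases hr : r = 0
    · subst hr
      simp [pos, hq]
    · rw [if_neg hr] at h
      exact absurd rfl h
  · rw [Pi.single_eq_of_ne hi, coeff_zero] at h
    exact absurd rfl h

instance instNontrivialSC {h : IsTable T} : Nontrivial (SC T h) :=
  inferInstanceAs (Nontrivial (Fin m → K[X]))

lemma isDomain_SC (h : IsTable T) (hT : IsDeg q T) : IsDomain (SC T h) := by
  have : NoZeroDivisors (SC T h) := ⟨fun {a b} hab => by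
    by_contra! hcon
    exact tmul_ne_zero hT hcon.1 hcon.2 hab⟩
  exact NoZeroDivisors.to_isDomain _

/-- The degree function on `SC T h`. -/
noncomputable def dgFn (h : IsTable T) (hT : IsDeg q T) (hq : q 0 = 0) : DegreeFn K (SC T h) where
  d := dg q
  d_mul a b ha hb := dg_tmul hT ha hb
  d_add a b := dg_add_le a b
  d_algebraMap c := by
    rw [SC.algebraMap_def]
    exact dg_single_zero hq c
  lead a b ha hb hab := dg_lead ha hb hab

/-- The conductor. -/
def cond (q : Fin m → ℕ) : ℕ := m * (Finset.univ.sup q + 1)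

lemma one_le_cond (q : Fin m → ℕ) : 1 ≤ cond q := by
  unfold cond
  exact Nat.mul_pos (Nat.pos_of_ne_zero (NeZero.ne m)) (by omega)

/-- The degrees. -/
def IsDegreeOf (q : Fin m → ℕ) (n : ℕ) : Prop :=
  q ⟨n % m, Nat.mod_lt n (Nat.pos_of_ne_zero (NeZero.ne m))⟩ ≤ n / m

instance (q : Fin m → ℕ) : DecidablePred (IsDegreeOf q) := fun n => by
  unfold IsDegreeOf; infer_instance

lemma isDegreeOf_iff {n : ℕ} : IsDegreeOf q n ↔ ∃ i r, pos q i r = n := by
  have hm : 0 < m := Nat.pos_of_ne_zero (NeZero.ne m)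
  constructor
  · intro h
    refine ⟨⟨n % m, Nat.mod_lt n hm⟩, n / m - q ⟨n % m, Nat.mod_lt n hm⟩, ?_⟩
    unfold pos
    unfold IsDegreeOf at h
    rw [Nat.sub_add_cancel h]
    exact Nat.div_add_mod n m
  · rintro ⟨i, r, rfl⟩
    unfold IsDegreeOf pos
    have h1 : (m * (r + q i) + i) / m = r + q i := by
      rw [Nat.mul_add_div hm, Nat.div_eq_of_lt i.2, add_zero]
    have h2 : (⟨(m * (r + q i) + i) % m, Nat.mod_lt _ hm⟩ : Fin m) = i := by
      apply Fin.ext
      show (m * (r + q i) + i) % m = i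
      rw [Nat.mul_add_mod, Nat.mod_eq_of_lt i.2]
    rw [h1, h2]
    omega

lemma mem_val_iff (h : IsTable T) (hT : IsDeg q T) (hq : q 0 = 0) {n : ℕ} :
    n ∈ (dgFn h hT hq).val ⊤ ↔ IsDegreeOf q n := by
  rw [isDegreeOf_iff]
  constructor
  · rintro ⟨a, -, ha, rfl⟩
    obtain ⟨i, r, -, hir⟩ := exists_top (q := q) (show (a : Fin m → K[X]) ≠ 0 from ha)
    exact ⟨i, r, hir⟩
  · rintro ⟨i, r, rfl⟩
    refine ⟨(Pi.single i (monomial r 1) : Fin m → K[X]), trivial, ?_, ?_⟩
    · intro h0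
      have h1 := congrFun h0 i
      rw [Pi.single_eq_same] at h1
      exact one_ne_zero ((monomial_eq_zero_iff _ _).mp h1)
    · apply le_antisymm
      · apply dg_le
        intro j s h1
        by_cases hij : j = i
        · subst hij
          rw [Pi.single_eq_same, coeff_monomial] at h1
          by_cases hrs : r = s
          · rw [hrs]
          · rw [if_neg hrs] at h1; exact absurd rfl h1
        · rw [Pi.single_eq_of_ne hij, coeff_zero] at h1; exact absurd rfl h1
      · apply pos_le_dg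
        rw [Pi.single_eq_same, coeff_monomial, if_pos rfl]
        exact one_ne_zero

lemma isConductor_cond (h : IsTable T) (hT : IsDeg q T) (hq : q 0 = 0) :
    have := isDomain_SC h hT
    (dgFn h hT hq).IsConductor (cond q) := by
  intro _ n hn
  rw [mem_val_iff]
  unfold IsDegreeOf
  have hm : 0 < m := Nat.pos_of_ne_zero (NeZero.ne m)
  have h1 : Finset.univ.sup q + 1 ≤ n / m := (Nat.le_div_iff_mul_le hm).mpr (by
    rw [mul_comm]; exact hn)
  have h2 := Finset.le_sup (f := q) (Finset.mem_univ ⟨n % m, Nat.mod_lt n hm⟩)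
  omega

/-- The number of gaps. -/
def gapN (q : Fin m → ℕ) : ℕ := ((Finset.range (cond q)).filter (¬ IsDegreeOf q ·)).card

lemma gap_eq (h : IsTable T) (hT : IsDeg q T) (hq : q 0 = 0) :
    (dgFn h hT hq).gap (cond q) = gapN q := by
  unfold DegreeFn.gap gapN
  congr 1
  ext n
  simp only [Finset.mem_filter, mem_val_iff]

end Fermat.Agent.S27D
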