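import Mathlib
import Fermat.Agent.S27D.TDeg
import Fermat.Agent.S27D.Ideals

/-!
# The Dedekind property as a bounded degree condition
-/

open Polynomial

namespace Fermat.Agent.S27D

section general

variable {K A : Type*} [Field K] [IsAlgClosed K] [CommRing A] [IsDedekindDomain A] [Algebra K A]
  (D : DegreeFn K A) {κ : ℕ}

/-- The bound in `exists_local_generator`. -/
def sbound (κ g : ℕ) : ℕ := κ + (κ + (κ + (1 + 1 + g) + 1 + g))

/-- Local generators of maximal ideals, of bounded degree. -/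
lemma DegreeFn.exists_local_generator (hκ : D.IsConductor κ) {P : Ideal A} [hP : P.IsMaximal]
    (hP0 : P ≠ ⊥) : ∃ a b : A, a ∈ P ∧ b ∉ P ∧ D.d a ≤ sbound κ (D.gap κ) ∧
      D.d b + κ ≤ sbound κ (D.gap κ) ∧
      ∀ z ∈ P, ∃ y, b * z = a * y ∧ D.d y ≤ D.d b + D.d z := by
  -- the element `a`
  have hfin1 : Module.Finite K (A ⧸ P) := D.finite_quot hκ P hP0
  have hcodP := D.codim_maximal hκ hP0
  have h1 := D.lt_inf_L hκ hP0 hP0 (M := κ + (1 + 1 + D.gap κ)) (by rw [hcodP])
  obtain ⟨a, ⟨haP, haM⟩, haPP⟩ : ∃ a, a ∈ P.restrictScalars K ⊓ D.L (κ + (1 + 1 + D.gap κ)) ∧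
      a ∉ (P * P).restrictScalars K ⊓ D.L (κ + (1 + 1 + D.gap κ)) := by
    by_contra! hcon
    have h2 : P.restrictScalars K ⊓ D.L (κ + (1 + 1 + D.gap κ)) ≤
      (P * P).restrictScalars K ⊓ D.L (κ + (1 + 1 + D.gap κ)) := fun x hx => hcon x hx
    exact absurd (Submodule.finrank_mono h2) (not_le.mpr h1)
  have haP' : a ∈ P := haP
  have haPP' : a ∉ P * P := fun h => haPP ⟨h, haM⟩
  have ha0 : a ≠ 0 := by rintro rfl; exact haPP' (zero_mem _)
  have had : D.d a < κ + (1 + 1 + D.gap κ) := haM.resolve_left ha0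
  obtain ⟨J, hJ⟩ := Ideal.dvd_span_singleton.mpr haP'
  have hJ0 : J ≠ ⊥ := by
    rintro rfl
    rw [Ideal.mul_bot, Ideal.span_singleton_eq_bot] at hJ
    exact ha0 hJ
  have hJP : ¬ J ≤ P := by
    intro h
    apply haPP'
    rw [← Ideal.span_singleton_le_iff_mem, hJ]
    exact Ideal.mul_mono le_rfl h
  have hcodJ : D.codim J < κ + (1 + 1 + D.gap κ) := by
    have h2 := D.codim_span_singleton hκ ha0
    rw [hJ, D.codim_mul hκ hP0 hJ0] at h2
    omega
  -- the element `b`
  have h2 := D.lt_inf_L hκ hP0 hJ0 (M := κ + (κ + (1 + 1 + D.gap κ) + 1 + D.gap κ)) (by omega)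
  obtain ⟨b, ⟨hbJ, hbM⟩, hbPJ⟩ : ∃ b, b ∈ J.restrictScalars K ⊓
      D.L (κ + (κ + (1 + 1 + D.gap κ) + 1 + D.gap κ)) ∧
      b ∉ (P * J).restrictScalars K ⊓ D.L (κ + (κ + (1 + 1 + D.gap κ) + 1 + D.gap κ)) := by
    by_contra! hcon
    have h3 : J.restrictScalars K ⊓ D.L (κ + (κ + (1 + 1 + D.gap κ) + 1 + D.gap κ)) ≤
      (P * J).restrictScalars K ⊓ D.L (κ + (κ + (1 + 1 + D.gap κ) + 1 + D.gap κ)) :=
      fun x hx => hcon x hx
    exact absurd (Submodule.finrank_mono h3) (not_le.mpr h2)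
  have hbJ' : b ∈ J := hbJ
  have hbPJ' : b ∉ P * J := fun h => hbPJ ⟨h, hbM⟩
  have hb0 : b ≠ 0 := by rintro rfl; exact hbPJ' (zero_mem _)
  have hbd : D.d b < κ + (κ + (1 + 1 + D.gap κ) + 1 + D.gap κ) := hbM.resolve_left hb0
  have hbP : b ∉ P := by
    intro hbP
    apply hbPJ'
    obtain ⟨C, hC⟩ := Ideal.dvd_span_singleton.mpr hbJ'
    have h3 : P ∣ J * C := by
      rw [← hC, Ideal.dvd_span_singleton]
      exact hbP
    have hprime : Prime P := Ideal.prime_of_isPrime hP0 hP.isPrime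
    rcases hprime.dvd_or_dvd h3 with h4 | h4
    · exact absurd (Ideal.le_of_dvd h4) hJP
    · rw [← Ideal.span_singleton_le_iff_mem, hC, mul_comm P J]
      exact Ideal.mul_mono le_rfl (Ideal.le_of_dvd h4)
  refine ⟨a, b, haP', hbP, ?_, ?_, ?_⟩
  · unfold sbound; omega
  · unfold sbound; omega
  · intro z hz
    have h3 : b * z ∈ Ideal.span {a} := by
      rw [hJ, mul_comm P J]
      exact Ideal.mul_mem_mul hbJ' hz
    obtain ⟨y, hy⟩ := Ideal.mem_span_singleton.mp h3
    refine ⟨y, hy, ?_⟩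
    by_cases hz0 : z = 0
    · rw [hz0, mul_zero] at hy
      have hy0 : y = 0 := (mul_eq_zero.mp hy.symm).resolve_left ha0
      rw [hy0, D.d_zero]
      exact Nat.zero_le _
    · have hy0 : y ≠ 0 := by
        rintro rfl
        rw [mul_zero] at hy
        exact mul_ne_zero hb0 hz0 hy
      have h4 := D.d_mul b z hb0 hz0
      rw [hy, D.d_mul a y ha0 hy0] at h4
      omega

end general

section points

variable {K : Type*} [Field K] {m : ℕ} [NeZero m] {q : Fin m → ℕ}
  {T : Fin m → Fin m → Fin m → K[X]}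

/-- Evaluation at a point. -/
noncomputable def ev (x₀ : K) (ε : Fin m → K) (a : Fin m → K[X]) : K :=
  ∑ i, (a i).eval x₀ * ε i

/-- Points of the curve. -/
def IsPoint (T : Fin m → Fin m → Fin m → K[X]) (x₀ : K) (ε : Fin m → K) : Prop :=
  ε 0 = 1 ∧ ∀ i j, ε i * ε j = ∑ k, (T i j k).eval x₀ * ε k

/-- Bounded witness for the regularity at a point. -/
def SmoothAt (q : Fin m → ℕ) (T : Fin m → Fin m → Fin m → K[X]) (R : ℕ) (x₀ : K)
    (ε : Fin m → K) : Prop :=
  ∃ z : Fin 3 ⊕ Fin m → (Fin m → K[X]), (∀ i, dg q (z i) ≤ R) ∧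
    ev x₀ ε (z (Sum.inl 0)) = 0 ∧ ev x₀ ε (z (Sum.inl 1)) ≠ 0 ∧
    tmul T (z (Sum.inl 1)) (sg 0 (X - C x₀)) = tmul T (z (Sum.inl 0)) (z (Sum.inl 2)) ∧
    ∀ i, tmul T (z (Sum.inl 1)) (sg i 1 - sg 0 (C (ε i))) =
      tmul T (z (Sum.inl 0)) (z (Sum.inr i))

omit [NeZero m] in
lemma ev_add (x₀ : K) (ε : Fin m → K) (a b : Fin m → K[X]) :
    ev x₀ ε (a + b) = ev x₀ ε a + ev x₀ ε b := by
  simp only [ev, Pi.add_apply, eval_add, add_mul, Finset.sum_add_distrib]

omit [NeZero m] in
lemma ev_zero (x₀ : K) (ε : Fin m → K) : ev x₀ ε (0 : Fin m → K[X]) = 0 := by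
  simp [ev]

omit [NeZero m] in
lemma ev_single (x₀ : K) (ε : Fin m → K) (i : Fin m) (p : K[X]) :
    ev x₀ ε (Pi.single i p) = p.eval x₀ * ε i := by
  unfold ev
  rw [Finset.sum_eq_single i]
  · rw [Pi.single_eq_same]
  · intro j _ hj
    rw [Pi.single_eq_of_ne hj, eval_zero, zero_mul]
  · simp

lemma ev_tmul {x₀ : K} {ε : Fin m → K} (hp : IsPoint T x₀ ε) (a b : Fin m → K[X]) :
    ev x₀ ε (tmul T a b) = ev x₀ ε a * ev x₀ ε b := by
  unfold ev tmul
  simp only [eval_finsetSum, eval_mul]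
  rw [Finset.sum_mul_sum]
  simp only [Finset.sum_mul]
  rw [Finset.sum_comm]
  refine Finset.sum_congr rfl fun i _ => ?_
  rw [Finset.sum_comm]
  refine Finset.sum_congr rfl fun j _ => ?_
  have h1 : eval x₀ (a i) * ε i * (eval x₀ (b j) * ε j) =
      eval x₀ (a i) * eval x₀ (b j) * (ε i * ε j) := by ring
  rw [h1, hp.2 i j, Finset.mul_sum]
  refine Finset.sum_congr rfl fun k _ => ?_
  ring

/-- The homomorphism attached to a point. -/
noncomputable def evHom (h : IsTable T) {x₀ : K} {ε : Fin m → K} (hp : IsPoint T x₀ ε) :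
    SC T h →+* K where
  toFun a := ev x₀ ε a
  map_zero' := ev_zero _ _
  map_add' a b := ev_add _ _ _ _
  map_one' := by
    show ev x₀ ε (Pi.single 0 1) = 1
    rw [ev_single, eval_one, hp.1, one_mul]
  map_mul' a b := ev_tmul hp a b

omit [NeZero m] in
lemma dg_single_le (q : Fin m → ℕ) (i : Fin m) {p : K[X]} {n : ℕ} (hn : p.natDegree ≤ n) :
    dg q (sg i p) ≤ pos q i n := by
  apply dg_le
  intro j r h
  unfold sg at h
  by_cases hij : j = i
  · subst hij
    rw [Pi.single_eq_same] at h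
    exact pos_mono q j ((le_natDegree_of_ne_zero h).trans hn)
  · rw [Pi.single_eq_of_ne hij, coeff_zero] at h
    exact absurd rfl h

omit [NeZero m] in
lemma pos_zero_lt (q : Fin m → ℕ) (i : Fin m) : pos q i 0 < m * (Finset.univ.sup q + 1) := by
  have h1 := Finset.le_sup (f := q) (Finset.mem_univ i)
  have h2 := Nat.mul_le_mul_left m h1
  unfold pos
  have h3 := i.2
  rw [zero_add, mul_add]
  omega

theorem smoothAt_of_isDedekindDomain [IsAlgClosed K] (h : IsTable T) (hT : IsDeg q T)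
    (hq : q 0 = 0) [IsDedekindDomain (SC T h)] {x₀ : K} {ε : Fin m → K}
    (hp : IsPoint T x₀ ε) : SmoothAt q T (sbound (cond q) (gapN q)) x₀ ε := by
  set D := dgFn h hT hq with hD
  have hκ : D.IsConductor (cond q) := isConductor_cond h hT hq
  set φ := evHom h hp with hφ
  have hφ' : ∀ a, φ (SC.mk h a) = ev x₀ ε a := fun a => rfl
  have hφc : ∀ c : K, φ (algebraMap K _ c) = c := by
    intro c
    rw [← SC.mk_single, hφ', ev_single, hp.1, mul_one]
    exact eval_C
  have hsurj : Function.Surjective φ := fun c => ⟨_, hφc c⟩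
  have hmax : (RingHom.ker φ).IsMaximal := RingHom.ker_isMaximal_of_surjective φ hsurj
  have hX : SC.mk h (sg 0 (X - C x₀)) ≠ 0 := by
    show (Pi.single 0 (X - C x₀) : Fin m → K[X]) ≠ 0
    rw [Ne, Pi.single_eq_zero_iff]
    exact X_sub_C_ne_zero x₀
  have hXmem : SC.mk h (sg 0 (X - C x₀)) ∈ RingHom.ker φ := by
    rw [RingHom.mem_ker, hφ', ev_single]
    simp
  have hker0 : RingHom.ker φ ≠ ⊥ := by
    intro h0
    rw [h0, Ideal.mem_bot] at hXmem
    exact hX hXmem
  obtain ⟨a, b, ha, hb, had, hbd, hz⟩ := D.exists_local_generator hκ hker0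
  rw [gap_eq] at had hbd
  obtain ⟨y, hy, hyd⟩ := hz _ hXmem
  have hz' : ∀ i : Fin m, ∃ y : SC T h, b * SC.mk h (sg i 1 - sg 0 (C (ε i))) =
      a * y ∧ D.d y ≤ sbound (cond q) (gapN q) := by
    intro i
    have hmem : SC.mk h (sg i 1 - sg 0 (C (ε i))) ∈ RingHom.ker φ := by
      rw [RingHom.mem_ker, SC.mk_sub, map_sub, hφ', hφ', ev_single, ev_single, hp.1]
      simp
    obtain ⟨y, hy, hyd⟩ := hz _ hmem
    refine ⟨y, hy, ?_⟩
    have h2 : D.d (SC.mk h (sg i 1 - sg 0 (C (ε i)))) ≤ cond q := by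
      rw [SC.mk_sub]
      refine (D.d_sub_le _ _).trans (max_le ?_ ?_)
      · exact (dg_single_le (n := 0) q i (by simp)).trans (pos_zero_lt q i).le
      · exact (dg_single_le (n := 0) q 0 (by simp)).trans (pos_zero_lt q 0).le
    omega
  choose y' hy' hyd' using hz'
  have hyd2 : D.d y ≤ sbound (cond q) (gapN q) := by
    have h2 : D.d (SC.mk h (sg 0 (X - C x₀))) ≤ cond q := by
      refine (dg_single_le (n := 1) q 0 (by rw [natDegree_X_sub_C])).trans ?_
      unfold pos cond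
      rw [hq]
      have := Nat.mul_le_mul_left m (show 1 ≤ Finset.univ.sup q + 1 by omega)
      simpa using this
    omega
  refine ⟨Sum.elim ![a, b, y] y', ?_, ?_, ?_, hy, hy'⟩
  · rintro (i | i)
    · fin_cases i
      · exact had
      · show D.d b ≤ _
        omega
      · exact hyd2
    · exact hyd' i
  · exact ha
  · exact hb

theorem isDedekindDomain_of_smoothAt [IsAlgClosed K] (h : IsTable T) (hT : IsDeg q T)
    (hq : q 0 = 0) {R : ℕ} (hS : ∀ x₀ ε, IsPoint T x₀ ε → SmoothAt q T R x₀ ε) :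
    IsDedekindDomain (SC T h) := by
  have hdom := isDomain_SC h hT
  set D := dgFn h hT hq with hD
  have hκ : D.IsConductor (cond q) := isConductor_cond h hT hq
  have hnoeth : IsNoetherianRing (SC T h) := IsNoetherianRing.of_finite K[X] (SC T h)
  suffices hdvr : IsDedekindDomainDvr (SC T h) from hdvr.isDedekindDomain
  refine ⟨fun P hP0 hP => ?_⟩
  have hfin := D.finite_quot hκ P hP0
  have hbij : Function.Bijective (algebraMap K (SC T h ⧸ P)) :=
    IsAlgClosed.algebraMap_bijective_of_isIntegral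
  let e : K ≃ₐ[K] (SC T h ⧸ P) := AlgEquiv.ofBijective (Algebra.ofId K _) hbij
  let φ : SC T h →ₐ[K] K := e.symm.toAlgHom.comp (Ideal.Quotient.mkₐ K P)
  have hφker : ∀ a, φ a = 0 ↔ a ∈ P := by
    intro a
    show e.symm (Ideal.Quotient.mk P a) = 0 ↔ _
    rw [map_eq_zero_iff e.symm e.symm.injective, Ideal.Quotient.eq_zero_iff_mem]
  set x₀ : K := φ (algebraMap K[X] (SC T h) X) with hx₀
  let ε : Fin m → K := fun i => φ (SC.mk h (sg i 1))
  have hφX : ∀ p : K[X], φ (algebraMap K[X] (SC T h) p) = p.eval x₀ := by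
    intro p
    have h1 : (φ.comp (IsScalarTower.toAlgHom K K[X] (SC T h))) = aeval x₀ := by
      apply algHom_ext
      rw [aeval_X]
      rfl
    have h2 := congrArg (fun f => f p) h1
    simpa [coe_aeval_eq_eval] using h2
  have hφs : ∀ (p : K[X]) (i : Fin m), φ (SC.mk h (p • sg i 1)) =
      p.eval x₀ * ε i := by
    intro p i
    rw [SC.mk_smul, map_mul, hφX]
  have hφev : ∀ a, φ (SC.mk h a) = ev x₀ ε a := by
    intro a
    induction a using vec_induction with
    | h0 => rw [ev_zero, SC.mk_zero, map_zero]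
    | hadd a b ha hb => rw [ev_add, ← ha, ← hb, SC.mk_add, map_add]
    | hs r i =>
      rw [hφs]
      have h1 : (r • (Pi.single i 1 : Fin m → K[X]) : Fin m → K[X]) = Pi.single i r := by
        rw [← Pi.single_smul, smul_eq_mul, mul_one]
      rw [h1, ev_single]
  have hpt : IsPoint T x₀ ε := by
    refine ⟨map_one φ, fun i j => ?_⟩
    show φ (SC.mk h _) * φ (SC.mk h _) = _
    rw [← map_mul, SC.mk_mul, single_tmul_single, hφev]
    simp [ev]
  obtain ⟨z, -, hz0, hz1, hzX, hze⟩ := hS x₀ ε hpt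
  set a : SC T h := SC.mk h (z (Sum.inl 0)) with ha
  set b : SC T h := SC.mk h (z (Sum.inl 1)) with hb
  have haP : a ∈ P := by rw [← hφker, hφev]; exact hz0
  have hbP : b ∉ P := by rw [← hφker, hφev]; exact hz1
  -- the ideal of elements `p` with `b p ∈ (a)`
  let I₀ : Ideal (SC T h) := Submodule.comap (LinearMap.mulLeft (SC T h) b) (Ideal.span {a})
  have hI₀ : ∀ p, p ∈ I₀ ↔ b * p ∈ Ideal.span {a} := fun p => Iff.rfl
  have hX : algebraMap K[X] (SC T h) (X - C x₀) ∈ I₀ := by
    rw [hI₀, Ideal.mem_span_singleton]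
    refine ⟨SC.mk h (z (Sum.inl 2)), ?_⟩
    rw [← SC.mk_single]
    exact hzX
  have he : ∀ i, SC.mk h (sg i 1) - algebraMap K (SC T h) (ε i) ∈ I₀ := by
    intro i
    rw [hI₀, Ideal.mem_span_singleton]
    refine ⟨SC.mk h (z (Sum.inr i)), ?_⟩
    rw [← SC.mk_single]
    exact hze i
  have hmem' : ∀ p, SC.mk h p - algebraMap K (SC T h) (φ (SC.mk h p)) ∈ I₀ := by
    intro p
    induction p using vec_induction with
    | h0 => rw [SC.mk_zero, map_zero, map_zero, sub_zero]; exact zero_mem _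
    | hadd p p' hp hp' =>
      have : SC.mk h (p + p') - algebraMap K (SC T h) (φ (SC.mk h (p + p'))) =
        (SC.mk h p - algebraMap K (SC T h) (φ (SC.mk h p))) +
          (SC.mk h p' - algebraMap K (SC T h) (φ (SC.mk h p'))) := by
        rw [SC.mk_add, map_add, map_add]; ring
      rw [this]
      exact add_mem hp hp'
    | hs r i =>
      obtain ⟨s, hs⟩ : X - C x₀ ∣ r - C (r.eval x₀) := by
        rw [dvd_iff_isRoot]
        simp
      have h1 : SC.mk h (r • sg i 1) - algebraMap K (SC T h) (φ (SC.mk h (r • sg i 1))) =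
          algebraMap K[X] (SC T h) r * (SC.mk h (sg i 1) - algebraMap K (SC T h) (ε i)) +
          algebraMap K (SC T h) (ε i) * algebraMap K[X] (SC T h) s *
            algebraMap K[X] (SC T h) (X - C x₀) := by
        have h2 : algebraMap K[X] (SC T h) s * algebraMap K[X] (SC T h) (X - C x₀) =
            algebraMap K[X] (SC T h) r - algebraMap K (SC T h) (r.eval x₀) := by
          rw [← map_mul, mul_comm, ← hs, map_sub]
          congr 1
          exact (IsScalarTower.algebraMap_apply K K[X] (SC T h) _).symm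
        rw [hφs, SC.mk_smul, mul_assoc, h2, map_mul]
        ring
      rw [h1]
      exact add_mem (I₀.mul_mem_left _ (he i)) (I₀.mul_mem_left _ hX)
  have hmem : ∀ p : SC T h, p - algebraMap K (SC T h) (φ p) ∈ I₀ := hmem'
  -- conclusion
  let Rp := Localization.AtPrime P
  have hnf : ¬ IsField Rp := by
    intro hf
    apply hP0
    rw [eq_bot_iff]
    intro p hp
    by_contra hp0
    have h1 : algebraMap (SC T h) Rp p ∈ IsLocalRing.maximalIdeal Rp := by
      rw [← Localization.AtPrime.map_eq_maximalIdeal]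
      exact Ideal.mem_map_of_mem _ hp
    rw [IsLocalRing.isField_iff_maximalIdeal_eq.mp hf, Ideal.mem_bot] at h1
    have h2 : Function.Injective (algebraMap (SC T h) Rp) :=
      IsLocalization.injective Rp P.primeCompl_le_nonZeroDivisors
    exact hp0 (h2 (h1.trans (map_zero _).symm))
  have hnoeth' : IsNoetherianRing Rp := IsLocalization.isNoetherianRing P.primeCompl Rp hnoeth
  have hprinc : (IsLocalRing.maximalIdeal Rp).IsPrincipal := by
    refine ⟨algebraMap (SC T h) Rp a, ?_⟩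
    rw [← Localization.AtPrime.map_eq_maximalIdeal]
    apply le_antisymm
    · rw [Ideal.map_le_iff_le_comap]
      intro p hp
      rw [Ideal.mem_comap]
      have h1 := hmem p
      rw [(hφker p).mpr hp, map_zero, sub_zero, hI₀, Ideal.mem_span_singleton] at h1
      obtain ⟨y, hy⟩ := h1
      have hbu : IsUnit (algebraMap (SC T h) Rp b) :=
        IsLocalization.map_units Rp (⟨b, hbP⟩ : P.primeCompl)
      rw [Submodule.mem_span_singleton]
      refine ⟨hbu.unit⁻¹ * algebraMap (SC T h) Rp y, ?_⟩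
      have h2 : algebraMap (SC T h) Rp b * algebraMap (SC T h) Rp p =
          algebraMap (SC T h) Rp a * algebraMap (SC T h) Rp y := by
        rw [← map_mul, hy, map_mul]
      have h3 : (↑hbu.unit⁻¹ : Rp) * algebraMap (SC T h) Rp b = 1 := hbu.val_inv_mul
      rw [smul_eq_mul]
      linear_combination (-(↑hbu.unit⁻¹ : Rp)) * h2 + (algebraMap (SC T h) Rp p) * h3
    · rw [Submodule.span_singleton_le_iff_mem]
      exact Ideal.mem_map_of_mem _ haP
  exact ((IsDiscreteValuationRing.TFAE Rp hnf).out 0 4).mpr hprinc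

end points

end Fermat.Agent.S27D
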