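import Mathlib
import Fermat.Agent.FO.Poly
import Fermat.Agent.S27D.Smooth

/-!
# First-order formulas for the algebras given by structure constants
-/

open Polynomial

namespace Fermat.Agent.S27D

open Fermat.Agent.FO

universe u

variable {α β : Type} {m : ℕ}

/-- Uniform families of vectors of polynomials. -/
def IsUVec (a : ∀ (K : Type u) [Field K], (α → K) → (Fin m → K[X])) : Prop :=
  ∀ i, IsUPoly (fun K _ v => a K v i)

/-- Uniform families of tables. -/
def IsUTab (T : ∀ (K : Type u) [Field K], (α → K) → (Fin m → Fin m → Fin m → K[X])) : Prop :=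
  ∀ i j k, IsUPoly (fun K _ v => T K v i j k)

variable {T : ∀ (K : Type u) [Field K], (α → K) → (Fin m → Fin m → Fin m → K[X])}
  {a b : ∀ (K : Type u) [Field K], (α → K) → (Fin m → K[X])}

lemma IsUTab.comp (hT : IsUTab T) (h : α → β) :
    IsUTab (fun K _ (v : β → K) => T K (fun a => v (h a))) := fun i j k => (hT i j k).comp h

namespace IsUVec

lemma comp (ha : IsUVec a) (h : α → β) :
    IsUVec (fun K _ (v : β → K) => a K (fun a => v (h a))) := fun i => (ha i).comp h

lemma tmul (hT : IsUTab T) (ha : IsUVec a) (hb : IsUVec b) :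
    IsUVec (fun K _ v => S27D.tmul (T K v) (a K v) (b K v)) := fun k =>
  IsUPoly.sum _ (f := fun i K _ v => ∑ j, a K v i * b K v j * T K v i j k) fun i _ =>
    IsUPoly.sum _ (f := fun j K _ v => a K v i * b K v j * T K v i j k) fun j _ =>
      ((ha i).mul (hb j)).mul (hT i j k)

lemma add (ha : IsUVec a) (hb : IsUVec b) : IsUVec (fun K _ v => a K v + b K v) :=
  fun i => (ha i).add (hb i)

lemma sub (ha : IsUVec a) (hb : IsUVec b) : IsUVec (fun K _ v => a K v - b K v) :=
  fun i => (ha i).sub (hb i)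

lemma zero : IsUVec.{u} (α := α) (m := m) (fun _ _ _ => 0) := fun _ => IsUPoly.zero

lemma sg (i : Fin m) {f : ∀ (K : Type u) [Field K], (α → K) → K[X]} (hf : IsUPoly f) :
    IsUVec (fun K _ v => S27D.sg i (f K v)) := by
  intro j
  by_cases hij : j = i
  · subst hij
    simpa using hf
  · simpa [hij] using IsUPoly.zero

lemma tone [NeZero m] : IsUVec.{u} (α := α) (fun K _ _ => S27D.tone m K[X]) :=
  sg 0 IsUPoly.one

lemma tpow [NeZero m] (hT : IsUTab T) (ha : IsUVec a) (n : ℕ) :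
    IsUVec (fun K _ v => S27D.tpow (T K v) (a K v) n) := by
  induction n with
  | zero => exact tone
  | succ n ih => exact tmul hT ih ha

lemma eq (ha : IsUVec a) (hb : IsUVec b) : IsFO (fun K _ v => a K v = b K v) :=
  (IsFO.forall_finite (P := fun i K _ v => a K v i = b K v i) fun i => (ha i).eq (hb i)).congr
    fun K _ v => funext_iff

lemma ne (ha : IsUVec a) (hb : IsUVec b) : IsFO (fun K _ v => a K v ≠ b K v) := (ha.eq hb).not

end IsUVec

lemma dg_le_iff {K : Type*} [Field K] {q : Fin m → ℕ} {a : Fin m → K[X]} {R : ℕ} :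
    dg q a ≤ R ↔ ∀ i r, R < pos q i r → (a i).coeff r = 0 := by
  constructor
  · intro h i r hr
    by_contra hcon
    have := pos_le_dg (q := q) hcon
    omega
  · intro h
    apply dg_le
    intro i r hr
    by_contra! hcon
    exact hr (h i r hcon)

lemma IsUVec.dg_le (ha : IsUVec a) (q : Fin m → ℕ) (R : ℕ) :
    IsFO (fun K _ v => dg q (a K v) ≤ R) :=
  (IsFO.forall_finite (P := fun i K _ v => ∀ r, R < pos q i r → (a K v i).coeff r = 0)
    fun i => (ha i).forall_coeff _).congr fun K _ v => dg_le_iff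

/-- Vectors with given coefficients. -/
noncomputable def elv {K : Type*} [Field K] {ρ : Type*} {R : ℕ} (w : ρ × Fin m × Fin R → K) :
    ρ → Fin m → K[X] :=
  fun s i => ∑ r : Fin R, C (w (s, i, r)) * X ^ (r : ℕ)

lemma IsUVec.elv {ρ : Type} {R : ℕ} {w : ∀ (K : Type u) [Field K], (α → K) → (ρ × Fin m × Fin R → K)}
    (hw : ∀ x, IsPolyFun (fun K _ v => w K v x)) (s : ρ) :
    IsUVec (fun K _ v => S27D.elv (w K v) s) := fun i =>
  IsUPoly.ofCoeffs R (w := fun r K _ v => w K v (s, i, r)) fun r => hw _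

lemma elv_coeff {K : Type*} [Field K] {ρ : Type*} {R : ℕ} (w : ρ × Fin m × Fin R → K) (s : ρ)
    (i : Fin m) (r : ℕ) : (elv w s i).coeff r = if h : r < R then w (s, i, ⟨r, h⟩) else 0 := by
  unfold elv
  rw [finsetSum_coeff]
  simp only [coeff_C_mul, coeff_X_pow, mul_ite, mul_one, mul_zero]
  split_ifs with h
  · rw [Finset.sum_eq_single ⟨r, h⟩]
    · simp
    · intro b _ hb
      rw [if_neg]
      intro h2
      exact hb (Fin.ext h2.symm)
    · simp
  · apply Finset.sum_eq_zero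
    intro x _
    rw [if_neg]
    have := x.2
    omega

lemma exists_elv [NeZero m] {K : Type*} [Field K] {ρ : Type*} {q : Fin m → ℕ} {R : ℕ}
    (z : ρ → Fin m → K[X]) (hz : ∀ s, dg q (z s) ≤ R) :
    ∃ w : ρ × Fin m × Fin (R + 1) → K, elv w = z := by
  refine ⟨fun x => (z x.1 x.2.1).coeff x.2.2, ?_⟩
  funext s i
  ext r
  rw [elv_coeff]
  split_ifs with h
  · rfl
  · by_contra hcon
    have h1 := pos_le_dg (q := q) (Ne.symm hcon)
    have h2 := hz s
    have h3 : r ≤ pos q i r := by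
      unfold pos
      have h4 : 1 * (r + q i) ≤ m * (r + q i) :=
        Nat.mul_le_mul_right _ (Nat.one_le_iff_ne_zero.mpr (NeZero.ne m))
      omega
    omega

/-- Existential quantification over vectors of bounded degree. -/
lemma IsFO.ex_vec [NeZero m] {ρ : Type} [Finite ρ] (q : Fin m → ℕ) (R : ℕ)
    {Q : ∀ (K : Type u) [Field K], (α → K) → (ρ → Fin m → K[X]) → Prop}
    (h : IsFO (fun K _ (w : α ⊕ (ρ × Fin m × Fin (R + 1)) → K) =>
      Q K (fun a => w (Sum.inl a)) (elv fun x => w (Sum.inr x)))) :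
    IsFO (fun K _ v => ∃ z : ρ → Fin m → K[X], (∀ s, dg q (z s) ≤ R) ∧ Q K v z) := by
  have h1 : IsFO (fun K _ v => ∃ w : ρ × Fin m × Fin (R + 1) → K,
      (∀ s, dg q (elv w s) ≤ R) ∧ Q K v (elv w)) := by
    apply IsFO.ex
    refine IsFO.and ?_ h
    refine IsFO.forall_finite (P := fun s K _ v => dg q (elv (fun x => v (Sum.inr x)) s) ≤ R)
      fun s => ?_
    exact IsUVec.dg_le (IsUVec.elv (w := fun K _ v x => v (Sum.inr x))
      (fun x => IsPolyFun.var _) s) q R
  refine h1.congr fun K _ v => ?_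
  constructor
  · rintro ⟨z, hz, hQ⟩
    obtain ⟨w, rfl⟩ := exists_elv z hz
    exact ⟨w, hz, hQ⟩
  · rintro ⟨w, hw, hQ⟩
    exact ⟨_, hw, hQ⟩

/-- Universal quantification over vectors of bounded degree. -/
lemma IsFO.all_vec [NeZero m] {ρ : Type} [Finite ρ] (q : Fin m → ℕ) (R : ℕ)
    {Q : ∀ (K : Type u) [Field K], (α → K) → (ρ → Fin m → K[X]) → Prop}
    (h : IsFO (fun K _ (w : α ⊕ (ρ × Fin m × Fin (R + 1)) → K) =>
      Q K (fun a => w (Sum.inl a)) (elv fun x => w (Sum.inr x)))) :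
    IsFO (fun K _ v => ∀ z : ρ → Fin m → K[X], (∀ s, dg q (z s) ≤ R) → Q K v z) := by
  have h1 := IsFO.ex_vec q R (Q := fun K _ v z => ¬ Q K v z) h.not
  refine h1.not.congr fun K _ v => ?_
  push Not
  rfl

/-! ### The conditions on the table -/

lemma IsFO.isTable [NeZero m] (hT : IsUTab T) : IsFO (fun K _ v => IsTable (T K v)) := by
  have h1 : IsFO (fun K _ v => ∀ i j k, T K v i j k = T K v j i k) :=
    IsFO.forall_finite (P := fun i K _ v => ∀ j k, T K v i j k = T K v j i k) fun i =>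
    IsFO.forall_finite (P := fun j K _ v => ∀ k, T K v i j k = T K v j i k) fun j =>
    IsFO.forall_finite (P := fun k K _ v => T K v i j k = T K v j i k) fun k =>
      (hT i j k).eq (hT j i k)
  have h2 : IsFO (fun K _ v => ∀ i j k r, ∑ l, T K v i j l * T K v l k r =
      ∑ l, T K v j k l * T K v i l r) :=
    IsFO.forall_finite (P := fun i K _ v => ∀ j k r, ∑ l, T K v i j l * T K v l k r =
      ∑ l, T K v j k l * T K v i l r) fun i =>
    IsFO.forall_finite (P := fun j K _ v => ∀ k r, ∑ l, T K v i j l * T K v l k r =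
      ∑ l, T K v j k l * T K v i l r) fun j =>
    IsFO.forall_finite (P := fun k K _ v => ∀ r, ∑ l, T K v i j l * T K v l k r =
      ∑ l, T K v j k l * T K v i l r) fun k =>
    IsFO.forall_finite (P := fun r K _ v => ∑ l, T K v i j l * T K v l k r =
      ∑ l, T K v j k l * T K v i l r) fun r =>
      (IsUPoly.sum _ (f := fun l K _ v => T K v i j l * T K v l k r)
        fun l _ => (hT i j l).mul (hT l k r)).eq
      (IsUPoly.sum _ (f := fun l K _ v => T K v j k l * T K v i l r)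
        fun l _ => (hT j k l).mul (hT i l r))
  have h3 : IsFO (fun K _ v => ∀ j k, T K v 0 j k = if j = k then 1 else 0) := by
    refine IsFO.forall_finite (P := fun j K _ v => ∀ k, T K v 0 j k = if j = k then 1 else 0)
      fun j => IsFO.forall_finite (P := fun k K _ v => T K v 0 j k = if j = k then 1 else 0)
      fun k => ?_
    by_cases hjk : j = k
    · simpa [hjk] using (hT 0 k k).eq IsUPoly.one
    · simpa [hjk] using (hT 0 j k).eq IsUPoly.zero
  exact (h1.and (h2.and h3)).congr fun K _ v =>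
    ⟨fun h => ⟨h.comm, h.assoc, h.one⟩, fun h => ⟨h.1, h.2.1, h.2.2⟩⟩

lemma IsFO.isDeg (hT : IsUTab T) (q : Fin m → ℕ) : IsFO (fun K _ v => IsDeg q (T K v)) := by
  have h1 : IsFO (fun K _ v => ∀ i j k r, ¬ pos q k r ≤ pos q i 0 + pos q j 0 →
      (T K v i j k).coeff r = 0) :=
    IsFO.forall_finite (P := fun i K _ v => ∀ j k r, ¬ pos q k r ≤ pos q i 0 + pos q j 0 →
      (T K v i j k).coeff r = 0) fun i =>
    IsFO.forall_finite (P := fun j K _ v => ∀ k r, ¬ pos q k r ≤ pos q i 0 + pos q j 0 →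
      (T K v i j k).coeff r = 0) fun j =>
    IsFO.forall_finite (P := fun k K _ v => ∀ r, ¬ pos q k r ≤ pos q i 0 + pos q j 0 →
      (T K v i j k).coeff r = 0) fun k => (hT i j k).forall_coeff _
  have h2 : IsFO (fun K _ v => ∀ i j, ∃ k, ∃ r, pos q k r = pos q i 0 + pos q j 0 ∧
      (T K v i j k).coeff r ≠ 0) :=
    IsFO.forall_finite (P := fun i K _ v => ∀ j, ∃ k, ∃ r, pos q k r = pos q i 0 + pos q j 0 ∧
      (T K v i j k).coeff r ≠ 0) fun i =>
    IsFO.forall_finite (P := fun j K _ v => ∃ k, ∃ r, pos q k r = pos q i 0 + pos q j 0 ∧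
      (T K v i j k).coeff r ≠ 0) fun j =>
    IsFO.exists_finite (P := fun k K _ v => ∃ r, pos q k r = pos q i 0 + pos q j 0 ∧
      (T K v i j k).coeff r ≠ 0) fun k => (hT i j k).exists_coeff _
  refine (h1.and h2).congr fun K _ v => ?_
  constructor
  · rintro ⟨h1, h2⟩
    refine ⟨fun i j k r h => ?_, fun i j => ?_⟩
    · by_contra hcon
      exact h (h1 i j k r hcon)
    · obtain ⟨k, r, h3, h4⟩ := h2 i j
      exact ⟨k, r, h4, h3⟩
  · rintro ⟨h1, h2⟩
    refine ⟨fun i j k r h => ?_, fun i j => ?_⟩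
    · by_contra hcon
      exact h (h1 i j k r hcon)
    · obtain ⟨k, r, h3, h4⟩ := h2 i j
      exact ⟨k, r, h4, h3⟩

lemma IsUVec.ev (ha : IsUVec a) {x : ∀ (K : Type u) [Field K], (α → K) → K}
    (hx : IsPolyFun x) {ε : Fin m → ∀ (K : Type u) [Field K], (α → K) → K}
    (hε : ∀ i, IsPolyFun (ε i)) :
    IsPolyFun (fun K _ v => S27D.ev (x K v) (fun i => ε i K v) (a K v)) :=
  IsPolyFun.sum _ (t := fun i K _ v => (a K v i).eval (x K v) * ε i K v) fun i _ =>
    ((ha i).eval hx).mul (hε i)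

lemma IsFO.isPoint [NeZero m] (hT : IsUTab T) {x : ∀ (K : Type u) [Field K], (α → K) → K}
    (hx : IsPolyFun x) {ε : Fin m → ∀ (K : Type u) [Field K], (α → K) → K}
    (hε : ∀ i, IsPolyFun (ε i)) :
    IsFO (fun K _ v => IsPoint (T K v) (x K v) (fun i => ε i K v)) := by
  refine (IsFO.eq (hε 0) IsPolyFun.one).and ?_
  refine IsFO.forall_finite (P := fun i K _ v => ∀ j, ε i K v * ε j K v =
    ∑ k, (T K v i j k).eval (x K v) * ε k K v) fun i =>
    IsFO.forall_finite (P := fun j K _ v => ε i K v * ε j K v =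
    ∑ k, (T K v i j k).eval (x K v) * ε k K v) fun j => ?_
  exact IsFO.eq ((hε i).mul (hε j))
    (IsPolyFun.sum _ (t := fun k K _ v => (T K v i j k).eval (x K v) * ε k K v)
      fun k _ => ((hT i j k).eval hx).mul (hε k))

lemma IsFO.smoothAt [NeZero m] (hT : IsUTab T) {x : ∀ (K : Type u) [Field K], (α → K) → K}
    (hx : IsPolyFun x) {ε : Fin m → ∀ (K : Type u) [Field K], (α → K) → K}
    (hε : ∀ i, IsPolyFun (ε i)) (q : Fin m → ℕ) (R : ℕ) :
    IsFO (fun K _ v => SmoothAt q (T K v) R (x K v) (fun i => ε i K v)) := by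
  refine IsFO.ex_vec (ρ := Fin 3 ⊕ Fin m) q R (Q := fun K _ v z =>
    S27D.ev (x K v) (fun i => ε i K v) (z (Sum.inl 0)) = 0 ∧
    S27D.ev (x K v) (fun i => ε i K v) (z (Sum.inl 1)) ≠ 0 ∧
    tmul (T K v) (z (Sum.inl 1)) (sg 0 (X - C (x K v))) =
      tmul (T K v) (z (Sum.inl 0)) (z (Sum.inl 2)) ∧
    ∀ i, tmul (T K v) (z (Sum.inl 1)) (sg i 1 - sg 0 (C (ε i K v))) =
      tmul (T K v) (z (Sum.inl 0)) (z (Sum.inr i))) ?_
  have hz := IsUVec.elv (α := α ⊕ ((Fin 3 ⊕ Fin m) × Fin m × Fin (R + 1)))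
    (w := fun K _ v x => v (Sum.inr x)) (fun x => IsPolyFun.var _)
  have hT' := hT.comp (Sum.inl (β := ((Fin 3 ⊕ Fin m) × Fin m × Fin (R + 1))))
  have hx' := hx.comp' (Sum.inl (β := ((Fin 3 ⊕ Fin m) × Fin m × Fin (R + 1))))
  have hε' := fun i => (hε i).comp' (Sum.inl (β := ((Fin 3 ⊕ Fin m) × Fin m × Fin (R + 1))))
  refine (IsFO.eq ((hz _).ev hx' hε') IsPolyFun.zero).and
    ((IsFO.ne ((hz _).ev hx' hε') IsPolyFun.zero).and ((IsUVec.eq ?_ ?_).and ?_))
  · exact IsUVec.tmul hT' (hz _) (IsUVec.sg 0 (IsUPoly.x.sub (IsUPoly.c hx')))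
  · exact IsUVec.tmul hT' (hz _) (hz _)
  · refine IsFO.forall_finite (P := fun i K _ (w : α ⊕ ((Fin 3 ⊕ Fin m) × Fin m × Fin (R + 1)) → K) =>
      tmul (T K fun a => w (Sum.inl a)) (S27D.elv (fun x => w (Sum.inr x)) (Sum.inl 1))
        (sg i 1 - sg 0 (C (ε i K fun a => w (Sum.inl a)))) =
      tmul (T K fun a => w (Sum.inl a)) (S27D.elv (fun x => w (Sum.inr x)) (Sum.inl 0))
        (S27D.elv (fun x => w (Sum.inr x)) (Sum.inr i))) fun i => IsUVec.eq ?_ ?_
    · exact IsUVec.tmul hT' (hz _)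
        ((IsUVec.sg i IsUPoly.one).sub (IsUVec.sg 0 (IsUPoly.c (hε' i))))
    · exact IsUVec.tmul hT' (hz _) (hz _)

lemma IsFO.smooth [NeZero m] (hT : IsUTab T) (q : Fin m → ℕ) (R : ℕ) :
    IsFO (fun K _ v => ∀ x₀ ε, IsPoint (T K v) x₀ ε → SmoothAt q (T K v) R x₀ ε) := by
  have h1 : IsFO (fun K _ v => ∀ w : Option (Fin m) → K,
      IsPoint (T K v) (w none) (fun i => w (some i)) →
        SmoothAt q (T K v) R (w none) (fun i => w (some i))) := by
    apply IsFO.all
    have hT' := hT.comp (Sum.inl (β := Option (Fin m)))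
    exact (IsFO.isPoint hT' (IsPolyFun.var (Sum.inr none))
      (ε := fun i K _ v => v (Sum.inr (some i))) fun i => IsPolyFun.var (Sum.inr (some i))).imp
      (IsFO.smoothAt hT' (IsPolyFun.var (Sum.inr none))
      (ε := fun i K _ v => v (Sum.inr (some i))) (fun i => IsPolyFun.var (Sum.inr (some i))) q R)
  refine h1.congr fun K _ v => ?_
  constructor
  · intro h w hw
    exact h _ _ hw
  · intro h x₀ ε hp
    exact h (fun o => o.elim x₀ ε) hp

end Fermat.Agent.S27D
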