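import Mathlib
import Fermat.Agent.S27D.Ideals
import Fermat.Agent.FF.Basic

/-!
# The place at infinity attached to a degree function
-/

open Module AlgebraicCurve WithZero

namespace Fermat.Agent.S27D

namespace DegreeFn

section valuation

variable {K F A : Type*} [Field K] [Field F] [Algebra K F] [CommRing A] [IsDomain A] [Algebra K A]
  [Algebra A F] [IsFractionRing A F] [IsScalarTower K A F] (D : DegreeFn K A) {κ : ℕ}

/-- The degree valuation on `A`. -/
noncomputable def valA : Valuation A ℤᵐ⁰ := by
  classical
  exact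
  { toFun := fun a => if a = 0 then 0 else exp (D.d a : ℤ)
    map_zero' := by simp
    map_one' := by simp [D.d_one]
    map_mul' := by
      intro a b
      by_cases ha : a = 0
      · simp [ha]
      by_cases hb : b = 0
      · simp [hb]
      simp only [mul_eq_zero, ha, hb, or_self, if_false]
      rw [D.d_mul a b ha hb, ← exp_add]
      push_cast
      rfl
    map_add_le_max' := by
      intro a b
      by_cases ha : a = 0
      · simp [ha]
      by_cases hb : b = 0
      · simp [hb]
      by_cases hab : a + b = 0
      · simp [hab]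
      simp only [ha, hb, hab, if_false]
      rcases le_max_iff.mp (D.d_add a b) with h | h
      · exact le_max_of_le_left (exp_le_exp.mpr (by exact_mod_cast h))
      · exact le_max_of_le_right (exp_le_exp.mpr (by exact_mod_cast h)) }

lemma valA_apply {a : A} (ha : a ≠ 0) : D.valA a = exp (D.d a : ℤ) := by
  classical
  show (if a = 0 then 0 else exp (D.d a : ℤ)) = _
  rw [if_neg ha]

lemma valA_zero : D.valA 0 = 0 := map_zero _

lemma valA_ne_zero {a : A} (ha : a ≠ 0) : D.valA a ≠ 0 := by
  rw [D.valA_apply ha]; exact exp_ne_zero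

variable (F) in
/-- The degree valuation on the fraction field. -/
noncomputable def valF : Valuation F ℤᵐ⁰ :=
  D.valA.extendToLocalization (S := nonZeroDivisors A)
    (by
      intro a ha
      show a ∉ D.valA.supp
      rw [Valuation.mem_supp_iff]
      exact D.valA_ne_zero (nonZeroDivisors.ne_zero ha)) F

lemma valF_algebraMap (a : A) : D.valF F (algebraMap A F a) = D.valA a :=
  Valuation.extendToLocalization_apply_map_apply _ _ _ _

lemma valF_surj (hκ : D.IsConductor κ) : ∃ t : F, t ≠ 0 ∧ D.valF F t = exp (-1) := by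
  obtain ⟨a, -, ha, had⟩ := hκ κ le_rfl
  obtain ⟨b, -, hb, hbd⟩ := hκ (κ + 1) (by omega)
  have ha' : algebraMap A F a ≠ 0 := by
    rwa [Ne, FaithfulSMul.algebraMap_eq_zero_iff]
  have hb' : algebraMap A F b ≠ 0 := by
    rwa [Ne, FaithfulSMul.algebraMap_eq_zero_iff]
  refine ⟨algebraMap A F a / algebraMap A F b, div_ne_zero ha' hb', ?_⟩
  rw [map_div₀, D.valF_algebraMap, D.valF_algebraMap, D.valA_apply ha, D.valA_apply hb, had, hbd,
    ← exp_sub]
  congr 1
  push_cast
  ring

/-- The place at infinity. -/
noncomputable def infPlace (hκ : D.IsConductor κ) : Place K F where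
  toValuationSubring := (D.valF F).valuationSubring
  algebraMap_mem' c := by
    rw [Valuation.mem_valuationSubring_iff, IsScalarTower.algebraMap_apply K A F,
      D.valF_algebraMap]
    by_cases hc : algebraMap K A c = 0
    · rw [hc, D.valA_zero]; exact zero_le_one
    · rw [D.valA_apply hc, D.d_algebraMap]; simp
  ne_top' := by
    obtain ⟨t, ht0, ht⟩ := D.valF_surj (F := F) hκ
    intro h
    have h1 : t⁻¹ ∈ (D.valF F).valuationSubring := by rw [h]; trivial
    rw [Valuation.mem_valuationSubring_iff, map_inv₀, ht, ← exp_neg, ← exp_zero, exp_le_exp] at h1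
    norm_num at h1
  isPrincipalIdealRing' := by
    classical
    refine ⟨fun I => ?_⟩
    by_cases hI : I = ⊥
    · rw [hI]; exact bot_isPrincipal
    -- the order function
    let o : F → ℤ := fun f => -(log (D.valF F f))
    have hval : ∀ f : F, f ≠ 0 → D.valF F f = exp (-(o f)) := by
      intro f hf
      have : D.valF F f ≠ 0 := (Valuation.ne_zero_iff _).mpr hf
      simp only [o, neg_neg]
      exact (exp_log this).symm
    obtain ⟨z, hzI, hz0⟩ := Submodule.exists_mem_ne_zero_of_ne_bot hI
    have hex : ∃ n : ℕ, ∃ z ∈ I, z ≠ 0 ∧ o z = n := by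
      refine ⟨(o z).toNat, z, hzI, hz0, ?_⟩
      have h1 := (Valuation.mem_valuationSubring_iff _ _).mp z.2
      rw [hval _ (by simpa using hz0), ← exp_zero, exp_le_exp] at h1
      omega
    obtain ⟨z, hzI, hz0, hz⟩ := Nat.find_spec hex
    have hmin : ∀ y ∈ I, y ≠ 0 → o z ≤ o y := by
      intro y hy hy0
      have h1 := (Valuation.mem_valuationSubring_iff _ _).mp y.2
      rw [hval _ (by simpa using hy0), ← exp_zero, exp_le_exp] at h1
      have h2 := Nat.find_min' hex ⟨y, hy, hy0, (Int.toNat_of_nonneg (by omega)).symm⟩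
      rw [hz]
      omega
    have hzF : (z : F) ≠ 0 := by simpa using hz0
    refine ⟨⟨z, le_antisymm ?_ ?_⟩⟩
    · intro y hy
      by_cases hy0 : y = 0
      · rw [hy0]; exact zero_mem _
      have hyF : (y : F) ≠ 0 := by simpa using hy0
      have hq : (y : F) / z ∈ (D.valF F).valuationSubring := by
        rw [Valuation.mem_valuationSubring_iff, map_div₀, hval _ hyF, hval _ hzF, ← exp_sub,
          ← exp_zero, exp_le_exp]
        have := hmin y hy hy0
        omega
      rw [Submodule.mem_span_singleton]
      refine ⟨⟨_, hq⟩, Subtype.ext ?_⟩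
      show (y : F) / z * z = y
      exact div_mul_cancel₀ _ hzF
    · rw [Submodule.span_singleton_le_iff_mem]
      exact hzI

lemma ord_infPlace (hκ : D.IsConductor κ) {a : A} (ha : a ≠ 0) :
    (D.infPlace (F := F) hκ).ord (algebraMap A F a) = -(D.d a : ℤ) := by
  have hne : ∀ g : F, g ≠ 0 → D.valF F g ≠ 0 := fun g hg => (Valuation.ne_zero_iff _).mpr hg
  obtain ⟨t, ht⟩ := FF.exists_ord_eq_one (D.infPlace (F := F) hκ)
  obtain ⟨s, hs0, hs⟩ := D.valF_surj (F := F) hκ
  have haF : algebraMap A F a ≠ 0 := by
    rwa [Ne, FaithfulSMul.algebraMap_eq_zero_iff]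
  have h1 := FF.ord_unique (o₁ := (D.infPlace (F := F) hκ).ord)
    (o₂ := fun f => -(log (D.valF F f)))
    (fun f g hf hg => Place.ord_mul _ hf hg)
    (fun f g hf hg => ?_) (fun f hf => ?_)
    (FF.ne_zero_of_ord_ne_zero _ (by rw [ht]; exact one_ne_zero)) hs0 ht ?_ haF
  · rw [h1, D.valF_algebraMap, D.valA_apply ha, log_exp]
  · simp only [map_mul]
    rw [log_mul (hne f hf) (hne g hg)]
    ring
  · rw [← FF.mem_iff_ord _ hf]
    show f ∈ (D.valF F).valuationSubring ↔ _
    rw [Valuation.mem_valuationSubring_iff, Left.nonneg_neg_iff, ← log_one (M := ℤ),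
      log_le_log (hne f hf) one_ne_zero]
  · rw [hs, log_exp, neg_neg]

end valuation

section spanning

variable {K A : Type*} [Field K] [CommRing A] [IsDomain A] [Algebra K A] (D : DegreeFn K A) {κ : ℕ}

/-- `A` is a finite module over `K[x]` for every `x` of positive degree. -/
lemma finite_adjoin (hκ : D.IsConductor κ) {x : A} (hx : 0 < D.d x) :
    Module.Finite (Algebra.adjoin K {x}) A := by
  have hx0 : x ≠ 0 := by
    rintro rfl
    rw [D.d_zero] at hx
    exact lt_irrefl _ hx
  let N := κ + D.d x
  obtain ⟨s, hs⟩ := (Module.finite_def.mp (D.finite_L N) : (⊤ : Submodule K ↥(D.L N)).FG)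
  let s' : Finset A := (s.finite_toSet.image (Subtype.val)).toFinset
  have hs' : D.L N = Submodule.span K (s' : Set A) := by
    have := congrArg (Submodule.map (D.L N).subtype) hs
    rw [Submodule.map_span, Submodule.map_top, Submodule.range_subtype] at this
    rw [← this]
    congr 1
    ext a
    simp [s']
  refine ⟨⟨s', ?_⟩⟩
  rw [eq_top_iff]
  rintro a -
  induction hn : D.d a using Nat.strong_induction_on generalizing a with
  | _ n ih =>
    by_cases ha0 : a = 0
    · rw [ha0]; exact zero_mem _
    by_cases hN : n < N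
    · have h1 : a ∈ Submodule.span K (s' : Set A) := by
        rw [← hs']; exact Or.inr (hn ▸ hN)
      exact Submodule.span_subset_span K (Algebra.adjoin K {x}) _ h1
    · obtain ⟨b, -, hb0, hb⟩ := hκ (n - D.d x) (by omega)
      have hxb : D.d (x * b) = D.d a := by
        rw [D.d_mul x b hx0 hb0, hb, hn]; omega
      obtain ⟨c, hc⟩ := D.lead a (x * b) ha0 (mul_ne_zero hx0 hb0) hxb.symm
      have hbmem := ih (n - D.d x) (by omega) hb
      have hxbmem : c • (x * b) ∈ Submodule.span (Algebra.adjoin K {x}) (s' : Set A) := by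
        have h2 : c • (x * b) =
            (c • (⟨x, Algebra.subset_adjoin (Set.mem_singleton x)⟩ :
              Algebra.adjoin K {x})) • b := by
          show c • (x * b) = (c • x) * b
          rw [smul_mul_assoc]
        rw [h2]
        exact Submodule.smul_mem _ _ hbmem
      rcases hc with hc | hc
      · rw [hc]; exact hxbmem
      · have h3 := ih _ (hn ▸ hc) rfl
        have h4 : a = (a - c • (x * b)) + c • (x * b) := by simp
        rw [h4]
        exact Submodule.add_mem _ h3 hxbmem

/-- Every element of `A` is integral over `K[x]`, for `x` of positive degree. -/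
lemma isIntegral_adjoin (hκ : D.IsConductor κ) {x : A} (hx : 0 < D.d x) (a : A) :
    IsIntegral (Algebra.adjoin K {x}) a := by
  have := D.finite_adjoin hκ hx
  exact Algebra.IsIntegral.isIntegral a

end spanning

section places

variable {K F A : Type*} [Field K] [IsAlgClosed K] [Field F] [Algebra K F] [CommRing A]
  [IsDedekindDomain A] [Algebra K A] [Algebra A F] [IsFractionRing A F] [IsScalarTower K A F]
  (D : DegreeFn K A) {κ : ℕ}

/-- `A` is contained in the valuation ring of `v`. -/
def Good (A : Type*) [CommRing A] [Algebra A F] (v : Place K F) : Prop :=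
  ∀ a : A, algebraMap A F a ∈ v.toValuationSubring

omit [IsAlgClosed K] [IsFractionRing A F] [IsDedekindDomain A] in
lemma good_of_mem [IsDomain A] (hκ : D.IsConductor κ) {x : A} (hx : 0 < D.d x) (v : Place K F)
    (h : algebraMap A F x ∈ v.toValuationSubring) : Good A v := by
  intro a
  have h1 := D.isIntegral_adjoin hκ hx a
  -- the map from `K[x]` to the valuation ring
  have hle : ∀ r ∈ Algebra.adjoin K {x}, algebraMap A F r ∈ v.toValuationSubring := by
    intro r hr
    induction hr using Algebra.adjoin_induction with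
    | mem y hy => rw [Set.mem_singleton_iff.mp hy]; exact h
    | algebraMap c =>
      rw [← IsScalarTower.algebraMap_apply]
      exact v.algebraMap_mem' c
    | add y z _ _ hy hz => rw [map_add]; exact add_mem hy hz
    | mul y z _ _ hy hz => rw [map_mul]; exact mul_mem hy hz
  let φ : Algebra.adjoin K {x} →+* v.toValuationSubring :=
    ((algebraMap A F).comp (Algebra.adjoin K {x}).val.toRingHom).codRestrict
      v.toValuationSubring.toSubring (fun r => hle r r.2)
  obtain ⟨p, hp, hpa⟩ := h1
  have h2 : IsIntegral v.toValuationSubring (algebraMap A F a) := by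
    refine ⟨p.map φ, hp.map φ, ?_⟩
    rw [Polynomial.eval₂_map]
    have h3 : (algebraMap v.toValuationSubring F).comp φ =
        (algebraMap A F).comp (algebraMap (Algebra.adjoin K {x}) A) := RingHom.ext fun r => rfl
    rw [h3, ← Polynomial.hom_eval₂, hpa, map_zero]
  obtain ⟨y, hy⟩ := IsIntegrallyClosed.isIntegral_iff.mp h2
  rw [← hy]
  exact y.2

lemma codim_eq_card (hκ : D.IsConductor κ) {I : Ideal A} (hI : I ≠ ⊥) :
    D.codim I = (UniqueFactorizationMonoid.normalizedFactors I).card := by
  induction I using UniqueFactorizationMonoid.induction_on_prime with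
  | h₁ => exact absurd rfl hI
  | h₂ x hx =>
    rw [Ideal.isUnit_iff.mp hx, ← Ideal.one_eq_top, D.codim_one,
      UniqueFactorizationMonoid.normalizedFactors_one]
    rfl
  | h₃ I P hI0 hP ih =>
    have hPprime : P.IsPrime := Ideal.isPrime_of_prime hP
    have hPmax : P.IsMaximal := hPprime.isMaximal hP.ne_zero
    rw [D.codim_prime_mul hκ hP.ne_zero hI0, ih hI0, D.codim_maximal hκ hP.ne_zero,
      UniqueFactorizationMonoid.normalizedFactors_mul hP.ne_zero hI0,
      UniqueFactorizationMonoid.normalizedFactors_irreducible hP.irreducible, Multiset.card_add]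
    simp

/-- The only place which does not contain `A` is the place at infinity. -/
lemma eq_infPlace (hκ : D.IsConductor κ) [hpd : HasPrincipalDivisors K F]
    (hdeg : ∀ v : Place K F, v.deg = 1) (v : Place K F) (hv : ¬ Good A v) :
    v = D.infPlace hκ := by
  classical
  by_contra hne
  obtain ⟨x, -, hx0, hxd⟩ := hκ (κ + 1) (by omega)
  have hxF : algebraMap A F x ≠ 0 := by
    rwa [Ne, FaithfulSMul.algebraMap_eq_zero_iff]
  have hbad : ∀ w : Place K F, ¬ Good A w → w.ord (algebraMap A F x) < 0 := by
    intro w hw
    rw [← FF.not_mem_iff_ord]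
    intro h
    exact hw (D.good_of_mem hκ (by omega) w h)
  obtain ⟨E, hE, hE0⟩ := hpd.exists_divisor _ hxF
  have hsum : ∑ w ∈ E.support, w.ord (algebraMap A F x) = 0 := by
    rw [← hE0, Divisor.degree]
    rw [Finsupp.liftAddHom_apply, Finsupp.sum]
    refine Finset.sum_congr rfl fun w _ => ?_
    rw [AddMonoidHom.coe_mulRight, hdeg w, hE w]
    simp
  set P₀ := D.infPlace (F := F) hκ with hP₀
  have hordP₀ := D.ord_infPlace (F := F) hκ hx0
  -- the good part
  let G := E.support.filter (fun w => Good A w)
  have hgood : ∑ w ∈ G, w.ord (algebraMap A F x) ≤ (D.d x : ℤ) := by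
    rw [← D.codim_span_singleton hκ hx0, D.codim_eq_card hκ (by
      rwa [Ne, Ideal.span_singleton_eq_bot]), ← Multiset.toFinset_sum_count_eq]
    push_cast
    let c : Place K F → Ideal A := fun w =>
      if h : Good A w then FF.centre w h else ⊥
    have hc : ∀ w ∈ G, w.ord (algebraMap A F x) =
        ((UniqueFactorizationMonoid.normalizedFactors (Ideal.span {x})).count (c w) : ℤ) := by
      intro w hw
      have hwg : Good A w := (Finset.mem_filter.mp hw).2
      have h1 := FF.eq_ofHeightOneSpectrum (R := A) w hwg
      simp only [c, dif_pos hwg]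
      conv_lhs => rw [h1]
      rw [FF.ord_ofHeightOneSpectrum_algebraMap _ hx0]
      congr 1
      have hprime : Prime (FF.centre w hwg) := Ideal.prime_of_isPrime
        (FF.centre_ne_bot w hwg) (FF.centre_isPrime w hwg)
      have h2 := UniqueFactorizationMonoid.emultiplicity_eq_count_normalizedFactors
        hprime.irreducible (b := Ideal.span {x}) (by rwa [Ne, Ideal.zero_eq_bot,
          Ideal.span_singleton_eq_bot])
      rw [normalize_eq] at h2
      rw [multiplicity, h2]
      rfl
    rw [Finset.sum_congr rfl hc, ← Finset.sum_image (g := c)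
      (f := fun P => ((UniqueFactorizationMonoid.normalizedFactors (Ideal.span {x})).count P : ℤ))]
    · have h5 : ∑ P ∈ G.image c,
          (UniqueFactorizationMonoid.normalizedFactors (Ideal.span {x})).count P ≤
          ∑ P ∈ (UniqueFactorizationMonoid.normalizedFactors (Ideal.span {x})).toFinset,
          (UniqueFactorizationMonoid.normalizedFactors (Ideal.span {x})).count P := by
        refine Finset.sum_le_sum_of_ne_zero ?_
        intro P _ hP
        rw [Multiset.mem_toFinset, ← Multiset.count_ne_zero]
        exact hP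
      exact_mod_cast h5
    · intro w hw w' hw' hww'
      have hwg : Good A w := (Finset.mem_filter.mp hw).2
      have hwg' : Good A w' := (Finset.mem_filter.mp hw').2
      simp only [c, dif_pos hwg, dif_pos hwg'] at hww'
      rw [FF.eq_ofHeightOneSpectrum (R := A) w hwg, FF.eq_ofHeightOneSpectrum (R := A) w' hwg']
      congr 1
      exact IsDedekindDomain.HeightOneSpectrum.ext hww'
  -- the bad part
  let B := E.support.filter (fun w => ¬ Good A w)
  have hsplit : ∑ w ∈ G, w.ord (algebraMap A F x) + ∑ w ∈ B, w.ord (algebraMap A F x) = 0 := by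
    rw [← hsum]
    exact Finset.sum_filter_add_sum_filter_not _ _ _
  have hmem : ∀ w : Place K F, ¬ Good A w → w ∈ B := by
    intro w hw
    refine Finset.mem_filter.mpr ⟨?_, hw⟩
    rw [Finsupp.mem_support_iff, hE w]
    exact (hbad w hw).ne
  have hP₀bad : ¬ Good A P₀ := by
    intro h
    have h1 := (FF.mem_iff_ord P₀ hxF).mp (h x)
    rw [hordP₀] at h1
    omega
  have h1 : ∑ w ∈ B, w.ord (algebraMap A F x) ≤ ∑ w ∈ ({P₀, v} : Finset (Place K F)),
      w.ord (algebraMap A F x) := by
    rw [← neg_le_neg_iff, ← Finset.sum_neg_distrib, ← Finset.sum_neg_distrib]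
    apply Finset.sum_le_sum_of_subset_of_nonneg
    · intro w hw
      rw [Finset.mem_insert, Finset.mem_singleton] at hw
      rcases hw with rfl | rfl
      · exact hmem _ hP₀bad
      · exact hmem _ hv
    · intro w hw _
      exact neg_nonneg.mpr (hbad w (Finset.mem_filter.mp hw).2).le
  rw [Finset.sum_pair (Ne.symm hne), hordP₀] at h1
  have h2 := hbad v hv
  omega

end places

end DegreeFn

end Fermat.Agent.S27D
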