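import Mathlib
import Fermat.Agent.S27D.Inf
import Fermat.Agent.FF.Principal
import Fermat.Agent.RR.Divisors

/-!
# The function field of an affine curve with one place at infinity

Let `A` be a Dedekind `K`-algebra with a degree function with finitely many gaps. Then the fraction
field of `A` is a function field over `K`, and its genus is the number of gaps.
-/

open Module AlgebraicCurve WithZero UniqueFactorizationMonoid IntermediateField

namespace Fermat.Agent.S27D

namespace DegreeFn

section bad

variable {K F A : Type*} [Field K] [Field F] [Algebra K F] [CommRing A] [IsDomain A] [Algebra K A]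
  [Algebra A F] [IsFractionRing A F] [IsScalarTower K A F] (D : DegreeFn K A) {κ : ℕ}

include D in
lemma bad_bounded (v : Place K F) (N : ℕ) : ∃ C : ℤ, 0 ≤ C ∧ ∀ a : A, a ∈ D.L N → a ≠ 0 →
    -C ≤ v.ord (algebraMap A F a) := by
  classical
  obtain ⟨s, hs⟩ := (Module.finite_def.mp (D.finite_L N) : (⊤ : Submodule K ↥(D.L N)).FG)
  have hs' : D.L N = Submodule.span K ((s.image (Subtype.val) : Finset A) : Set A) := by
    have := congrArg (Submodule.map (D.L N).subtype) hs
    rw [Submodule.map_span, Submodule.map_top, Submodule.range_subtype] at this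
    rw [Finset.coe_image]
    exact this.symm
  set s' : Finset A := s.image Subtype.val
  refine ⟨∑ b ∈ s', |v.ord (algebraMap A F b)|, Finset.sum_nonneg fun _ _ => abs_nonneg _, ?_⟩
  intro a ha ha0
  have haF : algebraMap A F a ≠ 0 := by
    rwa [Ne, FaithfulSMul.algebraMap_eq_zero_iff]
  rw [FF.le_ord_iff v haF, neg_neg]
  rw [hs'] at ha
  clear ha0 haF
  induction ha using Submodule.span_induction with
  | mem b hb =>
    by_cases hb0 : algebraMap A F b = 0
    · rw [hb0, map_zero]; exact zero_le
    rw [v.adicValuation_eq_exp_neg_ord hb0, exp_le_exp]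
    have h1 : |v.ord (algebraMap A F b)| ≤ ∑ b ∈ s', |v.ord (algebraMap A F b)| :=
      Finset.single_le_sum (f := fun b => |v.ord (algebraMap A F b)|)
        (fun _ _ => abs_nonneg _) hb
    exact (neg_le_abs _).trans h1
  | zero => rw [map_zero, map_zero]; exact zero_le
  | add x y _ _ hx hy =>
    rw [map_add]
    exact (Valuation.map_add _ _ _).trans (max_le hx hy)
  | smul c x _ hx =>
    rw [Algebra.smul_def, map_mul, map_mul, ← IsScalarTower.algebraMap_apply]
    exact (mul_le_of_le_one_left' (v.adicValuation_algebraMap_le_one c)).trans hx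

include D in
/-- Comparison of pole orders at an arbitrary place with the degree. -/
lemma bad_le (hκ : D.IsConductor κ) {x : A} (hx : 0 < D.d x) (v : Place K F)
    (hxv : v.ord (algebraMap A F x) ≤ 0) : ∃ C : ℤ, ∀ a : A, a ≠ 0 →
      (D.d a : ℤ) * v.ord (algebraMap A F x) - D.d x * C ≤
        D.d x * v.ord (algebraMap A F a) := by
  have hx0 : x ≠ 0 := by
    rintro rfl
    rw [D.d_zero] at hx
    exact lt_irrefl _ hx
  have hinj : ∀ z : A, z ≠ 0 → algebraMap A F z ≠ 0 := fun z hz => by
    rwa [Ne, FaithfulSMul.algebraMap_eq_zero_iff]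
  obtain ⟨C, hC0, hC⟩ := D.bad_bounded v (κ + D.d x)
  refine ⟨C, fun a => ?_⟩
  induction hn : D.d a using Nat.strong_induction_on generalizing a with
  | _ n ih =>
    intro ha0
    by_cases hN : n < κ + D.d x
    · have h1 := hC a (Or.inr (hn ▸ hN)) ha0
      have h2 : (D.d x : ℤ) * (-C) ≤ D.d x * v.ord (algebraMap A F a) :=
        mul_le_mul_of_nonneg_left h1 (by positivity)
      have h3 : (n : ℤ) * v.ord (algebraMap A F x) ≤ 0 :=
        mul_nonpos_of_nonneg_of_nonpos (by positivity) hxv
      linarith
    · obtain ⟨b, -, hb0, hb⟩ := hκ (n - D.d x) (by omega)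
      have hxb : D.d (x * b) = D.d a := by
        rw [D.d_mul x b hx0 hb0, hb, hn]; omega
      obtain ⟨c, hc⟩ := D.lead a (x * b) ha0 (mul_ne_zero hx0 hb0) hxb.symm
      have h1 := ih (n - D.d x) (by omega) b hb hb0
      have hnat : ((n - D.d x : ℕ) : ℤ) = (n : ℤ) - D.d x := by
        rw [Nat.cast_sub (by omega)]
      rw [hnat] at h1
      -- the order of `c x b`
      have h2 : c ≠ 0 → (n : ℤ) * v.ord (algebraMap A F x) - D.d x * C ≤
          D.d x * v.ord (algebraMap A F (c • (x * b))) := by
        intro hc0
        rw [Algebra.smul_def, map_mul, ← IsScalarTower.algebraMap_apply,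
          v.ord_mul ((map_ne_zero _).mpr hc0) (hinj _ (mul_ne_zero hx0 hb0)), FF.ord_algebraMap,
          zero_add, map_mul, v.ord_mul (hinj _ hx0) (hinj _ hb0)]
        linear_combination h1
      rcases hc with hc | hc
      · have hc0 : c ≠ 0 := by rintro rfl; exact ha0 (by rw [hc, zero_smul])
        rw [hc]
        exact h2 hc0
      · by_cases hr0 : a - c • (x * b) = 0
        · have hc0 : c ≠ 0 := by
            rintro rfl
            exact ha0 (by rwa [zero_smul, sub_zero] at hr0)
          rw [sub_eq_zero.mp hr0]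
          exact h2 hc0
        have h3 := ih _ (hn ▸ hc) (a - c • (x * b)) rfl hr0
        have h3' : (n : ℤ) * v.ord (algebraMap A F x) - D.d x * C ≤
            D.d x * v.ord (algebraMap A F (a - c • (x * b))) := by
          refine le_trans ?_ h3
          have h4 : (n : ℤ) * v.ord (algebraMap A F x) ≤
              (D.d (a - c • (x * b)) : ℤ) * v.ord (algebraMap A F x) := by
            apply mul_le_mul_of_nonpos_right _ hxv
            rw [hn] at hc
            exact_mod_cast hc.le
          linarith
        by_cases hc0 : c = 0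
        · rw [hc0, zero_smul, sub_zero] at h3'
          exact h3'
        have h2' := h2 hc0
        have h5 : algebraMap A F a = algebraMap A F (a - c • (x * b)) +
            algebraMap A F (c • (x * b)) := by rw [← map_add]; simp
        have hne : algebraMap A F (a - c • (x * b)) + algebraMap A F (c • (x * b)) ≠ 0 := by
          rw [← h5]; exact hinj a ha0
        rcases le_total (v.ord (algebraMap A F (a - c • (x * b))))
          (v.ord (algebraMap A F (c • (x * b)))) with hle | hle
        · have h6 := FF.ord_add_ge v hne (Or.inr le_rfl) (Or.inr hle)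
          rw [← h5] at h6
          exact h3'.trans (mul_le_mul_of_nonneg_left h6 (by positivity))
        · have h6 := FF.ord_add_ge v hne (Or.inr hle) (Or.inr le_rfl)
          rw [← h5] at h6
          exact h2'.trans (mul_le_mul_of_nonneg_left h6 (by positivity))

include D in
lemma bad_le' (hκ : D.IsConductor κ) {x : A} (hx : 0 < D.d x) (v : Place K F)
    (hxv : v.ord (algebraMap A F x) ≤ 0) {a : A} (ha : a ≠ 0) :
      (D.d a : ℤ) * v.ord (algebraMap A F x) ≤ D.d x * v.ord (algebraMap A F a) := by
  obtain ⟨C, hC⟩ := D.bad_le hκ hx v hxv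
  by_contra! hcon
  -- take a large power of `a`
  set X := (D.d a : ℤ) * v.ord (algebraMap A F x) with hX
  set Y := D.d x * v.ord (algebraMap A F a) with hY
  have hk : ∀ k : ℕ, (k : ℤ) * (X - Y) ≤ D.d x * C := by
    intro k
    have h1 := hC (a ^ k) (pow_ne_zero k ha)
    rw [D.d_pow ha, map_pow, FF.ord_pow] at h1
    push_cast at h1
    rw [hX, hY]
    linear_combination h1
  have h2 := hk ((D.d x : ℤ) * C + 1).toNat
  have h3 : ((D.d x : ℤ) * C + 1) ≤ (((D.d x : ℤ) * C + 1).toNat : ℤ) := Int.self_le_toNat _
  have h4 : (1 : ℤ) ≤ X - Y := by omega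
  have h5 : (((D.d x : ℤ) * C + 1).toNat : ℤ) * 1 ≤
      (((D.d x : ℤ) * C + 1).toNat : ℤ) * (X - Y) :=
    mul_le_mul_of_nonneg_left h4 (by positivity)
  omega

/-- The only place which does not contain `A` is the place at infinity. -/
lemma eq_infPlace' (hκ : D.IsConductor κ) (v : Place K F) (hv : ¬ Good A v) :
    v = D.infPlace hκ := by
  have hinj : ∀ z : A, z ≠ 0 → algebraMap A F z ≠ 0 := fun z hz => by
    rwa [Ne, FaithfulSMul.algebraMap_eq_zero_iff]
  have hbad : ∀ y : A, 0 < D.d y → v.ord (algebraMap A F y) < 0 := by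
    intro y hy
    rw [← FF.not_mem_iff_ord]
    intro h
    exact hv (D.good_of_mem hκ hy v h)
  obtain ⟨x, -, hx0, hxd⟩ := hκ (κ + 1) (by omega)
  have hx : 0 < D.d x := by omega
  have hprop : ∀ a : A, a ≠ 0 →
      (D.d a : ℤ) * v.ord (algebraMap A F x) = D.d x * v.ord (algebraMap A F a) := by
    intro a ha
    apply le_antisymm
    · exact D.bad_le' hκ hx v (hbad x hx).le ha
    · by_cases hda : 0 < D.d a
      · exact D.bad_le' hκ hda v (hbad a hda).le hx0
      · have hda0 : D.d a = D.d 1 := by rw [D.d_one]; omega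
        obtain ⟨c, hc⟩ := D.lead a 1 ha one_ne_zero hda0
        rcases hc with hc | hc
        · rw [hc, ← Algebra.algebraMap_eq_smul_one, D.d_algebraMap,
            ← IsScalarTower.algebraMap_apply, FF.ord_algebraMap]
          simp
        · rw [hda0, D.d_one] at hc; omega
  apply FF.place_eq_of_le
  intro f hf
  by_cases hf0 : f = 0
  · rw [hf0]; exact zero_mem _
  obtain ⟨a, b, hb, rfl⟩ := IsFractionRing.div_surjective (A := A) f
  have hb0 : b ≠ 0 := nonZeroDivisors.ne_zero hb
  have ha0 : a ≠ 0 := by rintro rfl; rw [map_zero, zero_div] at hf0; exact hf0 rfl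
  rw [FF.mem_iff_ord _ hf0, div_eq_mul_inv, Place.ord_mul _ (hinj a ha0)
    (inv_ne_zero (hinj b hb0)), Place.ord_inv] at hf ⊢
  rw [D.ord_infPlace hκ ha0, D.ord_infPlace hκ hb0]
  have h1 := hprop a ha0
  have h2 := hprop b hb0
  have hx' := hbad x hx
  have h3 : ((D.d b : ℤ) - D.d a) * v.ord (algebraMap A F x) ≤ 0 := by
    have h4 : ((D.d b : ℤ) - D.d a) * v.ord (algebraMap A F x) =
        -(D.d x * (v.ord (algebraMap A F a) + -v.ord (algebraMap A F b))) := by
      linear_combination h2 - h1
    rw [h4, Left.neg_nonpos_iff]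
    positivity
  have h5 : 0 ≤ (D.d b : ℤ) - D.d a := by
    by_contra! hcon
    have := mul_pos_of_neg_of_neg hcon hx'
    omega
  omega

end bad

section principal

variable {K F A : Type*} [Field K] [IsAlgClosed K] [Field F] [Algebra K F] [CommRing A]
  [IsDedekindDomain A] [Algebra K A] [Algebra A F] [IsFractionRing A F] [IsScalarTower K A F]
  (D : DegreeFn K A) {κ : ℕ}

lemma not_good_infPlace (hκ : D.IsConductor κ) : ¬ Good A (D.infPlace (F := F) hκ) := by
  intro h
  obtain ⟨x, -, hx0, hxd⟩ := hκ (κ + 1) (by omega)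
  have hxF : algebraMap A F x ≠ 0 := by
    rwa [Ne, FaithfulSMul.algebraMap_eq_zero_iff]
  have h1 := (FF.mem_iff_ord _ hxF).mp (h x)
  rw [D.ord_infPlace hκ hx0] at h1
  omega

/-- `F` is finite over `K(x)`. -/
lemma isFF1 (hκ : D.IsConductor κ) : FF.IsFF1 K F := by
  obtain ⟨x, -, hx0, hxd⟩ := hκ (κ + 1) (by omega)
  have hx : 0 < D.d x := by omega
  set y : F := algebraMap A F x with hy
  refine ⟨y, ?_, ?_⟩
  · apply FF.transcendental_of_ord_ne_zero (v := D.infPlace (F := F) hκ)
    rw [hy, D.ord_infPlace hκ hx0]
    omega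
  · obtain ⟨s, hs⟩ := (D.finite_adjoin hκ hx).fg_top
    -- `K[x] ⊆ K(y)`
    have hle : ∀ r ∈ Algebra.adjoin K {x}, algebraMap A F r ∈ K⟮y⟯ := by
      intro r hr
      induction hr using Algebra.adjoin_induction with
      | mem z hz =>
        rw [Set.mem_singleton_iff.mp hz]
        exact IntermediateField.mem_adjoin_simple_self K _
      | algebraMap c =>
        rw [← IsScalarTower.algebraMap_apply]
        exact IntermediateField.algebraMap_mem _ c
      | add y z _ _ hy hz => rw [map_add]; exact add_mem hy hz
      | mul y z _ _ hy hz => rw [map_mul]; exact mul_mem hy hz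
    let S : Set F := (algebraMap A F) '' (s : Set A)
    have hSfin : S.Finite := s.finite_toSet.image _
    let E := IntermediateField.adjoin K⟮y⟯ S
    have hint : ∀ z ∈ S, IsIntegral K⟮y⟯ z := by
      rintro _ ⟨a, -, rfl⟩
      let φ : Algebra.adjoin K {x} →+* K⟮y⟯ :=
        ((algebraMap A F).comp (Algebra.adjoin K {x}).val.toRingHom).codRestrict
          K⟮y⟯.toSubfield.toSubring (fun r => hle r r.2)
      obtain ⟨p, hp, hpa⟩ := D.isIntegral_adjoin hκ hx a
      refine ⟨p.map φ, hp.map φ, ?_⟩
      rw [Polynomial.eval₂_map]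
      have h3 : (algebraMap K⟮y⟯ F).comp φ =
          (algebraMap A F).comp (algebraMap (Algebra.adjoin K {x}) A) := RingHom.ext fun r => rfl
      rw [h3, ← Polynomial.hom_eval₂, hpa, map_zero]
    have hfin : FiniteDimensional K⟮y⟯ E := by
      have := IntermediateField.finiteDimensional_adjoin (S := hSfin.toFinset)
        (K := K⟮y⟯) (L := F) (fun z hz => hint z (hSfin.mem_toFinset.mp hz))
      rwa [hSfin.coe_toFinset] at this
    have hA : ∀ a : A, algebraMap A F a ∈ E := by
      intro a
      have ha : a ∈ Submodule.span (Algebra.adjoin K {x}) (s : Set A) := by rw [hs]; trivial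
      induction ha using Submodule.span_induction with
      | mem b hb => exact IntermediateField.subset_adjoin _ _ ⟨b, hb, rfl⟩
      | zero => rw [map_zero]; exact zero_mem _
      | add b c _ _ hb hc => rw [map_add]; exact add_mem hb hc
      | smul r b _ hb =>
        have h1 : r • b = (r : A) * b := rfl
        rw [h1, map_mul]
        exact mul_mem (IntermediateField.algebraMap_mem E (⟨_, hle r r.2⟩ : K⟮y⟯)) hb
    have hE : E = ⊤ := by
      rw [eq_top_iff]
      rintro f -
      obtain ⟨a, b, -, rfl⟩ := IsFractionRing.div_surjective (A := A) f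
      exact div_mem (hA a) (hA b)
    rw [hE] at hfin
    exact Module.Finite.equiv (IntermediateField.topEquiv (F := K⟮y⟯) (E := F)).toLinearEquiv

lemma deg_eq_one (hκ : D.IsConductor κ) (v : Place K F) : v.deg = 1 := by
  have := D.isFF1 (F := F) hκ
  exact FF.deg_eq_one v

open Classical in
/-- The place attached to a prime of `A`. -/
noncomputable def plc (P₀ : Place K F) (P : Ideal A) : Place K F :=
  if h : P.IsPrime ∧ P ≠ ⊥ then Place.ofHeightOneSpectrum (R := A) ⟨P, h.1, h.2⟩ else P₀

lemma good_ofHeightOneSpectrum (w : IsDedekindDomain.HeightOneSpectrum A) :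
    Good A (Place.ofHeightOneSpectrum (K := K) (F := F) w) := by
  intro a
  rw [Place.ofHeightOneSpectrum_toValuationSubring, Valuation.mem_valuationSubring_iff]
  exact w.valuation_le_one a

lemma sum_single_apply [DecidableEq (Place K F)] (P₀ : Place K F) (s : Multiset (Ideal A))
    (v : Place K F) :
    (s.map (fun P => Finsupp.single (plc P₀ P) (1 : ℤ))).sum v =
      s.countP (fun P => plc P₀ P = v) := by
  induction s using Multiset.induction_on with
  | empty => simp
  | cons P s ih =>
    rw [Multiset.map_cons, Multiset.sum_cons, Finsupp.add_apply, ih, Multiset.countP_cons,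
      Finsupp.single_apply]
    push_cast
    rw [add_comm]

lemma exists_divisor_algebraMap (hκ : D.IsConductor κ) {a : A} (ha : a ≠ 0) :
    ∃ E : Divisor K F, (∀ v : Place K F, E v = v.ord (algebraMap A F a)) ∧
      Divisor.degree E = 0 := by
  classical
  set P₀ := D.infPlace (F := F) hκ with hP₀
  set s := normalizedFactors (Ideal.span {a}) with hs
  have hspan : Ideal.span {a} ≠ 0 := by
    rwa [Ne, Ideal.zero_eq_bot, Ideal.span_singleton_eq_bot]
  have hsP : ∀ P ∈ s, P.IsPrime ∧ P ≠ ⊥ := by
    intro P hP
    have h1 := prime_of_normalized_factor P hP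
    exact ⟨Ideal.isPrime_of_prime h1, h1.ne_zero⟩
  refine ⟨(s.map (fun P => Finsupp.single (plc P₀ P) (1 : ℤ))).sum -
    Finsupp.single P₀ (D.d a : ℤ), fun v => ?_, ?_⟩
  · rw [Finsupp.sub_apply, sum_single_apply]
    by_cases hv : Good A v
    · have hne : P₀ ≠ v := by
        rintro rfl
        exact D.not_good_infPlace hκ hv
      rw [Finsupp.single_eq_of_ne' hne, sub_zero]
      have h1 : s.countP (fun P => plc P₀ P = v) = s.count (FF.centre v hv) := by
        apply Multiset.countP_congr rfl
        intro P hP
        obtain ⟨hP1, hP2⟩ := hsP P hP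
        rw [eq_iff_iff]
        constructor
        · rintro rfl
          simp only [plc, dif_pos (And.intro hP1 hP2)] at hv ⊢
          exact (FF.centre_ofHeightOneSpectrum _ _)
        · rintro h
          subst h
          simp only [plc, dif_pos (And.intro hP1 hP2)]
          exact (FF.eq_ofHeightOneSpectrum (R := A) v hv).symm
      rw [h1]
      conv_rhs => rw [FF.eq_ofHeightOneSpectrum (R := A) v hv,
        FF.ord_ofHeightOneSpectrum_algebraMap _ ha]
      have hprime : Prime (FF.centre v hv) := Ideal.prime_of_isPrime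
        (FF.centre_ne_bot v hv) (FF.centre_isPrime v hv)
      have h2 := emultiplicity_eq_count_normalizedFactors
        hprime.irreducible (b := Ideal.span {a}) hspan
      rw [normalize_eq] at h2
      rw [multiplicity, h2]
      rfl
    · have hv' : v = P₀ := D.eq_infPlace' hκ v hv
      rw [hv', Finsupp.single_eq_same, D.ord_infPlace hκ ha]
      have h1 : s.countP (fun P => plc P₀ P = P₀) = 0 := by
        rw [Multiset.countP_eq_zero]
        intro P hP h
        obtain ⟨hP1, hP2⟩ := hsP P hP
        simp only [plc, dif_pos (And.intro hP1 hP2)] at h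
        apply D.not_good_infPlace (F := F) hκ
        rw [← hP₀, ← h]
        exact good_ofHeightOneSpectrum _
      rw [h1]
      simp
  · rw [map_sub, Divisor.degree_single, D.deg_eq_one hκ, map_multiset_sum, Multiset.map_map]
    have h1 : (s.map (⇑Divisor.degree ∘ fun P => Finsupp.single (plc P₀ P) (1 : ℤ))) =
        s.map (fun _ => (1 : ℤ)) := by
      apply Multiset.map_congr rfl
      intro P _
      rw [Function.comp_apply, Divisor.degree_single, D.deg_eq_one hκ]
      simp
    rw [h1, Multiset.map_const', Multiset.sum_replicate,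
      ← D.codim_span_singleton hκ ha, D.codim_eq_card hκ hspan]
    simp [hs]

theorem hasPrincipalDivisors (hκ : D.IsConductor κ) : HasPrincipalDivisors K F where
  exists_divisor f hf := by
    obtain ⟨a, b, hb, rfl⟩ := IsFractionRing.div_surjective (A := A) f
    have hb0 : b ≠ 0 := nonZeroDivisors.ne_zero hb
    have ha0 : a ≠ 0 := by rintro rfl; rw [map_zero, zero_div] at hf; exact hf rfl
    have hinj : ∀ z : A, z ≠ 0 → algebraMap A F z ≠ 0 := fun z hz => by
      rwa [Ne, FaithfulSMul.algebraMap_eq_zero_iff]
    obtain ⟨E, hE, hE0⟩ := D.exists_divisor_algebraMap (F := F) hκ ha0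
    obtain ⟨E', hE', hE'0⟩ := D.exists_divisor_algebraMap (F := F) hκ hb0
    refine ⟨E - E', fun v => ?_, by rw [map_sub, hE0, hE'0, sub_zero]⟩
    rw [Finsupp.sub_apply, hE, hE', div_eq_mul_inv, v.ord_mul (hinj a ha0)
      (inv_ne_zero (hinj b hb0)), v.ord_inv]
    ring

theorem functionField (hκ : D.IsConductor κ) : RR.FunctionField K F where
  toHasPrincipalDivisors := D.hasPrincipalDivisors hκ
  finiteResidue v := by
    have := D.isFF1 (F := F) hκ
    exact FF.finite_residueField v
  nonempty_place := ⟨D.infPlace hκ⟩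
  exists_finite := (D.isFF1 hκ).exists_finite

end principal

end DegreeFn

end Fermat.Agent.S27D
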