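import Mathlib
import Fermat.Agent.S27D.Field
import Fermat.Agent.RR.Riemann

/-!
# The genus is the number of gaps
-/

open Module AlgebraicCurve WithZero UniqueFactorizationMonoid

namespace Fermat.Agent.S27D

/-- Riemann-Roch for large multiples of a place. -/
theorem exists_finrank_single {K F : Type*} [Field K] [IsAlgClosed K] [Field F] [Algebra K F]
    [RR.FunctionField K F] (P₀ : Place K F) :
    ∃ n₀ : ℕ, ∀ n : ℕ, n₀ ≤ n →
      finrank K (riemannRochSpace (Finsupp.single P₀ (n : ℤ))) + genusFF K F = n + 1 := by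
  obtain ⟨D₀, hD₀⟩ := RR.exists_sup_eq_top K F
  refine ⟨(Divisor.degree D₀ + genusFF K F).toNat, fun n hn => ?_⟩
  have hn' : Divisor.degree D₀ + genusFF K F ≤ n := by omega
  have h1 := RR.finrank_riemannRochSpace_ge (Finsupp.single P₀ (n : ℤ) - D₀)
  rw [map_sub, RR.degree_single_one] at h1
  have h2 : 0 < finrank K (riemannRochSpace (Finsupp.single P₀ (n : ℤ) - D₀)) := by omega
  have h3 : Nontrivial ↥(riemannRochSpace (Finsupp.single P₀ (n : ℤ) - D₀)) :=
    Module.nontrivial_of_finrank_pos h2
  obtain ⟨⟨f, hf⟩, hf0⟩ := exists_ne (0 : ↥(riemannRochSpace (Finsupp.single P₀ (n : ℤ) - D₀)))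
  have hf0' : f ≠ 0 := fun h => hf0 (Subtype.ext h)
  have hle : D₀ ≤ Finsupp.single P₀ (n : ℤ) + RR.divOf f := by
    rw [Finsupp.le_def]
    intro v
    have h4 := (mem_riemannRochSpace_iff.mp hf v).resolve_left hf0'
    rw [Finsupp.sub_apply] at h4
    rw [Finsupp.add_apply, RR.divOf_apply]
    omega
  have htop : repartitionsOf (Finsupp.single P₀ (n : ℤ) + RR.divOf f) ⊔
      principalRepartitions K F = ⊤ := by
    rw [eq_top_iff, ← hD₀]
    exact sup_le_sup_right (repartitionsOf_mono hle) _
  have hsub : Subsingleton (H1 (Finsupp.single P₀ (n : ℤ) + RR.divOf f)) :=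
    Submodule.Quotient.subsingleton_iff.mpr htop
  have h5 := RR.riemann (Finsupp.single P₀ (n : ℤ) + RR.divOf f)
  rw [RR.finrank_riemannRochSpace_add_divOf _ hf0', map_add, RR.degree_divOf,
    RR.degree_single_one, finrank_zero_of_subsingleton (M := H1 _)] at h5
  push_cast at h5
  omega

namespace DegreeFn

variable {K F A : Type*} [Field K] [Field F] [Algebra K F] [CommRing A]
  [IsDedekindDomain A] [Algebra K A] [Algebra A F] [IsFractionRing A F] [IsScalarTower K A F]
  (D : DegreeFn K A) {κ : ℕ}

/-- The spaces `L(n P₀)`. -/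
lemma finrank_riemannRochSpace_single (P₀ : Place K F)
    (h0 : ∀ a : A, a ≠ 0 → P₀.ord (algebraMap A F a) = -(D.d a : ℤ))
    (hbad : ¬ Good A P₀) (hgood : ∀ v : Place K F, v ≠ P₀ → Good A v) (n : ℕ) :
    finrank K (riemannRochSpace (Finsupp.single P₀ (n : ℤ))) = finrank K ↥(D.L (n + 1)) := by
  classical
  let φ : A →ₗ[K] F := (IsScalarTower.toAlgHom K A F).toLinearMap
  have hφ : ∀ a, φ a = algebraMap A F a := fun a => rfl
  have hinj : Function.Injective φ := IsFractionRing.injective A F
  have h1 : riemannRochSpace (Finsupp.single P₀ (n : ℤ)) = (D.L (n + 1)).map φ := by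
    ext f
    rw [mem_riemannRochSpace_iff]
    constructor
    · intro hf
      by_cases hf0 : f = 0
      · rw [hf0]; exact zero_mem _
      have hf' : ∀ v : Place K F, -(Finsupp.single P₀ (n : ℤ)) v ≤ v.ord f :=
        fun v => (hf v).resolve_left hf0
      have h2 : f ∈ (algebraMap A F).range := by
        apply IsDedekindDomain.HeightOneSpectrum.mem_integers_of_valuation_le_one
        intro w
        have hne : P₀ ≠ Place.ofHeightOneSpectrum (K := K) w := by
          rintro h
          apply hbad
          rw [h]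
          intro a
          rw [Place.ofHeightOneSpectrum_toValuationSubring, Valuation.mem_valuationSubring_iff]
          exact w.valuation_le_one a
        have h2 := hf' (Place.ofHeightOneSpectrum (K := K) w)
        rw [Finsupp.single_eq_of_ne' hne, FF.ord_ofHeightOneSpectrum w hf0] at h2
        have h3 : w.valuation F f ≠ 0 := (Valuation.ne_zero_iff _).mpr hf0
        rw [neg_zero, Left.nonneg_neg_iff, ← log_one (M := ℤ), log_le_log h3 one_ne_zero] at h2
        exact h2
      obtain ⟨a, rfl⟩ := h2
      refine ⟨a, ?_, rfl⟩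
      have ha0 : a ≠ 0 := by rintro rfl; exact hf0 (map_zero _)
      have h3 := hf' P₀
      rw [Finsupp.single_eq_same, h0 a ha0] at h3
      exact D.mem_L_succ.mpr (by omega)
    · rintro ⟨a, ha, rfl⟩ v
      by_cases ha0 : a = 0
      · left; rw [ha0, map_zero]
      right
      by_cases hv : v = P₀
      · have h2 := D.mem_L_succ.mp ha
        rw [hv, Finsupp.single_eq_same, hφ, h0 a ha0]
        omega
      · rw [Finsupp.single_eq_of_ne hv, neg_zero, hφ]
        exact FF.ord_nonneg_of_mem v (hgood v hv a)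
  rw [h1]
  exact (LinearEquiv.finrank_eq (Submodule.equivMapOfInjective φ hinj (D.L (n + 1)))).symm

/-- The genus is the number of gaps. -/
theorem genusFF_eq_gap [IsAlgClosed K] (hκ : D.IsConductor κ) : genusFF K F = D.gap κ := by
  have := D.functionField (F := F) hκ
  obtain ⟨n₀, hn₀⟩ := exists_finrank_single (D.infPlace (F := F) hκ)
  have h1 := hn₀ (n₀ + κ) (by omega)
  rw [D.finrank_riemannRochSpace_single (D.infPlace (F := F) hκ)
    (fun a ha => D.ord_infPlace hκ ha) (D.not_good_infPlace hκ)
    (fun v hv => by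
      by_contra hcon
      exact hv (D.eq_infPlace' hκ v hcon))] at h1
  have h2 := D.finrank_L_add_gap hκ (M := n₀ + κ + 1) (by omega)
  omega

end DegreeFn

end Fermat.Agent.S27D
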