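import Mathlib
import Fermat.Agent.S27D.Inf

/-!
# Counting the torsion of the class group by means of elements of bounded degree
-/

open Module AlgebraicCurve WithZero UniqueFactorizationMonoid

namespace Fermat.Agent.S27D

/-- An ideal all of whose multiplicities are divisible by `n` is an `n`-th power. -/
lemma exists_eq_pow_of_dvd {A : Type*} [CommRing A] [IsDedekindDomain A] {n : ℕ}
    {I : Ideal A} (hI : I ≠ ⊥)
    (h : ∀ P : Ideal A, P.IsPrime → P ≠ ⊥ → n ∣ multiplicity P I) : ∃ J : Ideal A, I = J ^ n := by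
  classical
  have hcount : ∀ P ∈ (normalizedFactors I), n ∣ (normalizedFactors I).count P := by
    intro P hP
    have h1 := prime_of_normalized_factor P hP
    have h2 := h P (Ideal.isPrime_of_prime h1) h1.ne_zero
    have h3 := emultiplicity_eq_count_normalizedFactors (a := P) h1.irreducible (b := I) hI
    rw [normalize_eq] at h3
    rw [multiplicity, h3] at h2
    exact h2
  refine ⟨∏ P ∈ (normalizedFactors I).toFinset, P ^ ((normalizedFactors I).count P / n), ?_⟩
  rw [← Finset.prod_pow]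
  have h4 : I = (normalizedFactors I).prod :=
    (associated_iff_eq.mp (prod_normalizedFactors (show I ≠ 0 from hI))).symm
  conv_lhs => rw [h4, Finset.prod_multiset_count]
  refine Finset.prod_congr rfl fun P hP => ?_
  rw [← pow_mul, Nat.div_mul_cancel (hcount P (Multiset.mem_toFinset.mp hP))]

lemma multiplicity_pow_ideal {A : Type*} [CommRing A] [IsDedekindDomain A] (n : ℕ)
    {I : Ideal A} (hI : I ≠ ⊥) {P : Ideal A} (hP : P.IsPrime) (hP0 : P ≠ ⊥) :
    multiplicity P (I ^ n) = n * multiplicity P I := by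
  classical
  have hprime : Prime P := Ideal.prime_of_isPrime hP0 hP
  have h3 := emultiplicity_eq_count_normalizedFactors (a := P) hprime.irreducible (b := I) hI
  have h4 := emultiplicity_eq_count_normalizedFactors (a := P) hprime.irreducible (b := I ^ n)
    (pow_ne_zero n hI)
  rw [normalize_eq] at h3 h4
  rw [multiplicity, multiplicity, h3, h4, normalizedFactors_pow, Multiset.count_nsmul]
  rfl

/-- Abstract counting. -/
lemma card_eq_iff {A X : Type*} (T : A → Prop) (E : A → A → Prop) (R : A → X → Prop)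
    (h1 : ∀ f, T f → ∃ x, R f x) (h2 : ∀ x, ∃ f, T f ∧ R f x)
    (h3 : ∀ f f' x x', T f → T f' → R f x → R f' x' → (x = x' ↔ E f f')) {N : ℕ} (hN : 0 < N) :
    Nat.card X = N ↔ ∃ φ : Fin N → A, (∀ i, T (φ i)) ∧ (∀ i j, i ≠ j → ¬ E (φ i) (φ j)) ∧
      (∀ f, T f → ∃ i, E f (φ i)) := by
  constructor
  · rintro rfl
    have : Finite X := Nat.finite_of_card_ne_zero hN.ne'
    let e : X ≃ Fin (Nat.card X) := Finite.equivFin X
    choose ψ hψT hψR using h2
    refine ⟨fun i => ψ (e.symm i), fun i => hψT _, ?_, ?_⟩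
    · intro i j hij hE
      apply hij
      exact e.symm.injective ((h3 _ _ _ _ (hψT _) (hψT _) (hψR _) (hψR _)).mpr hE)
    · intro f hf
      obtain ⟨x, hx⟩ := h1 f hf
      refine ⟨e x, ?_⟩
      show E f (ψ (e.symm (e x)))
      rw [e.symm_apply_apply]
      exact (h3 _ _ _ _ hf (hψT _) hx (hψR _)).mp rfl
  · rintro ⟨φ, hφT, hφE, hφ⟩
    choose x hx using fun i => h1 (φ i) (hφT i)
    have hbij : Function.Bijective x := by
      constructor
      · intro i j hij
        by_contra hne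
        exact hφE i j hne ((h3 _ _ _ _ (hφT i) (hφT j) (hx i) (hx j)).mp hij)
      · intro y
        obtain ⟨f, hf, hfy⟩ := h2 y
        obtain ⟨i, hi⟩ := hφ f hf
        exact ⟨i, ((h3 _ _ _ _ hf (hφT i) hfy (hx i)).mpr hi).symm⟩
    rw [← Nat.card_congr (Equiv.ofBijective x hbij), Nat.card_fin]

namespace DegreeFn

variable {K F A : Type*} [Field K] [IsAlgClosed K] [Field F] [Algebra K F] [CommRing A]
  [IsDedekindDomain A] [Algebra K A] [Algebra A F] [IsFractionRing A F] [IsScalarTower K A F]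
  (D : DegreeFn K A) {κ : ℕ}

/-- The representatives. -/
def Rep (κ n : ℕ) (f : A) : Prop :=
  f ≠ 0 ∧ D.d f ≤ n * D.gap κ ∧ D.PowWitness n (bound κ (D.gap κ) n) f

/-- Good places have order the multiplicity of the ideal. -/
lemma ord_good {v : Place K F} (hv : Good A v) {f : A} (hf : f ≠ 0) :
    v.ord (algebraMap A F f) = multiplicity (FF.centre v hv) (Ideal.span {f}) := by
  conv_lhs => rw [FF.eq_ofHeightOneSpectrum (R := A) v hv]
  rw [FF.ord_ofHeightOneSpectrum_algebraMap _ hf]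

variable (F) in
/-- The relation between representatives and torsion classes. -/
def Rel (_D : DegreeFn K A) (n : ℕ) (f : A) (x : Pic0.torsion K F n) : Prop :=
  ∃ E : Divisor.degZero (K := K) (F := F), Pic0.mk E = (x : Pic0 K F) ∧
    ∀ v : Place K F, (n : ℤ) * (E : Divisor K F) v = v.ord (algebraMap A F f)

lemma mk_eq_mk_iff {E E' : Divisor.degZero (K := K) (F := F)} :
    Pic0.mk E = Pic0.mk E' ↔ ∃ y : F, y ≠ 0 ∧
      ∀ v : Place K F, (E : Divisor K F) v = (E' : Divisor K F) v + v.ord y := by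
  rw [Pic0.mk, Pic0.mk, QuotientAddGroup.eq, AddSubgroup.mem_addSubgroupOf, Divisor.mem_principal]
  constructor
  · rintro ⟨y, hy, h⟩
    refine ⟨y⁻¹, inv_ne_zero hy, fun v => ?_⟩
    have h1 := h v
    simp only [AddSubgroup.coe_add, NegMemClass.coe_neg, Finsupp.coe_add, Finsupp.coe_neg,
      Pi.add_apply, Pi.neg_apply] at h1
    rw [Place.ord_inv]
    omega
  · rintro ⟨y, hy, h⟩
    refine ⟨y⁻¹, inv_ne_zero hy, fun v => ?_⟩
    have h1 := h v
    simp only [AddSubgroup.coe_add, NegMemClass.coe_neg, Finsupp.coe_add, Finsupp.coe_neg,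
      Pi.add_apply, Pi.neg_apply]
    rw [Place.ord_inv]
    omega

lemma mk_mem_torsion_iff {n : ℕ} {E : Divisor.degZero (K := K) (F := F)} :
    Pic0.mk E ∈ Pic0.torsion K F n ↔ ∃ y : F, y ≠ 0 ∧
      ∀ v : Place K F, (n : ℤ) * (E : Divisor K F) v = v.ord y := by
  rw [Pic0.mem_torsion]
  have h1 : (n : ℤ) • Pic0.mk E = Pic0.mk ((n : ℤ) • E) := rfl
  rw [h1, ← Pic0.mk_zero, mk_eq_mk_iff]
  refine exists_congr fun y => and_congr_right fun _ => forall_congr' fun v => ?_
  simp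

/-- An element whose order is `≥ 0` everywhere is constant. -/
lemma exists_const (hκ : D.IsConductor κ) {u : F} (hu : u ≠ 0)
    (h : ∀ v : Place K F, 0 ≤ v.ord u) : ∃ c : K, c ≠ 0 ∧ u = algebraMap K F c := by
  have h1 : u ∈ (algebraMap A F).range := by
    apply IsDedekindDomain.HeightOneSpectrum.mem_integers_of_valuation_le_one
    intro w
    have h2 := h (Place.ofHeightOneSpectrum (K := K) w)
    rw [FF.ord_ofHeightOneSpectrum w hu] at h2
    have h3 : w.valuation F u ≠ 0 := (Valuation.ne_zero_iff _).mpr hu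
    rw [Left.nonneg_neg_iff, ← log_one (M := ℤ), log_le_log h3 one_ne_zero] at h2
    exact h2
  obtain ⟨a, rfl⟩ := h1
  have ha : a ≠ 0 := by rintro rfl; exact hu (map_zero _)
  have h2 := h (D.infPlace hκ)
  rw [D.ord_infPlace hκ ha] at h2
  have hda : D.d a = D.d 1 := by rw [D.d_one]; omega
  obtain ⟨c, hc⟩ := D.lead a 1 ha one_ne_zero hda
  rcases hc with hc | hc
  · refine ⟨c, ?_, ?_⟩
    · rintro rfl; exact ha (by rw [hc, zero_smul])
    · rw [hc, IsScalarTower.algebraMap_apply K A F, ← Algebra.algebraMap_eq_smul_one]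
  · rw [hda, D.d_one] at hc; omega

section

variable [hpd : HasPrincipalDivisors K F]

lemma rel_of_rep (hκ : D.IsConductor κ) (hdeg : ∀ v : Place K F, v.deg = 1) {n : ℕ} (hn : 1 ≤ n)
    {f : A} (hf : D.Rep κ n f) : ∃ x, D.Rel F n f x := by
  obtain ⟨hf0, -, hw⟩ := hf
  obtain ⟨I, hI0, hI⟩ := D.exists_pow_of_witness hf0 hw
  have hfF : algebraMap A F f ≠ 0 := by
    rwa [Ne, FaithfulSMul.algebraMap_eq_zero_iff]
  obtain ⟨E', hE', hE'deg⟩ := hpd.exists_divisor _ hfF
  have hdvd : ∀ v : Place K F, (n : ℤ) ∣ E' v := by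
    intro v
    rw [hE' v]
    by_cases hv : Good A v
    · rw [ord_good hv hf0, hI, multiplicity_pow_ideal n hI0 (FF.centre_isPrime v hv)
        (FF.centre_ne_bot v hv)]
      push_cast
      exact dvd_mul_right _ _
    · rw [D.eq_infPlace hκ hdeg v hv, D.ord_infPlace hκ hf0, dvd_neg,
        ← D.codim_span_singleton hκ hf0, hI, D.codim_pow hκ hI0]
      push_cast
      exact dvd_mul_right _ _
  let E : Divisor K F := E'.mapRange (fun z => z / n) (Int.zero_ediv _)
  have hE : ∀ v, (n : ℤ) * E v = E' v := by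
    intro v
    rw [Finsupp.mapRange_apply]
    exact Int.mul_ediv_cancel' (hdvd v)
  have hnE : (n : ℤ) • E = E' := Finsupp.ext fun v => by
    rw [Finsupp.smul_apply, smul_eq_mul, hE v]
  have hEdeg : Divisor.degree E = 0 := by
    have h1 : (n : ℤ) • Divisor.degree E = 0 := by rw [← map_zsmul, hnE, hE'deg]
    rw [smul_eq_mul] at h1
    exact (mul_eq_zero.mp h1).resolve_left (by exact_mod_cast (by omega : n ≠ 0))
  have hEmem : Pic0.mk ⟨E, Divisor.mem_degZero.mpr hEdeg⟩ ∈ Pic0.torsion K F n := by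
    rw [mk_mem_torsion_iff]
    exact ⟨_, hfF, fun v => by rw [hE v, hE' v]⟩
  exact ⟨⟨_, hEmem⟩, _, rfl, fun v => by rw [hE v, hE' v]⟩

lemma exists_rep (hκ : D.IsConductor κ) (hκ1 : 1 ≤ κ) {n : ℕ}
    (hn : 1 ≤ n) (x : Pic0.torsion K F n) : ∃ f, D.Rep κ n f ∧ D.Rel F n f x := by
  obtain ⟨x, hx⟩ := x
  obtain ⟨E, rfl⟩ := Pic0.mk_surjective x
  obtain ⟨y, hy0, hy⟩ := mk_mem_torsion_iff.mp hx
  obtain ⟨a, b, hb, rfl⟩ := IsFractionRing.div_surjective (A := A) y
  have hb0 : b ≠ 0 := nonZeroDivisors.ne_zero hb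
  have ha0 : a ≠ 0 := by rintro rfl; rw [map_zero, zero_div] at hy0; exact hy0 rfl
  have hinj : ∀ z : A, z ≠ 0 → algebraMap A F z ≠ 0 := fun z hz => by
    rwa [Ne, FaithfulSMul.algebraMap_eq_zero_iff]
  have hbF := hinj b hb0
  have haF := hinj a ha0
  -- first modification
  set f₁ : A := a * b ^ (n - 1) with hf₁
  have hf₁0 : f₁ ≠ 0 := mul_ne_zero ha0 (pow_ne_zero _ hb0)
  have hf₁F : algebraMap A F f₁ = algebraMap A F a / algebraMap A F b * (algebraMap A F b) ^ n := by
    rw [hf₁, map_mul, map_pow]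
    obtain ⟨m, rfl⟩ : ∃ m, n = m + 1 := ⟨n - 1, by omega⟩
    rw [Nat.add_sub_cancel, pow_succ]
    field_simp
  have hord₁ : ∀ v : Place K F, v.ord (algebraMap A F f₁) =
      n * ((E : Divisor K F) v + v.ord (algebraMap A F b)) := by
    intro v
    rw [hf₁F, v.ord_mul (div_ne_zero haF hbF) (pow_ne_zero n hbF), ← hy v, FF.ord_pow]
    ring
  -- `f₁` generates an `n`-th power
  have hspan₁ : Ideal.span {f₁} ≠ ⊥ := by rwa [Ne, Ideal.span_singleton_eq_bot]
  obtain ⟨I₁, hI₁⟩ : ∃ I₁ : Ideal A, Ideal.span {f₁} = I₁ ^ n := by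
    apply exists_eq_pow_of_dvd hspan₁
    intro P hP hP0
    have h1 := FF.ord_ofHeightOneSpectrum_algebraMap (K := K) (F := F) (R := A) ⟨P, hP, hP0⟩ hf₁0
    rw [hord₁] at h1
    have h2 : (n : ℤ) ∣ (multiplicity P (Ideal.span {f₁}) : ℤ) := by
      rw [← h1]; exact dvd_mul_right _ _
    exact_mod_cast h2
  have hI₁0 : I₁ ≠ ⊥ := by
    rintro rfl
    apply hspan₁
    rw [hI₁]
    exact zero_pow (by omega)
  obtain ⟨J, a', b', hJ0, ha', hb', hJ, hcod⟩ := D.exists_small_rep hκ hI₁0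
  -- second modification
  have hJn : Ideal.span {a' ^ n * f₁} = Ideal.span {b' ^ n} * J ^ n := by
    rw [← Ideal.span_singleton_mul_span_singleton, ← Ideal.span_singleton_pow,
      ← Ideal.span_singleton_pow, hI₁, ← mul_pow, ← mul_pow, hJ]
  have hmem : a' ^ n * f₁ ∈ Ideal.span {b' ^ n} * J ^ n := by
    rw [← hJn]; exact Ideal.mem_span_singleton_self _
  obtain ⟨f, -, hf⟩ := Ideal.mem_span_singleton_mul.mp hmem
  have hb'n : b' ^ n ≠ 0 := pow_ne_zero n hb'
  have hf0 : f ≠ 0 := by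
    rintro rfl
    rw [mul_zero] at hf
    exact mul_ne_zero (pow_ne_zero n ha') hf₁0 hf.symm
  have hfJ : Ideal.span {f} = J ^ n := by
    have h1 : Ideal.span {b' ^ n} * Ideal.span {f} = Ideal.span {b' ^ n} * J ^ n := by
      rw [Ideal.span_singleton_mul_span_singleton, hf, hJn]
    exact mul_left_cancel₀ (by rwa [Ne, Ideal.zero_eq_bot, Ideal.span_singleton_eq_bot]) h1
  have hdf : D.d f = n * D.codim J := by
    rw [← D.codim_span_singleton hκ hf0, hfJ, D.codim_pow hκ hJ0]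
  refine ⟨f, ⟨hf0, ?_, D.witness_of_pow hκ hκ1 hn hf0 hfJ hcod le_rfl⟩, ?_⟩
  · rw [hdf]; exact Nat.mul_le_mul_left n hcod
  · -- the divisor
    set z : F := algebraMap A F b * (algebraMap A F a' / algebraMap A F b') with hz
    have ha'F := hinj a' ha'
    have hb'F := hinj b' hb'
    have hz0 : z ≠ 0 := mul_ne_zero hbF (div_ne_zero ha'F hb'F)
    obtain ⟨E₂, hE₂, hE₂deg⟩ := hpd.exists_divisor z hz0
    refine ⟨E + ⟨E₂, Divisor.mem_degZero.mpr hE₂deg⟩, ?_, fun v => ?_⟩
    · show _ = Pic0.mk E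
      rw [mk_eq_mk_iff]
      exact ⟨z, hz0, fun v => by
        rw [AddSubgroup.coe_add, Finsupp.add_apply, ← hE₂ v]⟩
    · rw [AddSubgroup.coe_add, Finsupp.add_apply]
      show (n : ℤ) * ((E : Divisor K F) v + E₂ v) = _
      rw [hE₂ v]
      have h1 : v.ord (algebraMap A F (b' ^ n * f)) = v.ord (algebraMap A F (a' ^ n * f₁)) := by
        rw [hf]
      have hordz : v.ord z = v.ord (algebraMap A F b) + (v.ord (algebraMap A F a') -
          v.ord (algebraMap A F b')) := by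
        rw [hz, v.ord_mul hbF (div_ne_zero ha'F hb'F), div_eq_mul_inv,
          v.ord_mul ha'F (inv_ne_zero hb'F), v.ord_inv]
        ring
      rw [map_mul, map_mul, map_pow, map_pow, v.ord_mul (pow_ne_zero n hb'F) (hinj f hf0),
        v.ord_mul (pow_ne_zero n ha'F) (hinj f₁ hf₁0), FF.ord_pow, FF.ord_pow, hord₁] at h1
      rw [hordz]
      linear_combination (-1 : ℤ) * h1

lemma rel_eq_iff (hκ : D.IsConductor κ) {n : ℕ}
    (hn : 1 ≤ n) {f f' : A} {x x' : Pic0.torsion K F n} (hf : D.Rep κ n f) (hf' : D.Rep κ n f')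
    (h : D.Rel F n f x) (h' : D.Rel F n f' x') :
    x = x' ↔ D.PowEquiv n (3 * D.gap κ) f f' := by
  obtain ⟨hf0, hfd, hfw⟩ := hf
  obtain ⟨hf0', hfd', hfw'⟩ := hf'
  obtain ⟨I, hI0, hI⟩ := D.exists_pow_of_witness hf0 hfw
  obtain ⟨I', hI0', hI'⟩ := D.exists_pow_of_witness hf0' hfw'
  obtain ⟨E, hEx, hE⟩ := h
  obtain ⟨E', hEx', hE'⟩ := h'
  have hinj : ∀ z : A, z ≠ 0 → algebraMap A F z ≠ 0 := fun z hz => by
    rwa [Ne, FaithfulSMul.algebraMap_eq_zero_iff]
  have hn0 : (n : ℤ) ≠ 0 := by exact_mod_cast (by omega : n ≠ 0)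
  rw [← Subtype.coe_inj, ← hEx, ← hEx', mk_eq_mk_iff]
  constructor
  · rintro ⟨y, hy0, hy⟩
    apply D.powEquiv_of_eq hκ hn hf0 hf0' hI le_rfl hfd hfd' _ ⟨I', hI'⟩
    -- `f = c f' y ^ n`
    obtain ⟨c, hc0, hc⟩ := D.exists_const hκ (F := F)
      (u := algebraMap A F f / (algebraMap A F f' * y ^ n))
      (div_ne_zero (hinj f hf0) (mul_ne_zero (hinj f' hf0') (pow_ne_zero n hy0)))
      (by
        intro v
        rw [div_eq_mul_inv, v.ord_mul (hinj f hf0)
          (inv_ne_zero (mul_ne_zero (hinj f' hf0') (pow_ne_zero n hy0))), v.ord_inv,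
          v.ord_mul (hinj f' hf0') (pow_ne_zero n hy0), FF.ord_pow, ← hE v, ← hE' v, hy v]
        apply le_of_eq
        ring)
    obtain ⟨e, he⟩ := IsAlgClosed.exists_pow_nat_eq c (n := n) (by omega)
    have he0 : e ≠ 0 := by
      rintro rfl
      rw [zero_pow (by omega)] at he
      exact hc0 he.symm
    have heF : algebraMap K F e ≠ 0 := (map_ne_zero _).mpr he0
    obtain ⟨h', h, hh, hy'⟩ := IsFractionRing.div_surjective (A := A) (algebraMap K F e * y)
    have hh0 : h ≠ 0 := nonZeroDivisors.ne_zero hh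
    have hh'0 : h' ≠ 0 := by
      rintro rfl
      rw [map_zero, zero_div] at hy'
      exact mul_ne_zero heF hy0 hy'.symm
    refine ⟨h, h', hh0, hh'0, ?_⟩
    apply IsFractionRing.injective A F
    rw [map_mul, map_mul, map_pow, map_pow]
    have h1 : algebraMap A F f = algebraMap K F c * (algebraMap A F f' * y ^ n) := by
      rw [← hc, div_mul_cancel₀ _ (mul_ne_zero (hinj f' hf0') (pow_ne_zero n hy0))]
    have h2 : algebraMap A F h' = algebraMap K F e * y * algebraMap A F h := by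
      rw [← hy', div_mul_cancel₀ _ (hinj h hh0)]
    rw [h1, h2, ← he, map_pow]
    ring
  · rintro ⟨h, h', hh0, hh'0, -, -, heq⟩
    refine ⟨algebraMap A F h' / algebraMap A F h, div_ne_zero (hinj _ hh'0) (hinj _ hh0),
      fun v => ?_⟩
    have h1 : v.ord (algebraMap A F (f * h ^ n)) = v.ord (algebraMap A F (f' * h' ^ n)) := by
      rw [heq]
    rw [map_mul, map_mul, map_pow, map_pow, v.ord_mul (hinj f hf0) (pow_ne_zero n (hinj h hh0)),
      v.ord_mul (hinj f' hf0') (pow_ne_zero n (hinj h' hh'0)), FF.ord_pow, FF.ord_pow,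
      ← hE v, ← hE' v] at h1
    rw [div_eq_mul_inv, v.ord_mul (hinj _ hh'0) (inv_ne_zero (hinj _ hh0)), v.ord_inv]
    apply mul_left_cancel₀ hn0
    linear_combination h1

/-- The cardinality of the torsion in terms of elements of bounded degree. -/
theorem card_torsion_eq_iff (hκ : D.IsConductor κ) (hκ1 : 1 ≤ κ)
    (hdeg : ∀ v : Place K F, v.deg = 1) {n : ℕ} (hn : 1 ≤ n) {N : ℕ} (hN : 0 < N) :
    Nat.card (Pic0.torsion K F n) = N ↔ ∃ φ : Fin N → A, (∀ i, D.Rep κ n (φ i)) ∧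
      (∀ i j, i ≠ j → ¬ D.PowEquiv n (3 * D.gap κ) (φ i) (φ j)) ∧
      (∀ f, D.Rep κ n f → ∃ i, D.PowEquiv n (3 * D.gap κ) f (φ i)) :=
  card_eq_iff (D.Rep κ n) (D.PowEquiv n (3 * D.gap κ)) (D.Rel F n)
    (fun _ hf => D.rel_of_rep hκ hdeg hn hf) (fun x => D.exists_rep hκ hκ1 hn x)
    (fun _ _ _ _ hf hf' h h' => D.rel_eq_iff hκ hn hf hf' h h') hN

end

end DegreeFn

end Fermat.Agent.S27D
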