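import Mathlib
import Fermat.Agent.S27D.Formula
import Fermat.Agent.S27D.Pic
import Fermat.Agent.S27D.Genus

/-!
# The first-order counting formula
-/

open Polynomial AlgebraicCurve

namespace Fermat.Agent.S27D

open Fermat.Agent.FO

universe u

section raw

variable {K : Type*} [Field K] {m : ℕ} [NeZero m]

/-- Raw version of `PowWitness`. -/
def PWR (q : Fin m → ℕ) (T : Fin m → Fin m → Fin m → K[X]) (n R : ℕ) (f : Fin m → K[X]) : Prop :=
  ∃ z : Fin 6 → Fin m → K[X], (∀ s, dg q (z s) ≤ R) ∧ tpow T (z 0) n = tmul T f (z 2) ∧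
    tpow T (z 1) n = tmul T f (z 3) ∧ tmul T (z 4) (z 2) + tmul T (z 5) (z 3) = tone m K[X]

/-- Raw version of `Rep`. -/
def RepR (q : Fin m → ℕ) (T : Fin m → Fin m → Fin m → K[X]) (n : ℕ) (f : Fin m → K[X]) : Prop :=
  f ≠ 0 ∧ dg q f ≤ n * gapN q ∧ PWR q T n (DegreeFn.bound (cond q) (gapN q) n) f

/-- Raw version of `PowEquiv`. -/
def EquR (q : Fin m → ℕ) (T : Fin m → Fin m → Fin m → K[X]) (n : ℕ) (f f' : Fin m → K[X]) : Prop :=
  ∃ z : Fin 2 → Fin m → K[X], (∀ s, dg q (z s) ≤ 3 * gapN q) ∧ z 0 ≠ 0 ∧ z 1 ≠ 0 ∧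
    tmul T f (tpow T (z 0) n) = tmul T f' (tpow T (z 1) n)

/-- The counting formula. -/
def CountR (q : Fin m → ℕ) (T : Fin m → Fin m → Fin m → K[X]) (n N : ℕ) : Prop :=
  ∃ φ : Fin N → Fin m → K[X], (∀ s, dg q (φ s) ≤ n * gapN q) ∧ (∀ s, RepR q T n (φ s)) ∧
    (∀ i j, i ≠ j → ¬ EquR q T n (φ i) (φ j)) ∧
    ∀ f : Fin 1 → Fin m → K[X], (∀ s, dg q (f s) ≤ n * gapN q) → RepR q T n (f 0) →
      ∃ i, EquR q T n (f 0) (φ i)

variable {q : Fin m → ℕ} {T : Fin m → Fin m → Fin m → K[X]}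

lemma pwr_iff (h : IsTable T) (hT : IsDeg q T) (hq : q 0 = 0) {n R : ℕ} {f : Fin m → K[X]} :
    PWR q T n R f ↔ (dgFn h hT hq).PowWitness n R (SC.mk h f) := by
  constructor
  · rintro ⟨z, hz, h1, h2, h3⟩
    exact ⟨SC.mk h (z 0), SC.mk h (z 1), SC.mk h (z 2), SC.mk h (z 3), SC.mk h (z 4), SC.mk h (z 5),
      hz 0, hz 1, hz 2, hz 3, hz 4, hz 5, (SC.pow_def _ _).trans h1, (SC.pow_def _ _).trans h2, h3⟩
  · rintro ⟨a, b, u, v, s, t, ha, hb, hu, hv, hs, ht, h1, h2, h3⟩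
    refine ⟨![a, b, u, v, s, t], ?_, ?_, ?_, h3⟩
    · intro i
      fin_cases i
      · exact ha
      · exact hb
      · exact hu
      · exact hv
      · exact hs
      · exact ht
    · exact (SC.pow_def a n).symm.trans h1
    · exact (SC.pow_def b n).symm.trans h2

lemma repR_iff (h : IsTable T) (hT : IsDeg q T) (hq : q 0 = 0) {n : ℕ} {f : Fin m → K[X]} :
    RepR q T n f ↔ (dgFn h hT hq).Rep (cond q) n (SC.mk h f) := by
  unfold RepR DegreeFn.Rep
  rw [gap_eq, ← pwr_iff]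
  rfl

lemma equR_iff (h : IsTable T) (hT : IsDeg q T) (hq : q 0 = 0) {n : ℕ} {f f' : Fin m → K[X]} :
    EquR q T n f f' ↔ (dgFn h hT hq).PowEquiv n (3 * gapN q) (SC.mk h f) (SC.mk h f') := by
  constructor
  · rintro ⟨z, hz, h0, h1, h2⟩
    refine ⟨SC.mk h (z 0), SC.mk h (z 1), h0, h1, hz 0, hz 1, ?_⟩
    rw [SC.pow_def, SC.pow_def]
    exact h2
  · rintro ⟨a, b, ha0, hb0, ha, hb, hab⟩
    rw [SC.pow_def, SC.pow_def] at hab
    refine ⟨![a, b], ?_, ha0, hb0, hab⟩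
    intro i
    fin_cases i
    · exact ha
    · exact hb

/-- The counting formula counts torsion points. -/
theorem countR_iff [IsAlgClosed K] (h : IsTable T) (hT : IsDeg q T) (hq : q 0 = 0)
    [IsDedekindDomain (SC T h)] {F : Type*} [Field F] [Algebra K F] [Algebra (SC T h) F]
    [IsFractionRing (SC T h) F] [IsScalarTower K (SC T h) F] {n : ℕ} (hn : 1 ≤ n) {N : ℕ}
    (hN : 0 < N) : CountR q T n N ↔ Nat.card (Pic0.torsion K F n) = N := by
  set D := dgFn h hT hq with hD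
  have hκ : D.IsConductor (cond q) := isConductor_cond h hT hq
  have := D.hasPrincipalDivisors (F := F) hκ
  rw [D.card_torsion_eq_iff (F := F) hκ (one_le_cond q) (D.deg_eq_one hκ) hn hN]
  have hgap : D.gap (cond q) = gapN q := gap_eq h hT hq
  have hrep : ∀ f : SC T h, D.Rep (cond q) n f ↔ RepR q T n f := fun f => (repR_iff h hT hq).symm
  have hequ : ∀ f f' : SC T h, D.PowEquiv n (3 * D.gap (cond q)) f f' ↔ EquR q T n f f' := by
    intro f f'
    rw [hgap]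
    exact (equR_iff h hT hq).symm
  simp only [hrep, hequ]
  constructor
  · rintro ⟨φ, -, h1, h2, h3⟩
    exact ⟨φ, h1, h2, fun f hf => h3 (fun _ => f) (fun _ => hf.2.1) hf⟩
  · rintro ⟨φ, h1, h2, h3⟩
    exact ⟨φ, fun s => (h1 s).2.1, h1, h2, fun f _ hf => h3 (f 0) hf⟩

end raw

section fo

variable {α : Type} {m : ℕ} [NeZero m]
  {T : ∀ (K : Type u) [Field K], (α → K) → (Fin m → Fin m → Fin m → K[X])}
  {a b : ∀ (K : Type u) [Field K], (α → K) → (Fin m → K[X])}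

lemma IsFO.pwr (hT : IsUTab T) (ha : IsUVec a) (q : Fin m → ℕ) (n R : ℕ) :
    IsFO (fun K _ v => PWR q (T K v) n R (a K v)) := by
  refine IsFO.ex_vec (ρ := Fin 6) q R (Q := fun K _ v z =>
    tpow (T K v) (z 0) n = tmul (T K v) (a K v) (z 2) ∧
    tpow (T K v) (z 1) n = tmul (T K v) (a K v) (z 3) ∧
    tmul (T K v) (z 4) (z 2) + tmul (T K v) (z 5) (z 3) = tone m K[X]) ?_
  have hz := IsUVec.elv (α := α ⊕ (Fin 6 × Fin m × Fin (R + 1)))
    (w := fun K _ v x => v (Sum.inr x)) (fun x => IsPolyFun.var _)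
  have hT' := hT.comp (Sum.inl (β := (Fin 6 × Fin m × Fin (R + 1))))
  have ha' := ha.comp (Sum.inl (β := (Fin 6 × Fin m × Fin (R + 1))))
  exact (((hz 0).tpow hT' n).eq (ha'.tmul hT' (hz 2))).and
    ((((hz 1).tpow hT' n).eq (ha'.tmul hT' (hz 3))).and
    ((((hz 4).tmul hT' (hz 2)).add ((hz 5).tmul hT' (hz 3))).eq IsUVec.tone))

lemma IsFO.repR (hT : IsUTab T) (ha : IsUVec a) (q : Fin m → ℕ) (n : ℕ) :
    IsFO (fun K _ v => RepR q (T K v) n (a K v)) :=
  (ha.ne IsUVec.zero).and ((ha.dg_le q _).and (IsFO.pwr hT ha q n _))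

lemma IsFO.equR (hT : IsUTab T) (ha : IsUVec a) (hb : IsUVec b) (q : Fin m → ℕ) (n : ℕ) :
    IsFO (fun K _ v => EquR q (T K v) n (a K v) (b K v)) := by
  refine IsFO.ex_vec (ρ := Fin 2) q (3 * gapN q) (Q := fun K _ v z => z 0 ≠ 0 ∧ z 1 ≠ 0 ∧
    tmul (T K v) (a K v) (tpow (T K v) (z 0) n) = tmul (T K v) (b K v) (tpow (T K v) (z 1) n)) ?_
  have hz := IsUVec.elv (α := α ⊕ (Fin 2 × Fin m × Fin (3 * gapN q + 1)))
    (w := fun K _ v x => v (Sum.inr x)) (fun x => IsPolyFun.var _)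
  have hT' := hT.comp (Sum.inl (β := (Fin 2 × Fin m × Fin (3 * gapN q + 1))))
  have ha' := ha.comp (Sum.inl (β := (Fin 2 × Fin m × Fin (3 * gapN q + 1))))
  have hb' := hb.comp (Sum.inl (β := (Fin 2 × Fin m × Fin (3 * gapN q + 1))))
  exact ((hz 0).ne IsUVec.zero).and (((hz 1).ne IsUVec.zero).and
    ((ha'.tmul hT' ((hz 0).tpow hT' n)).eq (hb'.tmul hT' ((hz 1).tpow hT' n))))

theorem IsFO.countR (hT : IsUTab T) (q : Fin m → ℕ) (n N : ℕ) :
    IsFO (fun K _ v => CountR q (T K v) n N) := by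
  refine IsFO.ex_vec (ρ := Fin N) q (n * gapN q) (Q := fun K _ v φ =>
    (∀ s, RepR q (T K v) n (φ s)) ∧
    (∀ i j, i ≠ j → ¬ EquR q (T K v) n (φ i) (φ j)) ∧
    ∀ f : Fin 1 → Fin m → K[X], (∀ s, dg q (f s) ≤ n * gapN q) → RepR q (T K v) n (f 0) →
      ∃ i, EquR q (T K v) n (f 0) (φ i)) ?_
  have hz := IsUVec.elv (α := α ⊕ (Fin N × Fin m × Fin (n * gapN q + 1)))
    (w := fun K _ v x => v (Sum.inr x)) (fun x => IsPolyFun.var _)
  have hT' := hT.comp (Sum.inl (β := (Fin N × Fin m × Fin (n * gapN q + 1))))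
  refine IsFO.and ?_ (IsFO.and ?_ ?_)
  · exact IsFO.forall_finite (P := fun s K _ v => RepR q (T K fun a => v (Sum.inl a)) n
      (elv (fun x => v (Sum.inr x)) s)) fun s => IsFO.repR hT' (hz s) q n
  · exact IsFO.forall_finite (P := fun i K _ v => ∀ j, i ≠ j →
      ¬ EquR q (T K fun a => v (Sum.inl a)) n (elv (fun x => v (Sum.inr x)) i)
        (elv (fun x => v (Sum.inr x)) j)) fun i =>
      IsFO.forall_finite (P := fun j K _ v => i ≠ j →
      ¬ EquR q (T K fun a => v (Sum.inl a)) n (elv (fun x => v (Sum.inr x)) i)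
        (elv (fun x => v (Sum.inr x)) j)) fun j =>
        (IsFO.const _).imp (IsFO.equR hT' (hz i) (hz j) q n).not
  · refine IsFO.all_vec (ρ := Fin 1) q (n * gapN q) (Q := fun K _ v f =>
      RepR q (T K fun a => v (Sum.inl a)) n (f 0) →
      ∃ i, EquR q (T K fun a => v (Sum.inl a)) n (f 0) (elv (fun x => v (Sum.inr x)) i)) ?_
    have hz2 := IsUVec.elv
      (α := (α ⊕ (Fin N × Fin m × Fin (n * gapN q + 1))) ⊕ (Fin 1 × Fin m × Fin (n * gapN q + 1)))
      (w := fun K _ v x => v (Sum.inr x)) (fun x => IsPolyFun.var _)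
    have hT2 := hT'.comp (Sum.inl (β := (Fin 1 × Fin m × Fin (n * gapN q + 1))))
    have hz' := fun s => (hz s).comp (Sum.inl (β := (Fin 1 × Fin m × Fin (n * gapN q + 1))))
    refine (IsFO.repR hT2 (hz2 0) q n).imp ?_
    exact IsFO.exists_finite (P := fun i K _
      (v : (α ⊕ (Fin N × Fin m × Fin (n * gapN q + 1))) ⊕
        (Fin 1 × Fin m × Fin (n * gapN q + 1)) → K) =>
      EquR q (T K fun a => v (Sum.inl (Sum.inl a))) n
        (elv (fun x => v (Sum.inr x)) 0) (elv (fun x => v (Sum.inl (Sum.inr x))) i))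
        fun i => IsFO.equR hT2 (hz2 0) (hz' i) q n

end fo

/-! ### The valid parameters -/

section valid

/-- The table with given coefficients. -/
noncomputable def tab {K : Type*} [Field K] {m B : ℕ} (v : Fin m × Fin m × Fin m × Fin B → K) :
    Fin m → Fin m → Fin m → K[X] :=
  fun i j k => ∑ r : Fin B, C (v (i, j, k, r)) * X ^ (r : ℕ)

lemma isUTab_tab {m B : ℕ} :
    IsUTab.{u} (α := Fin m × Fin m × Fin m × Fin B) (fun _ _ v => tab v) := fun i j k =>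
  IsUPoly.ofCoeffs B (w := fun r K _ v => v (i, j, k, r)) fun r => IsPolyFun.var _

/-- The valid parameters. -/
def Valid {K : Type*} [Field K] {m : ℕ} [NeZero m] (q : Fin m → ℕ)
    (T : Fin m → Fin m → Fin m → K[X]) : Prop :=
  IsTable T ∧ IsDeg q T ∧
    ∀ x₀ ε, IsPoint T x₀ ε → SmoothAt q T (sbound (cond q) (gapN q)) x₀ ε

/-- The transfer statement. -/
def Stmt (m B : ℕ) [NeZero m] (q : Fin m → ℕ) (n N : ℕ) (K : Type u) [Field K]
    (v : Fin m × Fin m × Fin m × Fin B → K) : Prop :=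
  Valid q (tab v) → CountR q (tab v) n N

theorem isFO_stmt (m B : ℕ) [NeZero m] (q : Fin m → ℕ) (n N : ℕ) :
    IsFO.{u} (fun K _ v => Stmt m B q n N K v) :=
  ((IsFO.isTable isUTab_tab).and ((IsFO.isDeg isUTab_tab q).and
    (IsFO.smooth isUTab_tab q _))).imp (IsFO.countR isUTab_tab q n N)

end valid

end Fermat.Agent.S27D
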