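import Mathlib
import Fermat.Agent.S27D.Genus

/-!
# An affine model of a function field with one place at infinity
-/

open Module AlgebraicCurve WithZero IntermediateField

set_option autoImplicit false

namespace Fermat.Agent.S27D

open DegreeFn (Good)

section general

variable {K F A : Type*} [Field K] [IsAlgClosed K] [Field F] [Algebra K F]
  [RR.FunctionField K F] [CommRing A] [IsDedekindDomain A] [Algebra K A] [Algebra A F] [IsFractionRing A F]
  [IsScalarTower K A F]

lemma ord_nonpos_of_good {P₀ : Place K F} (hgood : ∀ v : Place K F, v ≠ P₀ → Good A v)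
    {a : A} (ha : a ≠ 0) : P₀.ord (algebraMap A F a) ≤ 0 := by
  classical
  have haF : algebraMap A F a ≠ 0 := by
    rwa [Ne, FaithfulSMul.algebraMap_eq_zero_iff]
  by_contra! hcon
  have h1 : algebraMap A F a ∈ riemannRochSpace (-Finsupp.single P₀ 1 : Divisor K F) := by
    rw [mem_riemannRochSpace_iff]
    intro v
    right
    rw [Finsupp.neg_apply, neg_neg]
    by_cases hv : v = P₀
    · rw [hv, Finsupp.single_eq_same]; exact hcon
    · rw [Finsupp.single_eq_of_ne hv]
      exact FF.ord_nonneg_of_mem v (hgood v hv a)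
  have h2 := RR.degree_nonneg_of_mem h1 haF
  rw [map_neg, RR.degree_single_one] at h2
  omega

/-- The degree function attached to a place. -/
noncomputable def placeDeg {P₀ : Place K F} (hgood : ∀ v : Place K F, v ≠ P₀ → Good A v) :
    DegreeFn K A where
  d a := (-(P₀.ord (algebraMap A F a))).toNat
  d_mul a b ha hb := by
    have haF : algebraMap A F a ≠ 0 := by rwa [Ne, FaithfulSMul.algebraMap_eq_zero_iff]
    have hbF : algebraMap A F b ≠ 0 := by rwa [Ne, FaithfulSMul.algebraMap_eq_zero_iff]
    have h1 := ord_nonpos_of_good hgood ha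
    have h2 := ord_nonpos_of_good hgood hb
    rw [map_mul, P₀.ord_mul haF hbF]
    omega
  d_add a b := by
    by_cases hab : algebraMap A F a + algebraMap A F b = 0
    · rw [map_add, hab]; simp
    rw [map_add]
    rcases le_total (P₀.ord (algebraMap A F a)) (P₀.ord (algebraMap A F b)) with hle | hle
    · have := FF.ord_add_ge P₀ hab (Or.inr le_rfl) (Or.inr hle)
      omega
    · have := FF.ord_add_ge P₀ hab (Or.inr hle) (Or.inr le_rfl)
      omega
  d_algebraMap c := by
    rw [← IsScalarTower.algebraMap_apply, FF.ord_algebraMap]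
    simp
  lead a b ha hb hab := by
    have haF : algebraMap A F a ≠ 0 := by rwa [Ne, FaithfulSMul.algebraMap_eq_zero_iff]
    have hbF : algebraMap A F b ≠ 0 := by rwa [Ne, FaithfulSMul.algebraMap_eq_zero_iff]
    have h1 := ord_nonpos_of_good hgood ha
    have h2 := ord_nonpos_of_good hgood hb
    have h3 : P₀.ord (algebraMap A F a) = P₀.ord (algebraMap A F b) := by omega
    set u := algebraMap A F a / algebraMap A F b with hu
    have hu0 : u ≠ 0 := div_ne_zero haF hbF
    have hordu : P₀.ord u = 0 := by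
      rw [hu, div_eq_mul_inv, P₀.ord_mul haF (inv_ne_zero hbF), P₀.ord_inv]
      omega
    obtain ⟨c, hc⟩ := RR.exists_const_of_mem P₀ ((FF.mem_iff_ord P₀ hu0).mpr hordu.ge)
    refine ⟨c, ?_⟩
    by_cases h4 : a = c • b
    · exact Or.inl h4
    right
    have h5 : algebraMap A F (a - c • b) = (u - algebraMap K F c) * algebraMap A F b := by
      rw [map_sub, Algebra.smul_def, map_mul, ← IsScalarTower.algebraMap_apply, sub_mul, hu,
        div_mul_cancel₀ _ hbF]
    have h6 : algebraMap A F (a - c • b) ≠ 0 := by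
      rw [Ne, FaithfulSMul.algebraMap_eq_zero_iff, sub_eq_zero]
      exact h4
    have h7 : u - algebraMap K F c ≠ 0 := left_ne_zero_of_mul (h5 ▸ h6)
    have h8 : 0 < P₀.ord (u - algebraMap K F c) := hc.resolve_left h7
    have h9 := ord_nonpos_of_good hgood (sub_ne_zero.mpr h4)
    rw [h5, P₀.ord_mul h7 hbF] at h9 ⊢
    omega

lemma placeDeg_ord {P₀ : Place K F} (hgood : ∀ v : Place K F, v ≠ P₀ → Good A v) {a : A}
    (ha : a ≠ 0) : P₀.ord (algebraMap A F a) = -((placeDeg hgood).d a : ℤ) := by
  have := ord_nonpos_of_good hgood ha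
  show _ = -(((-(P₀.ord (algebraMap A F a))).toNat : ℕ) : ℤ)
  omega

lemma exists_conductor {P₀ : Place K F}
    (hgood : ∀ v : Place K F, v ≠ P₀ → Good A v) (hbad : ¬ Good A P₀) :
    ∃ κ, (placeDeg hgood).IsConductor κ := by
  classical
  obtain ⟨n₀, hn₀⟩ := exists_finrank_single P₀
  refine ⟨n₀ + 1, fun n hn => ?_⟩
  set D := placeDeg hgood with hD
  have h1 := hn₀ n (by omega)
  have h2 := hn₀ (n - 1) (by omega)
  rw [D.finrank_riemannRochSpace_single P₀ (fun a ha => placeDeg_ord hgood ha) hbad hgood] at h1 h2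
  rw [Nat.sub_add_cancel (by omega)] at h2
  have h3 := (D.finrank_succ ⊤ n).2
  rw [top_inf_eq, top_inf_eq] at h3
  by_contra hcon
  rw [if_neg hcon] at h3
  omega

end general

/-- A non-constant function with poles only at a given place. -/
lemma exists_pole {K F : Type*} [Field K] [IsAlgClosed K] [Field F] [Algebra K F]
    [RR.FunctionField K F] (P₀ : Place K F) :
    ∃ x : F, P₀.ord x < 0 ∧ ∀ v : Place K F, v ≠ P₀ → x ∈ v.toValuationSubring := by
  classical
  obtain ⟨n₀, hn₀⟩ := exists_finrank_single P₀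
  have h1 := hn₀ (n₀ + genusFF K F + 1) (by omega)
  have h2 : 2 ≤ finrank K (riemannRochSpace
      (Finsupp.single P₀ ((n₀ + genusFF K F + 1 : ℕ) : ℤ))) := by omega
  obtain ⟨x, hx, hx0⟩ : ∃ x ∈ riemannRochSpace (Finsupp.single P₀ ((n₀ + genusFF K F + 1 : ℕ) : ℤ)),
      x ∉ riemannRochSpace (0 : Divisor K F) := by
    by_contra! hcon
    have h3 : riemannRochSpace (Finsupp.single P₀ ((n₀ + genusFF K F + 1 : ℕ) : ℤ)) ≤
      riemannRochSpace (0 : Divisor K F) := hcon
    have h4 := Submodule.finrank_mono h3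
    rw [RR.finrank_riemannRochSpace_zero] at h4
    omega
  have hxne : x ≠ 0 := by rintro rfl; exact hx0 (zero_mem _)
  have hx' : ∀ v : Place K F, v ≠ P₀ → 0 ≤ v.ord x := by
    intro v hv
    have h3 := (mem_riemannRochSpace_iff.mp hx v).resolve_left hxne
    rwa [Finsupp.single_eq_of_ne hv, neg_zero] at h3
  refine ⟨x, ?_, fun v hv => (FF.mem_iff_ord v hxne).mpr (hx' v hv)⟩
  by_contra! hcon
  apply hx0
  rw [mem_riemannRochSpace_iff]
  intro v
  right
  rw [Finsupp.zero_apply, neg_zero]
  by_cases hv : v = P₀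
  · rw [hv]; exact hcon
  · exact hx' v hv

open IntermediateField.algebraAdjoinAdjoin in
/-- Existence of an affine model with one place at infinity. -/
theorem exists_affine (K : Type*) (F : Type*) [Field K] [IsAlgClosed K] [CharZero K] [Field F]
    [Algebra K F] [RR.FunctionField K F] :
    ∃ (x : F) (κ : ℕ) (_ : IsDedekindDomain (integralClosure (Algebra.adjoin K {x}) F))
      (_ : IsFractionRing (integralClosure (Algebra.adjoin K {x}) F) F)
      (D : DegreeFn K (integralClosure (Algebra.adjoin K {x}) F)), D.IsConductor κ := by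
  obtain ⟨P₀⟩ := RR.FunctionField.nonempty_place (K := K) (F := F)
  obtain ⟨x, hx0, hx⟩ := exists_pole P₀
  have hFF : FF.IsFF1 K F := ⟨RR.FunctionField.exists_finite⟩
  have htr : Transcendental K x := FF.transcendental_of_ord_ne_zero (v := P₀) hx0.ne
  have hfin : FiniteDimensional K⟮x⟯ F := FF.IsFF1.finiteDimensional_adjoin htr
  have hpid : IsPrincipalIdealRing (Algebra.adjoin K {x}) := FF.adjoin_isPrincipalIdealRing htr
  have h1 : IsDedekindDomain (integralClosure (Algebra.adjoin K {x}) F) :=
    integralClosure.isDedekindDomain _ K⟮x⟯ F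
  have h2 : IsFractionRing (integralClosure (Algebra.adjoin K {x}) F) F :=
    integralClosure.isFractionRing_of_finite_extension K⟮x⟯ F
  have hgood : ∀ v : Place K F, v ≠ P₀ → Good (integralClosure (Algebra.adjoin K {x}) F) v := by
    intro v hv
    apply FF.integralClosure_le_of_le
    rintro ⟨r, hr⟩
    show r ∈ v.toValuationSubring
    induction hr using Algebra.adjoin_induction with
    | mem y hy => rw [Set.mem_singleton_iff.mp hy]; exact hx v hv
    | algebraMap c => exact v.algebraMap_mem' c
    | add y z _ _ hy hz => exact add_mem hy hz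
    | mul y z _ _ hy hz => exact mul_mem hy hz
  have hbad : ¬ Good (integralClosure (Algebra.adjoin K {x}) F) P₀ := by
    intro h
    have h3 := h (algebraMap (Algebra.adjoin K {x}) _ ⟨x, Algebra.subset_adjoin rfl⟩)
    have h4 : x ∈ P₀.toValuationSubring := h3
    exact (FF.not_mem_iff_ord P₀).mpr hx0 h4
  obtain ⟨κ, hκ⟩ := exists_conductor hgood hbad
  exact ⟨x, κ, h1, h2, _, hκ⟩

end Fermat.Agent.S27D
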