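import Mathlib
import Fermat.Agent.S27D.TDeg

/-!
# Every algebra with a degree function has a model given by structure constants
-/

open Polynomial

namespace Fermat.Agent.S27D

section tmul

variable {R : Type*} [CommRing R] {m : ℕ} {T : Fin m → Fin m → Fin m → R}

lemma tmul_single_apply (a : Fin m → R) (k r : Fin m) :
    tmul T a (Pi.single k 1) r = ∑ l, a l * T l k r := by
  simp only [tmul]
  refine Finset.sum_congr rfl fun l _ => ?_
  rw [Finset.sum_eq_single k]
  · simp
  · intro b _ hb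
    simp [hb]
  · simp

lemma single_tmul_apply (b : Fin m → R) (i r : Fin m) :
    tmul T (Pi.single i 1) b r = ∑ l, b l * T i l r := by
  simp only [tmul]
  rw [Finset.sum_eq_single i]
  · simp
  · intro b _ hb
    simp [hb]
  · simp

end tmul

namespace DegreeFn

variable {K A : Type*} [Field K] [CommRing A] [IsDomain A] [Algebra K A] (D : DegreeFn K A)
  {κ m : ℕ}

/-- The map from vectors to the algebra. -/
noncomputable def evalMap (x : A) (e : Fin m → A) : (Fin m → K[X]) →ₗ[K] A where
  toFun p := ∑ i, aeval x (p i) * e i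
  map_add' p p' := by simp only [Pi.add_apply, map_add, add_mul, Finset.sum_add_distrib]
  map_smul' c p := by
    simp only [Pi.smul_apply, map_smul, smul_mul_assoc, Finset.smul_sum, RingHom.id_apply]

omit [IsDomain A] in
lemma evalMap_apply (x : A) (e : Fin m → A) (p : Fin m → K[X]) :
    evalMap x e p = ∑ i, aeval x (p i) * e i := rfl

omit [IsDomain A] in
lemma evalMap_single (x : A) (e : Fin m → A) (i : Fin m) (p : K[X]) :
    evalMap x e (Pi.single i p) = aeval x p * e i := by
  rw [evalMap_apply, Finset.sum_eq_single i]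
  · rw [Pi.single_eq_same]
  · intro j _ hj
    rw [Pi.single_eq_of_ne hj, map_zero, zero_mul]
  · simp

omit [IsDomain A] in
lemma evalMap_smul (x : A) (e : Fin m → A) (r : K[X]) (p : Fin m → K[X]) :
    evalMap x e (r • p) = aeval x r * evalMap x e p := by
  rw [evalMap_apply, evalMap_apply, Finset.mul_sum]
  refine Finset.sum_congr rfl fun i _ => ?_
  rw [Pi.smul_apply, smul_eq_mul, map_mul, mul_assoc]

variable {x : A} {e : Fin m → A} {q : Fin m → ℕ}

lemma d_term (hx0 : x ≠ 0) (hx : D.d x = m) (he0 : ∀ i, e i ≠ 0) (he : ∀ i, D.d (e i) = pos q i 0)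
    (i : Fin m) (r : ℕ) : x ^ r * e i ≠ 0 ∧ D.d (x ^ r * e i) = pos q i r := by
  refine ⟨mul_ne_zero (pow_ne_zero r hx0) (he0 i), ?_⟩
  rw [D.d_mul _ _ (pow_ne_zero r hx0) (he0 i), D.d_pow hx0, hx, he]
  unfold pos
  ring

lemma d_evalMap (hx0 : x ≠ 0) (hx : D.d x = m) (he0 : ∀ i, e i ≠ 0)
    (he : ∀ i, D.d (e i) = pos q i 0) (p : Fin m → K[X]) (hp : p ≠ 0) :
    evalMap x e p ≠ 0 ∧ D.d (evalMap x e p) = dg q p := by
  induction hn : dg q p using Nat.strong_induction_on generalizing p with
  | _ n ih =>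
    obtain ⟨i, r, c, p', hc, hir, -, hpp, hp'⟩ := exists_split hp q
    obtain ⟨ht0, htd⟩ := D.d_term hx0 hx he0 he i r
    have h1 : evalMap x e (Pi.single i (monomial r c)) = c • (x ^ r * e i) := by
      rw [evalMap_single, aeval_monomial, Algebra.smul_def, mul_assoc]
    have h2 : c • (x ^ r * e i) ≠ 0 := smul_ne_zero hc ht0
    have h3 : D.d (c • (x ^ r * e i)) = n := by rw [D.d_smul hc, htd, hir, hn]
    rw [hpp, map_add, h1]
    by_cases hp0 : p' = 0
    · rw [hp0, map_zero, add_zero]
      exact ⟨h2, h3⟩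
    · have h4 := dg_lt (q := q) hp0 hp'
      rw [hn] at h4
      obtain ⟨h5, h6⟩ := ih _ h4 p' hp0 rfl
      have h7 : D.d (evalMap x e p') < D.d (c • (x ^ r * e i)) := by rw [h6, h3]; exact h4
      have h8 := D.d_add_eq_of_lt h7
      refine ⟨?_, by rw [h8, h3]⟩
      intro h9
      rw [h9, D.d_zero, h3] at h8
      omega

/-- Generators of minimal degree in each residue class. -/
lemma exists_generators (hκ : D.IsConductor κ) [NeZero m] :
    ∃ (q : Fin m → ℕ) (e : Fin m → A), q 0 = 0 ∧ e 0 = 1 ∧ (∀ i, e i ≠ 0) ∧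
      (∀ i, D.d (e i) = pos q i 0) ∧
      ∀ n ∈ D.val ⊤, ∃ i r, pos q i r = n := by
  have hm : 0 < m := Nat.pos_of_ne_zero (NeZero.ne m)
  have hex : ∀ i : Fin m, ∃ n, n ∈ D.val ⊤ ∧ n % m = i := by
    intro i
    refine ⟨m * κ + i, hκ _ ?_, ?_⟩
    · have : 1 * κ ≤ m * κ := Nat.mul_le_mul_right κ hm
      omega
    · rw [Nat.mul_add_mod, Nat.mod_eq_of_lt i.2]
  classical
  let δ : Fin m → ℕ := fun i => Nat.find (hex i)
  have hδ : ∀ i, δ i ∈ D.val ⊤ ∧ δ i % m = i := fun i => Nat.find_spec (hex i)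
  have hδmin : ∀ (i : Fin m) (n : ℕ), n ∈ D.val ⊤ → n % m = i → δ i ≤ n := fun i n h1 h2 =>
    Nat.find_min' (hex i) ⟨h1, h2⟩
  have hδ0 : δ 0 = 0 := by
    have := hδmin 0 0 ⟨1, trivial, one_ne_zero, D.d_one⟩ (by simp)
    omega
  choose e' _ he'0 he' using fun i => (hδ i).1
  have hpos : ∀ i r, pos (fun i => δ i / m) i r = m * r + δ i := by
    intro i r
    unfold pos
    have h1 := Nat.div_add_mod (δ i) m
    rw [(hδ i).2] at h1
    rw [mul_add]
    dsimp only
    omega
  refine ⟨fun i => δ i / m, Function.update e' 0 1, ?_, ?_, ?_, ?_, ?_⟩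
  · show δ 0 / m = 0
    rw [hδ0]; simp
  · simp
  · intro i
    by_cases hi : i = 0
    · rw [hi]; simp
    · rw [Function.update_of_ne hi]; exact he'0 i
  · intro i
    rw [hpos, mul_zero, zero_add]
    by_cases hi : i = 0
    · rw [hi, Function.update_self, D.d_one, hδ0]
    · rw [Function.update_of_ne hi, he' i]
  · intro n hn
    let i : Fin m := ⟨n % m, Nat.mod_lt n hm⟩
    have h1 := hδmin i n hn rfl
    refine ⟨i, (n - δ i) / m, ?_⟩
    rw [hpos]
    have h2 : m ∣ n - δ i := by
      rw [← Nat.modEq_iff_dvd' h1]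
      exact (hδ i).2
    rw [Nat.mul_div_cancel' h2]
    omega

lemma evalMap_surjective (hx0 : x ≠ 0) (hx : D.d x = m) (he0 : ∀ i, e i ≠ 0)
    (he : ∀ i, D.d (e i) = pos q i 0) (hval : ∀ n ∈ D.val ⊤, ∃ i r, pos q i r = n) :
    Function.Surjective (evalMap (K := K) x e) := by
  intro a
  induction hn : D.d a using Nat.strong_induction_on generalizing a with
  | _ n ih =>
    by_cases ha : a = 0
    · exact ⟨0, by rw [ha, map_zero]⟩
    obtain ⟨i, r, hir⟩ := hval n ⟨a, trivial, ha, hn⟩
    obtain ⟨ht0, htd⟩ := D.d_term hx0 hx he0 he i r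
    have h1 : ∀ c : K, evalMap x e (Pi.single i (monomial r c)) = c • (x ^ r * e i) := by
      intro c
      rw [evalMap_single, aeval_monomial, Algebra.smul_def, mul_assoc]
    obtain ⟨c, hc⟩ := D.lead a (x ^ r * e i) ha ht0 (by rw [htd, hir, hn])
    rcases hc with hc | hc
    · exact ⟨Pi.single i (monomial r c), by rw [h1, hc]⟩
    · obtain ⟨p, hp⟩ := ih _ (hn ▸ hc) _ rfl
      exact ⟨p + Pi.single i (monomial r c), by rw [map_add, hp, h1, sub_add_cancel]⟩

/-- Existence of a model. -/
theorem exists_model (hκ : D.IsConductor κ) :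
    ∃ (m : ℕ) (_ : NeZero m) (q : Fin m → ℕ) (T : Fin m → Fin m → Fin m → K[X]) (h : IsTable T),
      q 0 = 0 ∧ IsDeg q T ∧ Nonempty (SC T h ≃ₐ[K] A) := by
  obtain ⟨x, -, hx0, hx⟩ := hκ (κ + 1) (by omega)
  let m := κ + 1
  have hm : NeZero m := ⟨by omega⟩
  obtain ⟨q, e, hq, he1, he0, he, hval⟩ := D.exists_generators (m := m) hκ
  let Φ : (Fin m → K[X]) →ₗ[K] A := evalMap x e
  have hΦ : ∀ p, Φ p = evalMap x e p := fun p => rfl
  have hd : ∀ p, p ≠ 0 → Φ p ≠ 0 ∧ D.d (Φ p) = dg q p := D.d_evalMap hx0 hx he0 he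
  have hinj : Function.Injective Φ := by
    rw [injective_iff_map_eq_zero]
    intro p hp
    by_contra hp0
    exact (hd p hp0).1 hp
  have hsurj : Function.Surjective Φ := D.evalMap_surjective hx0 hx he0 he hval
  choose T hT using fun i j => hsurj (e i * e j)
  have hΦs : ∀ (r : K[X]) (p : Fin m → K[X]), Φ (r • p) = aeval x r * Φ p := fun r p =>
    evalMap_smul x e r p
  have hΦe : ∀ i, Φ (Pi.single i 1) = e i := fun i => by
    rw [hΦ, evalMap_single, map_one, one_mul]
  have hmul : ∀ a b, Φ (tmul T a b) = Φ a * Φ b := by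
    intro a b
    induction a using vec_induction with
    | h0 => rw [zero_tmul, map_zero, zero_mul]
    | hadd a a' ha ha' => rw [add_tmul, map_add, map_add, ha, ha', add_mul]
    | hs r i =>
      induction b using vec_induction with
      | h0 => rw [tmul_zero, map_zero, mul_zero]
      | hadd b b' hb hb' => rw [tmul_add, map_add, map_add, hb, hb', mul_add]
      | hs s j =>
        rw [smul_tmul, tmul_smul, hΦs, hΦs, hΦs, hΦs, hΦe, hΦe, single_tmul_single]
        have h1 : (fun k => (1 : K[X]) * 1 * T i j k) = T i j := by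
          funext k; rw [one_mul, one_mul]
        rw [h1, hT]
        ring
  have htab : IsTable T := by
    refine ⟨?_, ?_, ?_⟩
    · intro i j k
      have h1 : T i j = T j i := hinj (by rw [hT, hT, mul_comm])
      rw [h1]
    · intro i j k r
      rw [← tmul_single_apply, ← single_tmul_apply]
      have h1 : tmul T (T i j) (Pi.single k 1) = tmul T (Pi.single i 1) (T j k) := by
        apply hinj
        rw [hmul, hmul, hT, hT, hΦe, hΦe, mul_assoc]
      rw [h1]
    · intro j k
      have h1 : T 0 j = Pi.single j 1 := hinj (by rw [hT, hΦe, he1, one_mul])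
      rw [h1, Pi.single_apply]
      simp only [eq_comm]
  have hTne : ∀ i j, T i j ≠ 0 := by
    intro i j h0
    have h1 := hT i j
    rw [h0, map_zero] at h1
    exact mul_ne_zero (he0 i) (he0 j) h1.symm
  have hTd : ∀ i j, dg q (T i j) = pos q i 0 + pos q j 0 := by
    intro i j
    rw [← (hd _ (hTne i j)).2, hT, D.d_mul _ _ (he0 i) (he0 j), he, he]
  refine ⟨m, hm, q, T, htab, hq, ⟨?_, ?_⟩, ⟨?_⟩⟩
  · intro i j k r h
    rw [← hTd]
    exact pos_le_dg h
  · intro i j
    obtain ⟨k, r, h1, h2⟩ := exists_top (q := q) (hTne i j)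
    exact ⟨k, r, h1, h2.trans (hTd i j)⟩
  · exact AlgEquiv.ofBijective
      { toFun := fun a => Φ a
        map_zero' := map_zero Φ
        map_one' := (hΦe 0).trans he1
        map_add' := fun a b => map_add Φ _ _
        map_mul' := fun a b => hmul a b
        commutes' := fun c => by
          rw [← SC.mk_single]
          show Φ (Pi.single 0 (algebraMap K K[X] c)) = _
          rw [hΦ, evalMap_single, he1, mul_one]
          exact (aeval x).commutes c } ⟨hinj, hsurj⟩

end DegreeFn

end Fermat.Agent.S27D
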