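import Mathlib
import Fermat.Agent.S27D.Count
import Fermat.Agent.S27D.Model
import Fermat.Agent.S27D.Curve

/-!
# The transfer theorem for torsion in class groups
-/

open Polynomial AlgebraicCurve

set_option autoImplicit false

namespace Fermat.Agent.S27D

open Fermat.Agent.FO

universe u v

lemma isDedekindDomain_of_ringEquiv {R A : Type*} [CommRing R] [CommRing A] [IsDedekindDomain A]
    (e : R ≃+* A) : IsDedekindDomain R := by
  have h1 : IsDomain R := e.toMulEquiv.isDomain A
  have h2 : IsNoetherianRing R := isNoetherianRing_of_ringEquiv A e.symm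
  have h3 : Ring.DimensionLEOne R := Ring.DimensionLEOne.of_ringEquiv e
  have h4 : IsIntegrallyClosed R := IsIntegrallyClosed.of_equiv e.symm
  have h5 : IsDedekindRing R := { h2, h3, h4 with }
  exact { h1, h5 with }

lemma isAlgClosed_of_ringEquiv {k : Type*} {k' : Type*} [Field k] [Field k'] [IsAlgClosed k]
    (e : k ≃+* k') : IsAlgClosed k' := by
  apply IsAlgClosed.of_exists_root
  intro p _ hp
  have hpe : degree (p.map e.symm.toRingHom) ≠ 0 := by
    rw [degree_map]
    exact ne_of_gt (degree_pos_of_irreducible hp)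
  obtain ⟨x, hx⟩ := IsAlgClosed.exists_root (k := k) (p.map e.symm.toRingHom) hpe
  refine ⟨e x, ?_⟩
  rw [IsRoot, eval_map] at hx
  have h1 := congrArg e hx
  rw [map_zero] at h1
  have h2 : e (eval₂ e.symm.toRingHom x p) = eval₂ ((e : k →+* k').comp e.symm.toRingHom) (e x) p :=
    hom_eval₂ p e.symm.toRingHom (e : k →+* k') x
  have h3 : ((e : k →+* k').comp e.symm.toRingHom) = RingHom.id k' := by
    ext y
    simp
  rw [h2, h3, eval₂_id] at h1
  exact h1

/-- Every table is of the form `tab v`. -/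
lemma exists_eq_tab {K : Type*} [Field K] {m : ℕ} (T : Fin m → Fin m → Fin m → K[X]) :
    ∃ (B : ℕ) (v : Fin m × Fin m × Fin m × Fin B → K), tab v = T := by
  let B : ℕ := Finset.univ.sup (fun x : Fin m × Fin m × Fin m => (T x.1 x.2.1 x.2.2).natDegree) + 1
  refine ⟨B, fun x => (T x.1 x.2.1 x.2.2.1).coeff x.2.2.2, ?_⟩
  funext i j k
  have h1 : (T i j k).natDegree < B := by
    have := Finset.le_sup (f := fun x : Fin m × Fin m × Fin m => (T x.1 x.2.1 x.2.2).natDegree)
      (Finset.mem_univ (i, j, k))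
    dsimp only at this
    omega
  unfold tab
  conv_rhs => rw [(T i j k).as_sum_range_C_mul_X_pow' h1]
  rw [Finset.sum_range]

/-- Every function field has a valid parameter. -/
theorem exists_param (K : Type u) (F : Type v) [Field K] [IsAlgClosed K] [CharZero K] [Field F]
    [Algebra K F] [RR.FunctionField K F] :
    ∃ (m B : ℕ) (_ : NeZero m) (q : Fin m → ℕ) (w : Fin m × Fin m × Fin m × Fin B → K),
      q 0 = 0 ∧ Valid q (tab w) ∧ gapN q = genusFF K F ∧
      ∀ n N : ℕ, 1 ≤ n → 0 < N →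
        (CountR q (tab w) n N ↔ Nat.card (Pic0.torsion K F n) = N) := by
  obtain ⟨x, κ, hDed, hFrac, D, hκ⟩ := exists_affine K F
  obtain ⟨m, hm, q, T, h, hq, hT, ⟨e⟩⟩ := D.exists_model hκ
  obtain ⟨B, w, rfl⟩ := exists_eq_tab T
  have hD : IsDedekindDomain (SC (tab w) h) := isDedekindDomain_of_ringEquiv e.toRingEquiv
  let : Algebra (SC (tab w) h) F := ((algebraMap (integralClosure (Algebra.adjoin K {x}) F) F).comp
    e.toRingEquiv.symm.symm.toRingHom).toAlgebra
  have hfr : IsFractionRing (SC (tab w) h) F :=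
    (IsFractionRing.isFractionRing_iff_of_base_ringEquiv (S := F) (h := e.toRingEquiv.symm)).mp
      hFrac
  have htow : IsScalarTower K (SC (tab w) h) F := IsScalarTower.of_algebraMap_eq fun c => by
    show algebraMap K F c = algebraMap _ F (e (algebraMap K _ c))
    rw [e.commutes, ← IsScalarTower.algebraMap_apply]
  refine ⟨m, B, hm, q, w, hq, ⟨h, hT, fun x₀ ε hp =>
    smoothAt_of_isDedekindDomain h hT hq hp⟩, ?_, fun n N hn hN => countR_iff h hT hq hn hN⟩
  rw [← gap_eq h hT hq]
  exact ((dgFn h hT hq).genusFF_eq_gap (F := F) (isConductor_cond h hT hq)).symm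

/-- The transfer statement in positive characteristic, from the knowledge of the cardinality of
the torsion for all function fields over `K`. -/
theorem stmt_of_card {K : Type u} [Field K] [IsAlgClosed K] {m B : ℕ} [NeZero m] {q : Fin m → ℕ}
    (hq : q 0 = 0) {n : ℕ} (hn : 1 ≤ n) {f : ℕ → ℕ} (hf : ∀ g, 0 < f g)
    (hcard : ∀ (F : Type u) [Field F] [Algebra K F] [RR.FunctionField K F],
      Nat.card (Pic0.torsion K F n) = f (genusFF K F))
    (w : Fin m × Fin m × Fin m × Fin B → K) : Stmt m B q n (f (gapN q)) K w := by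
  rintro ⟨h, hT, hS⟩
  have hD : IsDedekindDomain (SC (tab w) h) := isDedekindDomain_of_smoothAt h hT hq hS
  let F := FractionRing (SC (tab w) h)
  have hκ := isConductor_cond h hT hq
  have hFF := (dgFn h hT hq).functionField (F := F) hκ
  rw [countR_iff h hT hq (F := F) hn (hf _), hcard F,
    (dgFn h hT hq).genusFF_eq_gap (F := F) hκ, gap_eq]

/-- **Transfer** of the cardinality of torsion from positive characteristic to characteristic
zero. -/
theorem natCard_torsion_of_transfer (K : Type u) (F : Type v) [Field K] [Field F] [Algebra K F]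
    [IsAlgClosed K] [CharZero K] [RR.FunctionField K F] {n : ℕ} (hn : 1 ≤ n) {f : ℕ → ℕ}
    (hf : ∀ g, 0 < f g)
    (hcard : {p : Nat.Primes | ∃ (k : Type u) (_ : Field k), IsAlgClosed k ∧ CharP k p ∧
      ∀ (F : Type u) [Field F] [Algebra k F] [RR.FunctionField k F],
      Nat.card (Pic0.torsion k F n) = f (genusFF k F)}.Infinite) :
    Nat.card (Pic0.torsion K F n) = f (genusFF K F) := by
  obtain ⟨m, B, hm, q, w, hq, hV, hg, hcount⟩ := exists_param K F
  rw [← hg, ← hcount n _ hn (hf _)]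
  have h1 := (isFO_stmt m B q n (f (gapN q))).transfer (K := K) (v := w) ?_
  · exact h1 hV
  · refine hcard.mono ?_
    rintro p ⟨k, hk, hk1, hk2, hk3⟩
    exact ⟨k, hk, hk1, hk2, fun w => stmt_of_card hq hn hf hk3 w⟩

/-- The main theorem, given the result in positive characteristic. -/
theorem natCard_torsion_charZero
    (hcharP : ∀ (p : ℕ) [Fact p.Prime] (K F : Type u) [Field K] [Field F] [Algebra K F]
      [IsAlgClosed K] [Algebra (ZMod p) K] [Algebra.IsAlgebraic (ZMod p) K]
      [RR.FunctionField K F] (ℓ : ℕ) [Fact ℓ.Prime] (_hℓ : ℓ ≠ p) (k : ℕ),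
      Nat.card (Pic0.torsion K F (ℓ ^ k)) = ℓ ^ (2 * genusFF K F * k))
    (K : Type u) (F : Type v) [Field K] [Field F] [Algebra K F] [IsAlgClosed K] [CharZero K]
    [RR.FunctionField K F] (ℓ : ℕ) [Fact ℓ.Prime] (k : ℕ) :
    Nat.card (Pic0.torsion K F (ℓ ^ k)) = ℓ ^ (2 * genusFF K F * k) := by
  have hℓ : 0 < ℓ := (Fact.out : ℓ.Prime).pos
  refine natCard_torsion_of_transfer K F (n := ℓ ^ k) (Nat.one_le_pow _ _ hℓ)
    (f := fun g => ℓ ^ (2 * g * k)) (fun g => pow_pos hℓ _) ?_
  have hinf : {p : Nat.Primes | (p : ℕ) ≠ ℓ}.Infinite := by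
    have h1 : {p : Nat.Primes | (p : ℕ) = ℓ}.Finite :=
      (Set.finite_singleton (⟨ℓ, Fact.out⟩ : Nat.Primes)).subset fun p hp => Subtype.ext hp
    have h2 : {p : Nat.Primes | (p : ℕ) ≠ ℓ} = {p : Nat.Primes | (p : ℕ) = ℓ}ᶜ := rfl
    rw [h2]
    exact h1.infinite_compl
  refine hinf.mono ?_
  intro p hp
  have hpF : Fact (p : ℕ).Prime := ⟨p.2⟩
  let k₀ := AlgebraicClosure (ZMod p)
  let k₁ := ULift.{u} k₀
  let e : k₁ ≃ₐ[ZMod p] k₀ := ULift.algEquiv
  have hac : IsAlgClosed k₁ := isAlgClosed_of_ringEquiv e.symm.toRingEquiv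
  have halg : Algebra.IsAlgebraic (ZMod p) k₁ := e.symm.isAlgebraic
  have hch : CharP k₁ p := charP_of_injective_algebraMap (algebraMap (ZMod p) k₁).injective p
  refine ⟨k₁, inferInstance, hac, hch, ?_⟩
  intro F _ _ _
  exact hcharP p k₁ F ℓ (Ne.symm hp) k

end Fermat.Agent.S27D
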