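import Fermat.Agent.S27D.Final
import Fermat.Agent.RR.HoloClass
import Fermat.Agent.S27Lib.Divisible

/-!
# Divisibility of the class group, by transfer
-/

open Polynomial AlgebraicCurve Module

namespace Fermat.Agent.S27D

namespace DegreeFn

section ring

variable {K A : Type*} [Field K] [CommRing A] [Algebra K A] [IsDedekindDomain A]
  (D : DegreeFn K A) {κ : ℕ}

/-- Reduction modulo a non-zero element. -/
lemma exists_reduce (hκ : D.IsConductor κ) {x : A} (hx : x ≠ 0) (s : A) :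
    ∃ s' r : A, s = s' + x * r ∧ D.d s' ≤ κ + D.d x := by
  have h := D.L_sup_eq_top ((Ideal.span {x}).restrictScalars K) (κ + D.d x)
    (fun n hn _ => D.val_of_mem hκ _ (Ideal.mem_span_singleton_self x) hx n hn)
  have hs : s ∈ D.L (κ + D.d x) ⊔ (Ideal.span {x}).restrictScalars K := by rw [h]; trivial
  obtain ⟨s', hs', w, hw, rfl⟩ := Submodule.mem_sup.mp hs
  have hw' : w ∈ Ideal.span {x} := hw
  obtain ⟨r, rfl⟩ := Ideal.mem_span_singleton.mp hw'
  refine ⟨s', r, rfl, ?_⟩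
  rcases hs' with h | h
  · rw [h, D.d_zero]; exact Nat.zero_le _
  · exact h.le

omit [Algebra K A] in
lemma span_pow_sup (c e : A) (n : ℕ) (hn : 1 ≤ n) :
    (Ideal.span {c} ⊔ Ideal.span {e}) ^ n = Ideal.span {c ^ n} ⊔ Ideal.span {e ^ n} := by
  set I : Ideal A := Ideal.span {c} ⊔ Ideal.span {e} with hI
  by_cases hI0 : I = ⊥
  · have h0 := hI0
    rw [hI, sup_eq_bot_iff, Ideal.span_singleton_eq_bot, Ideal.span_singleton_eq_bot] at h0
    obtain ⟨hc, he⟩ := h0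
    rw [hI0, hc, he, zero_pow (by omega), ← Ideal.zero_eq_bot, zero_pow (by omega)]
    simp
  obtain ⟨C, hC⟩ : I ∣ Ideal.span {c} := Ideal.dvd_iff_le.mpr le_sup_left
  obtain ⟨C', hC'⟩ : I ∣ Ideal.span {e} := Ideal.dvd_iff_le.mpr le_sup_right
  have hcop : IsCoprime C C' := by
    rw [Ideal.isCoprime_iff_sup_eq]
    have h1 : I * (C ⊔ C') = I * ⊤ := by
      rw [Ideal.mul_sup, ← hC, ← hC', Ideal.mul_top]
    exact mul_left_cancel₀ hI0 h1
  have hcopn : C ^ n ⊔ C' ^ n = ⊤ := Ideal.isCoprime_iff_sup_eq.mp hcop.pow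
  rw [← Ideal.span_singleton_pow, ← Ideal.span_singleton_pow, hC, hC', mul_pow, mul_pow,
      ← Ideal.mul_sup, hcopn, Ideal.mul_top]

/-- `(a, b)` times an `n`-th power is principal, with bounded witnesses. -/
def DivWitness (n R : ℕ) (a b : A) : Prop :=
  ∃ z : Fin 11 → A, (∀ i, D.d (z i) ≤ R) ∧ z 2 ≠ 0 ∧ a * z 0 ^ n = z 2 * z 3 ∧
    a * z 1 ^ n = z 2 * z 4 ∧ b * z 0 ^ n = z 2 * z 5 ∧ b * z 1 ^ n = z 2 * z 6 ∧
    z 7 * z 3 + z 8 * z 4 + z 9 * z 5 + z 10 * z 6 = 1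

lemma exists_of_divWitness {n R : ℕ} (hn : 1 ≤ n) {a b : A} (h : D.DivWitness n R a b) :
    ∃ (J : Ideal A) (f : A), J ≠ ⊥ ∧ f ≠ 0 ∧
      (Ideal.span {a} ⊔ Ideal.span {b}) * J ^ n = Ideal.span {f} := by
  obtain ⟨z, -, hf, h0, h1, h2, h3, h4⟩ := h
  have htop : Ideal.span {z 3} ⊔ Ideal.span {z 4} ⊔ (Ideal.span {z 5} ⊔ Ideal.span {z 6}) =
      (⊤ : Ideal A) := by
    rw [Ideal.eq_top_iff_one, ← h4]
    refine Ideal.add_mem _ (Ideal.add_mem _ (Ideal.add_mem _ ?_ ?_) ?_) ?_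
    · exact Ideal.mul_mem_left _ _ (Ideal.mem_sup_left (Ideal.mem_sup_left
        (Ideal.mem_span_singleton_self _)))
    · exact Ideal.mul_mem_left _ _ (Ideal.mem_sup_left (Ideal.mem_sup_right
        (Ideal.mem_span_singleton_self _)))
    · exact Ideal.mul_mem_left _ _ (Ideal.mem_sup_right (Ideal.mem_sup_left
        (Ideal.mem_span_singleton_self _)))
    · exact Ideal.mul_mem_left _ _ (Ideal.mem_sup_right (Ideal.mem_sup_right
        (Ideal.mem_span_singleton_self _)))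
  have key : (Ideal.span {a} ⊔ Ideal.span {b}) * (Ideal.span {z 0} ⊔ Ideal.span {z 1}) ^ n =
      Ideal.span {z 2} := by
    rw [span_pow_sup _ _ _ hn, Ideal.sup_mul, Ideal.mul_sup, Ideal.mul_sup,
      Ideal.span_singleton_mul_span_singleton, Ideal.span_singleton_mul_span_singleton,
      Ideal.span_singleton_mul_span_singleton, Ideal.span_singleton_mul_span_singleton,
      h0, h1, h2, h3, ← Ideal.span_singleton_mul_span_singleton,
      ← Ideal.span_singleton_mul_span_singleton, ← Ideal.span_singleton_mul_span_singleton,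
      ← Ideal.span_singleton_mul_span_singleton, ← Ideal.mul_sup, ← Ideal.mul_sup,
      ← Ideal.mul_sup, htop, Ideal.mul_top]
  refine ⟨_, z 2, ?_, hf, key⟩
  intro hJ
  rw [hJ] at key
  have : (⊥ : Ideal A) ^ n = ⊥ := zero_pow (by omega)
  rw [this, Ideal.mul_bot] at key
  exact hf (Ideal.span_singleton_eq_bot.mp key.symm)

/-- Degree bound for generators. -/
def rr (κ g : ℕ) : ℕ := κ + (g + 1 + g)

/-- Degree bound for witnesses. -/
def RR (κ g n : ℕ) : ℕ := κ + (n + 1) * rr κ g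

lemma divWitness_of [IsAlgClosed K] (hκ : D.IsConductor κ) {n : ℕ} (hn : 1 ≤ n) {a b : A}
    (ha : a ≠ 0) {J : Ideal A} (hJ : J ≠ ⊥) {f : A}
    (h : (Ideal.span {a} ⊔ Ideal.span {b}) * J ^ n = Ideal.span {f}) {g : ℕ}
    (hcod : D.codim J ≤ g) (hg : D.gap κ ≤ g) (had : D.d a ≤ rr κ g) (hbd : D.d b ≤ rr κ g) :
    D.DivWitness n (RR κ g n) a b := by
  obtain ⟨c, e, J', C, hc0, hcd, hed, hcJ, heC, hcop⟩ := D.exists_two_generators hκ hJ
  have hJce : J = Ideal.span {c} ⊔ Ideal.span {e} := by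
    rw [hcJ, heC, ← Ideal.mul_sup, Ideal.isCoprime_iff_sup_eq.mp hcop, Ideal.mul_top]
  set I := Ideal.span {a} ⊔ Ideal.span {b} with hI
  have hI0 : I ≠ ⊥ := by
    intro h0
    rw [hI, sup_eq_bot_iff, Ideal.span_singleton_eq_bot] at h0
    exact ha h0.1
  have hf0 : f ≠ 0 := by
    rintro rfl
    rw [Ideal.span_singleton_eq_bot.mpr rfl] at h
    exact mul_ne_zero hI0 (pow_ne_zero n hJ) h
  have hJn : J ^ n = Ideal.span {c ^ n} ⊔ Ideal.span {e ^ n} := by
    rw [hJce, span_pow_sup _ _ _ hn]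
  have hprod : ∀ x y : A, x ∈ I → y ∈ J ^ n → ∃ u, x * y = f * u := by
    intro x y hx hy
    have : x * y ∈ Ideal.span {f} := by
      rw [← h]; exact Ideal.mul_mem_mul hx hy
    obtain ⟨u, hu⟩ := Ideal.mem_span_singleton.mp this
    exact ⟨u, hu⟩
  have haI : a ∈ I := Ideal.mem_sup_left (Ideal.mem_span_singleton_self _)
  have hbI : b ∈ I := Ideal.mem_sup_right (Ideal.mem_span_singleton_self _)
  have hcJn : c ^ n ∈ J ^ n := by
    rw [hJn]; exact Ideal.mem_sup_left (Ideal.mem_span_singleton_self _)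
  have heJn : e ^ n ∈ J ^ n := by
    rw [hJn]; exact Ideal.mem_sup_right (Ideal.mem_span_singleton_self _)
  obtain ⟨u₀, hu₀⟩ := hprod _ _ haI hcJn
  obtain ⟨u₁, hu₁⟩ := hprod _ _ haI heJn
  obtain ⟨u₂, hu₂⟩ := hprod _ _ hbI hcJn
  obtain ⟨u₃, hu₃⟩ := hprod _ _ hbI heJn
  have htop : Ideal.span {u₀} ⊔ Ideal.span {u₁} ⊔ (Ideal.span {u₂} ⊔ Ideal.span {u₃}) =
      (⊤ : Ideal A) := by
    have h1 : Ideal.span {f} * (Ideal.span {u₀} ⊔ Ideal.span {u₁} ⊔
        (Ideal.span {u₂} ⊔ Ideal.span {u₃})) = Ideal.span {f} * ⊤ := by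
      rw [Ideal.mul_top]
      conv_rhs => rw [← h, hJn, hI, Ideal.sup_mul, Ideal.mul_sup, Ideal.mul_sup,
        Ideal.span_singleton_mul_span_singleton, Ideal.span_singleton_mul_span_singleton,
        Ideal.span_singleton_mul_span_singleton, Ideal.span_singleton_mul_span_singleton,
        hu₀, hu₁, hu₂, hu₃]
      rw [Ideal.mul_sup, Ideal.mul_sup, Ideal.mul_sup,
        Ideal.span_singleton_mul_span_singleton, Ideal.span_singleton_mul_span_singleton,
        Ideal.span_singleton_mul_span_singleton, Ideal.span_singleton_mul_span_singleton]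
    exact mul_left_cancel₀ (by rwa [Ne, Ideal.zero_eq_bot, Ideal.span_singleton_eq_bot]) h1
  have h1 : (1 : A) ∈ Ideal.span {u₀} ⊔ Ideal.span {u₁} ⊔ (Ideal.span {u₂} ⊔ Ideal.span {u₃}) := by
    rw [htop]; trivial
  obtain ⟨y, hy, y', hy', hyy⟩ := Submodule.mem_sup.mp h1
  obtain ⟨y₀, hy₀, y₁, hy₁, rfl⟩ := Submodule.mem_sup.mp hy
  obtain ⟨y₂, hy₂, y₃, hy₃, rfl⟩ := Submodule.mem_sup.mp hy'
  obtain ⟨s₀, rfl⟩ := Ideal.mem_span_singleton.mp hy₀
  obtain ⟨s₁, rfl⟩ := Ideal.mem_span_singleton.mp hy₁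
  obtain ⟨s₂, rfl⟩ := Ideal.mem_span_singleton.mp hy₂
  obtain ⟨s₃, rfl⟩ := Ideal.mem_span_singleton.mp hy₃
  have hu₀0 : u₀ ≠ 0 := by
    rintro rfl
    rw [mul_zero] at hu₀
    exact mul_ne_zero ha (pow_ne_zero n hc0) hu₀
  obtain ⟨t₁, r₁, ht₁, hd₁⟩ := D.exists_reduce hκ hu₀0 s₁
  obtain ⟨t₂, r₂, ht₂, hd₂⟩ := D.exists_reduce hκ hu₀0 s₂
  obtain ⟨t₃, r₃, ht₃, hd₃⟩ := D.exists_reduce hκ hu₀0 s₃
  set t₀ := s₀ + r₁ * u₁ + r₂ * u₂ + r₃ * u₃ with ht₀
  have hsum : t₀ * u₀ + t₁ * u₁ + t₂ * u₂ + t₃ * u₃ = 1 := by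
    rw [← hyy, ht₀, ht₁, ht₂, ht₃]; ring
  -- degrees
  have hn' : rr κ g ≤ n * rr κ g := Nat.le_mul_of_pos_left _ (by omega)
  have hRR : RR κ g n = κ + (n * rr κ g + rr κ g) := by unfold RR; ring
  have hcd' : D.d c ≤ rr κ g := by unfold rr; omega
  have hed' : D.d e ≤ rr κ g := by unfold rr; omega
  have hpow : ∀ x : A, D.d x ≤ rr κ g → D.d (x ^ n) ≤ n * rr κ g := by
    intro x hx
    by_cases hx0 : x = 0
    · rw [hx0, zero_pow (by omega), D.d_zero]; exact Nat.zero_le _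
    · rw [D.d_pow hx0]; exact Nat.mul_le_mul_left n hx
  have hfu : ∀ x y u : A, D.d x ≤ rr κ g → D.d y ≤ rr κ g → x * y ^ n = f * u →
      D.d u ≤ n * rr κ g + rr κ g := by
    intro x y u hx hy hu
    by_cases hu0 : u = 0
    · rw [hu0, D.d_zero]; exact Nat.zero_le _
    · have h2 := D.d_mul f u hf0 hu0
      rw [← hu] at h2
      have h3 := D.d_mul_le x (y ^ n)
      have h4 := hpow y hy
      omega
  have hdu₀ := hfu a c u₀ had hcd' hu₀
  have hdu₁ := hfu a e u₁ had hed' hu₁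
  have hdu₂ := hfu b c u₂ hbd hcd' hu₂
  have hdu₃ := hfu b e u₃ hbd hed' hu₃
  have hdf : D.d f ≤ n * rr κ g + rr κ g := by
    have h2 := D.d_mul f u₀ hf0 hu₀0
    rw [← hu₀] at h2
    have h3 := D.d_mul_le a (c ^ n)
    have h4 := hpow c hcd'
    omega
  have hdt₀ : D.d t₀ ≤ κ + (n * rr κ g + rr κ g) := by
    by_cases ht₀0 : t₀ = 0
    · rw [ht₀0, D.d_zero]; exact Nat.zero_le _
    · have h2 := D.d_mul t₀ u₀ ht₀0 hu₀0
      have h3 : t₀ * u₀ = 1 - t₁ * u₁ - t₂ * u₂ - t₃ * u₃ := by rw [← hsum]; ring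
      have h4 := D.d_sub_le (1 - t₁ * u₁ - t₂ * u₂) (t₃ * u₃)
      have h5 := D.d_sub_le (1 - t₁ * u₁) (t₂ * u₂)
      have h6 := D.d_sub_le 1 (t₁ * u₁)
      rw [← h3] at h4
      have h7 := D.d_mul_le t₁ u₁
      have h8 := D.d_mul_le t₂ u₂
      have h9 := D.d_mul_le t₃ u₃
      have h10 := D.d_one
      omega
  refine ⟨![c, e, f, u₀, u₁, u₂, u₃, t₀, t₁, t₂, t₃], ?_, hf0, hu₀, hu₁, hu₂, hu₃, hsum⟩
  intro i
  rw [hRR]
  fin_cases i
  · show D.d c ≤ _; omega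
  · show D.d e ≤ _; omega
  · show D.d f ≤ _; omega
  · show D.d u₀ ≤ _; omega
  · show D.d u₁ ≤ _; omega
  · show D.d u₂ ≤ _; omega
  · show D.d u₃ ≤ _; omega
  · show D.d t₀ ≤ _; omega
  · show D.d t₁ ≤ _; omega
  · show D.d t₂ ≤ _; omega
  · show D.d t₃ ≤ _; omega

open nonZeroDivisors in
/-- The class group is `n`-divisible iff the bounded statement holds. -/
theorem divisible_iff [IsAlgClosed K] (hκ : D.IsConductor κ) {n : ℕ} (hn : 1 ≤ n) :
    (∀ x : ClassGroup A, ∃ y, y ^ n = x) ↔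
      ∀ a b : A, a ≠ 0 → D.d a ≤ rr κ (D.gap κ) → D.d b ≤ rr κ (D.gap κ) →
        D.DivWitness n (RR κ (D.gap κ) n) a b := by
  constructor
  · intro h a b ha had hbd
    set I := Ideal.span {a} ⊔ Ideal.span {b} with hI
    have hI0 : I ≠ ⊥ := by
      intro h0
      rw [hI, sup_eq_bot_iff, Ideal.span_singleton_eq_bot] at h0
      exact ha h0.1
    obtain ⟨y, hy⟩ := h (ClassGroup.mk0 ⟨I, mem_nonZeroDivisors_of_ne_zero hI0⟩)⁻¹
    obtain ⟨⟨J', hJ'⟩, rfl⟩ := ClassGroup.mk0_surjective y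
    have hJ'0 : J' ≠ ⊥ := nonZeroDivisors.ne_zero hJ'
    obtain ⟨J, p, q, hJ0, hp, hq, hJJ, hcod⟩ := D.exists_small_rep hκ hJ'0
    have hmk : ClassGroup.mk0 ⟨J', hJ'⟩ = ClassGroup.mk0 ⟨J, mem_nonZeroDivisors_of_ne_zero hJ0⟩ :=
      ClassGroup.mk0_eq_mk0_iff.mpr ⟨p, q, hp, hq, hJJ⟩
    rw [hmk] at hy
    have h1 : ClassGroup.mk0 (⟨I, mem_nonZeroDivisors_of_ne_zero hI0⟩ *
        ⟨J, mem_nonZeroDivisors_of_ne_zero hJ0⟩ ^ n : (Ideal A)⁰) = 1 := by
      rw [map_mul, map_pow, hy, mul_inv_cancel]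
    rw [ClassGroup.mk0_eq_one_iff] at h1
    obtain ⟨f, hf⟩ := h1.principal
    exact D.divWitness_of hκ hn ha hJ0 (f := f) hf hcod le_rfl had hbd
  · intro h x
    obtain ⟨⟨I', hI'⟩, hx⟩ := ClassGroup.mk0_surjective x
    have hI'0 : I' ≠ ⊥ := nonZeroDivisors.ne_zero hI'
    obtain ⟨I, p, q, hI0, hp, hq, hII, hcod⟩ := D.exists_small_rep hκ hI'0
    have hmk : ClassGroup.mk0 ⟨I', hI'⟩ = ClassGroup.mk0 ⟨I, mem_nonZeroDivisors_of_ne_zero hI0⟩ :=
      ClassGroup.mk0_eq_mk0_iff.mpr ⟨p, q, hp, hq, hII⟩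
    obtain ⟨a, b, J', C, ha0, had, hbd, haJ, hbC, hcop⟩ := D.exists_two_generators hκ hI0
    have hIab : I = Ideal.span {a} ⊔ Ideal.span {b} := by
      rw [haJ, hbC, ← Ideal.mul_sup, Ideal.isCoprime_iff_sup_eq.mp hcop, Ideal.mul_top]
    obtain ⟨J, f, hJ0, hf, hJf⟩ := D.exists_of_divWitness hn
      (h a b ha0 (by unfold rr; omega) (by unfold rr; omega))
    rw [← hIab] at hJf
    refine ⟨(ClassGroup.mk0 ⟨J, mem_nonZeroDivisors_of_ne_zero hJ0⟩)⁻¹, ?_⟩
    rw [← hx, hmk, inv_pow, inv_eq_iff_mul_eq_one, mul_comm, ← map_pow, ← map_mul,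
      ClassGroup.mk0_eq_one_iff]
    exact ⟨⟨f, hJf⟩⟩

end ring

section places

variable {K F A : Type*} [Field K] [IsAlgClosed K] [Field F] [Algebra K F] [CommRing A]
  [IsDedekindDomain A] [Algebra K A] [Algebra A F] [IsFractionRing A F] [IsScalarTower K A F]
  (D : DegreeFn K A) {κ : ℕ}

lemma mem_holo_iff (hκ : D.IsConductor κ) {f : F} :
    f ∈ RR.holo (D.infPlace (F := F) hκ) ↔ f ∈ (algebraMap A F).range := by
  constructor
  · intro h
    apply IsDedekindDomain.HeightOneSpectrum.mem_integers_of_valuation_le_one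
    intro w
    have h1 : Place.ofHeightOneSpectrum (K := K) (F := F) w ≠ D.infPlace hκ := by
      intro h2
      exact D.not_good_infPlace (F := F) hκ (h2 ▸ good_ofHeightOneSpectrum w)
    have h2 := h _ h1
    rwa [Place.ofHeightOneSpectrum_toValuationSubring, Valuation.mem_valuationSubring_iff] at h2
  · rintro ⟨a, rfl⟩ v hv
    by_contra hcon
    exact hv (D.eq_infPlace' hκ v (fun h => hcon (h a)))

/-- `A` is the ring of functions regular outside the place at infinity. -/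
noncomputable def holoEquiv (hκ : D.IsConductor κ) : A ≃+* RR.holo (D.infPlace (F := F) hκ) :=
  RingEquiv.ofBijective
    ((algebraMap A F).codRestrict (RR.holo (D.infPlace (F := F) hκ)).toSubring
      (fun a => (D.mem_holo_iff hκ).mpr ⟨a, rfl⟩))
    ⟨fun a b h => IsFractionRing.injective A F (congrArg Subtype.val h), fun f => by
      obtain ⟨a, ha⟩ := (D.mem_holo_iff hκ).mp f.2
      exact ⟨a, Subtype.ext ha⟩⟩

/-- The degree-zero class group is the class group of `A`. -/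
noncomputable def pic0EquivClass (hκ : D.IsConductor κ) [RR.FunctionField K F] :
    Pic0 K F ≃+ Additive (ClassGroup A) :=
  (RR.pic0Equiv (D.infPlace (F := F) hκ)).trans
    (ClassGroup.mulEquiv (D.holoEquiv (F := F) hκ)).symm.toAdditive

lemma pic0_divisible_iff (hκ : D.IsConductor κ) [RR.FunctionField K F] (n : ℕ) :
    (∀ x : Pic0 K F, ∃ y, n • y = x) ↔ ∀ x : ClassGroup A, ∃ y, y ^ n = x := by
  constructor
  · intro h x
    obtain ⟨y, hy⟩ := h ((D.pic0EquivClass hκ).symm (Additive.ofMul x))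
    refine ⟨(D.pic0EquivClass hκ y).toMul, ?_⟩
    have h1 := congrArg (D.pic0EquivClass (F := F) hκ) hy
    rw [map_nsmul, AddEquiv.apply_symm_apply] at h1
    exact congrArg Additive.toMul h1
  · intro h x
    obtain ⟨y, hy⟩ := h (D.pic0EquivClass hκ x).toMul
    refine ⟨(D.pic0EquivClass hκ).symm (Additive.ofMul y), ?_⟩
    apply (D.pic0EquivClass (F := F) hκ).injective
    rw [map_nsmul, AddEquiv.apply_symm_apply]
    exact congrArg Additive.ofMul hy

end places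

end DegreeFn

section raw

variable {K : Type*} [Field K] {m : ℕ} [NeZero m]

/-- Raw version of `DivWitness`. -/
def DivWR (q : Fin m → ℕ) (T : Fin m → Fin m → Fin m → K[X]) (n R : ℕ) (a b : Fin m → K[X]) :
    Prop :=
  ∃ z : Fin 11 → Fin m → K[X], (∀ s, dg q (z s) ≤ R) ∧ z 2 ≠ 0 ∧
    tmul T a (tpow T (z 0) n) = tmul T (z 2) (z 3) ∧
    tmul T a (tpow T (z 1) n) = tmul T (z 2) (z 4) ∧
    tmul T b (tpow T (z 0) n) = tmul T (z 2) (z 5) ∧
    tmul T b (tpow T (z 1) n) = tmul T (z 2) (z 6) ∧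
    tmul T (z 7) (z 3) + tmul T (z 8) (z 4) + tmul T (z 9) (z 5) + tmul T (z 10) (z 6) =
      tone m K[X]

/-- The divisibility formula. -/
def DivR (q : Fin m → ℕ) (T : Fin m → Fin m → Fin m → K[X]) (n : ℕ) : Prop :=
  ∀ z : Fin 2 → Fin m → K[X], (∀ s, dg q (z s) ≤ DegreeFn.rr (cond q) (gapN q)) → z 0 ≠ 0 →
    DivWR q T n (DegreeFn.RR (cond q) (gapN q) n) (z 0) (z 1)

variable {q : Fin m → ℕ} {T : Fin m → Fin m → Fin m → K[X]}

lemma divWR_iff (h : IsTable T) (hT : IsDeg q T) (hq : q 0 = 0) {n R : ℕ}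
    {a b : Fin m → K[X]} :
    DivWR q T n R a b ↔ (dgFn h hT hq).DivWitness n R (SC.mk h a) (SC.mk h b) := by
  constructor
  · rintro ⟨z, hz, h0, h1, h2, h3, h4, h5⟩
    refine ⟨fun s => SC.mk h (z s), hz, h0, ?_, ?_, ?_, ?_, h5⟩
    · rw [SC.pow_def]; exact h1
    · rw [SC.pow_def]; exact h2
    · rw [SC.pow_def]; exact h3
    · rw [SC.pow_def]; exact h4
  · rintro ⟨z, hz, h0, h1, h2, h3, h4, h5⟩
    rw [SC.pow_def] at h1 h2 h3 h4
    exact ⟨z, hz, h0, h1, h2, h3, h4, h5⟩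

theorem divR_iff [IsAlgClosed K] (h : IsTable T) (hT : IsDeg q T) (hq : q 0 = 0)
    [IsDedekindDomain (SC T h)] {F : Type*} [Field F] [Algebra K F] [Algebra (SC T h) F]
    [IsFractionRing (SC T h) F] [IsScalarTower K (SC T h) F] [RR.FunctionField K F]
    {n : ℕ} (hn : 1 ≤ n) : DivR q T n ↔ ∀ x : Pic0 K F, ∃ y, n • y = x := by
  set D := dgFn h hT hq with hD
  have hκ : D.IsConductor (cond q) := isConductor_cond h hT hq
  have hgap : D.gap (cond q) = gapN q := gap_eq h hT hq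
  rw [D.pic0_divisible_iff (F := F) hκ, D.divisible_iff hκ hn, hgap]
  constructor
  · intro hd a b ha had hbd
    refine (divWR_iff h hT hq).mp (hd ![a, b] ?_ ha)
    intro i
    fin_cases i
    · exact had
    · exact hbd
  · intro hd z hz hz0
    exact (divWR_iff h hT hq).mpr (hd _ _ hz0 (hz 0) (hz 1))

end raw

section fo

open Fermat.Agent.FO

universe u v

variable {α : Type} {m : ℕ} [NeZero m]
  {T : ∀ (K : Type u) [Field K], (α → K) → (Fin m → Fin m → Fin m → K[X])}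
  {a b : ∀ (K : Type u) [Field K], (α → K) → (Fin m → K[X])}

lemma IsFO.divWR (hT : IsUTab T) (ha : IsUVec a) (hb : IsUVec b) (q : Fin m → ℕ) (n R : ℕ) :
    IsFO (fun K _ v => DivWR q (T K v) n R (a K v) (b K v)) := by
  refine IsFO.ex_vec (ρ := Fin 11) q R (Q := fun K _ v z => z 2 ≠ 0 ∧
    tmul (T K v) (a K v) (tpow (T K v) (z 0) n) = tmul (T K v) (z 2) (z 3) ∧
    tmul (T K v) (a K v) (tpow (T K v) (z 1) n) = tmul (T K v) (z 2) (z 4) ∧
    tmul (T K v) (b K v) (tpow (T K v) (z 0) n) = tmul (T K v) (z 2) (z 5) ∧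
    tmul (T K v) (b K v) (tpow (T K v) (z 1) n) = tmul (T K v) (z 2) (z 6) ∧
    tmul (T K v) (z 7) (z 3) + tmul (T K v) (z 8) (z 4) + tmul (T K v) (z 9) (z 5) +
      tmul (T K v) (z 10) (z 6) = tone m K[X]) ?_
  have hz := IsUVec.elv (α := α ⊕ (Fin 11 × Fin m × Fin (R + 1)))
    (w := fun K _ v x => v (Sum.inr x)) (fun x => IsPolyFun.var _)
  have hT' := hT.comp (Sum.inl (β := (Fin 11 × Fin m × Fin (R + 1))))
  have ha' := ha.comp (Sum.inl (β := (Fin 11 × Fin m × Fin (R + 1))))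
  have hb' := hb.comp (Sum.inl (β := (Fin 11 × Fin m × Fin (R + 1))))
  exact ((hz 2).ne IsUVec.zero).and
    (((ha'.tmul hT' ((hz 0).tpow hT' n)).eq ((hz 2).tmul hT' (hz 3))).and
    (((ha'.tmul hT' ((hz 1).tpow hT' n)).eq ((hz 2).tmul hT' (hz 4))).and
    (((hb'.tmul hT' ((hz 0).tpow hT' n)).eq ((hz 2).tmul hT' (hz 5))).and
    (((hb'.tmul hT' ((hz 1).tpow hT' n)).eq ((hz 2).tmul hT' (hz 6))).and
    (((((hz 7).tmul hT' (hz 3)).add ((hz 8).tmul hT' (hz 4))).add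
      ((hz 9).tmul hT' (hz 5))).add ((hz 10).tmul hT' (hz 6)) |>.eq IsUVec.tone)))))

theorem IsFO.divR (hT : IsUTab T) (q : Fin m → ℕ) (n : ℕ) :
    IsFO (fun K _ v => DivR q (T K v) n) := by
  refine IsFO.all_vec (ρ := Fin 2) q (DegreeFn.rr (cond q) (gapN q)) (Q := fun K _ v z =>
    z 0 ≠ 0 → DivWR q (T K v) n (DegreeFn.RR (cond q) (gapN q) n) (z 0) (z 1)) ?_
  have hz := IsUVec.elv (α := α ⊕ (Fin 2 × Fin m × Fin (DegreeFn.rr (cond q) (gapN q) + 1)))
    (w := fun K _ v x => v (Sum.inr x)) (fun x => IsPolyFun.var _)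
  have hT' := hT.comp (Sum.inl (β := (Fin 2 × Fin m × Fin (DegreeFn.rr (cond q) (gapN q) + 1))))
  exact ((hz 0).ne IsUVec.zero).imp (IsFO.divWR hT' (hz 0) (hz 1) q n _)

/-- The transfer statement. -/
def DivStmt (m B : ℕ) [NeZero m] (q : Fin m → ℕ) (n : ℕ) (K : Type u) [Field K]
    (v : Fin m × Fin m × Fin m × Fin B → K) : Prop :=
  Valid q (tab v) → DivR q (tab v) n

theorem isFO_divStmt (m B : ℕ) [NeZero m] (q : Fin m → ℕ) (n : ℕ) :
    IsFO.{u} (fun K _ v => DivStmt m B q n K v) :=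
  ((IsFO.isTable isUTab_tab).and ((IsFO.isDeg isUTab_tab q).and
    (IsFO.smooth isUTab_tab q _))).imp (IsFO.divR isUTab_tab q n)

/-- Every function field has a valid parameter. -/
theorem exists_param_div (K : Type u) (F : Type v) [Field K] [IsAlgClosed K] [CharZero K] [Field F]
    [Algebra K F] [RR.FunctionField K F] :
    ∃ (m B : ℕ) (_ : NeZero m) (q : Fin m → ℕ) (w : Fin m × Fin m × Fin m × Fin B → K),
      q 0 = 0 ∧ Valid q (tab w) ∧
      ∀ n : ℕ, 1 ≤ n → (DivR q (tab w) n ↔ ∀ x : Pic0 K F, ∃ y, n • y = x) := by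
  obtain ⟨x, κ, hDed, hFrac, D, hκ⟩ := exists_affine K F
  obtain ⟨m, hm, q, T, h, hq, hT, ⟨e⟩⟩ := D.exists_model hκ
  obtain ⟨B, w, rfl⟩ := exists_eq_tab T
  have hD : IsDedekindDomain (SC (tab w) h) := isDedekindDomain_of_ringEquiv e.toRingEquiv
  let : Algebra (SC (tab w) h) F := ((algebraMap (integralClosure (Algebra.adjoin K {x}) F) F).comp
    e.toRingEquiv.symm.symm.toRingHom).toAlgebra
  have hfr : IsFractionRing (SC (tab w) h) F :=
    (IsFractionRing.isFractionRing_iff_of_base_ringEquiv (S := F) (h := e.toRingEquiv.symm)).mp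
      hFrac
  have htow : IsScalarTower K (SC (tab w) h) F := IsScalarTower.of_algebraMap_eq fun c => by
    show algebraMap K F c = algebraMap _ F (e (algebraMap K _ c))
    rw [e.commutes, ← IsScalarTower.algebraMap_apply]
  exact ⟨m, B, hm, q, w, hq, ⟨h, hT, fun x₀ ε hp =>
    smoothAt_of_isDedekindDomain h hT hq hp⟩, fun n hn => divR_iff h hT hq hn⟩

theorem divStmt_of_divisible {K : Type u} [Field K] [IsAlgClosed K] {m B : ℕ} [NeZero m]
    {q : Fin m → ℕ} (hq : q 0 = 0) {n : ℕ} (hn : 1 ≤ n)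
    (hdiv : ∀ (F : Type u) [Field F] [Algebra K F] [RR.FunctionField K F] (x : Pic0 K F),
      ∃ y, n • y = x)
    (w : Fin m × Fin m × Fin m × Fin B → K) : DivStmt m B q n K w := by
  rintro ⟨h, hT, hS⟩
  have hD : IsDedekindDomain (SC (tab w) h) := isDedekindDomain_of_smoothAt h hT hq hS
  let F := FractionRing (SC (tab w) h)
  have hκ := isConductor_cond h hT hq
  have hFF := (dgFn h hT hq).functionField (F := F) hκ
  rw [divR_iff h hT hq (F := F) hn]
  exact hdiv F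

/-- **Divisibility of `Pic⁰`** in characteristic zero. -/
theorem pic0_divisible (K : Type u) (F : Type v) [Field K] [Field F] [Algebra K F]
    [IsAlgClosed K] [CharZero K] [RR.FunctionField K F] (n : ℕ) (hn : n ≠ 0) (x : Pic0 K F) :
    ∃ y, n • y = x := by
  have hn1 : 1 ≤ n := Nat.one_le_iff_ne_zero.mpr hn
  obtain ⟨m, B, hm, q, w, hq, hV, hdiv⟩ := exists_param_div K F
  revert x
  rw [← hdiv n hn1]
  refine (isFO_divStmt m B q n).transfer (K := K) (v := w) ?_ hV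
  have hinf : {p : Nat.Primes | ¬ (p : ℕ) ∣ n}.Infinite := by
    have h1 : {p : Nat.Primes | (p : ℕ) ∣ n}.Finite := by
      refine Set.Finite.of_finite_image (f := fun p : Nat.Primes => (p : ℕ)) ?_
        (fun p _ p' _ h => Subtype.ext h)
      refine (Finset.finite_toSet n.divisors).subset ?_
      rintro _ ⟨p, hp, rfl⟩
      exact Finset.mem_coe.mpr (Nat.mem_divisors.mpr ⟨hp, hn⟩)
    exact h1.infinite_compl
  refine hinf.mono ?_
  intro p hp
  have hpF : Fact (p : ℕ).Prime := ⟨p.2⟩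
  let k₀ := AlgebraicClosure (ZMod p)
  let k₁ := ULift.{u} k₀
  let e : k₁ ≃ₐ[ZMod p] k₀ := ULift.algEquiv
  have hac : IsAlgClosed k₁ := isAlgClosed_of_ringEquiv e.symm.toRingEquiv
  have halg : Algebra.IsAlgebraic (ZMod p) k₁ := e.symm.isAlgebraic
  have hch : CharP k₁ p := charP_of_injective_algebraMap (algebraMap (ZMod p) k₁).injective p
  refine ⟨k₁, inferInstance, hac, hch, ?_⟩
  intro w
  refine divStmt_of_divisible hq hn1 ?_ w
  intro F _ _ _ x
  exact Fermat.Agent.S27Lib.pic0_divisible_charP' p k₁ F n hp x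

/-- Finiteness of the `n`-torsion of `Pic⁰` in characteristic zero, `n` a prime power. -/
theorem finite_torsion (K : Type u) (F : Type v) [Field K] [Field F] [Algebra K F]
    [IsAlgClosed K] [CharZero K] [RR.FunctionField K F] (ℓ : ℕ) [Fact ℓ.Prime] (k : ℕ) :
    {x : Pic0 K F | ℓ ^ k • x = 0}.Finite := by
  have h := natCard_torsion_charZero (fun p _ K F _ _ _ _ _ _ _ ℓ _ hℓ k =>
      Fermat.Agent.S27Lib.natCard_torsion_charP p K F ℓ hℓ k) K F ℓ k
  have h1 : Nat.card {x : Pic0 K F // ℓ ^ k • x = 0} ≠ 0 := by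
    have h2 : Nat.card {x : Pic0 K F // ℓ ^ k • x = 0} = Nat.card (Pic0.torsion K F (ℓ ^ k)) :=
      Nat.card_congr (Equiv.subtypeEquivRight fun x => by rw [Pic0.mem_torsion, natCast_zsmul])
    rw [h2, h]
    exact (pow_pos (Fact.out : ℓ.Prime).pos _).ne'
  exact Nat.finite_of_card_ne_zero h1

end fo

end Fermat.Agent.S27D
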